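import Mathlib
import Fermat.Agent.S57Lib.PowerSeries

set_option autoImplicit false

namespace Fermat.Agent.S53lib

open PowerSeries

variable {A : Type*} [CommRing A]

/-- The ideal of power series whose `i`-th coefficient lies in `I ^ (n - i)` for `i < n`. -/
def coeffIdeal (I : Ideal A) (n : ℕ) : Ideal A⟦X⟧ where
  carrier := {g | ∀ i < n, coeff i g ∈ I ^ (n - i)}
  zero_mem' := fun i _ => by simp
  add_mem' := fun {f g} hf hg i hi => by
    rw [map_add]; exact Ideal.add_mem _ (hf i hi) (hg i hi)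
  smul_mem' := fun h g hg i hi => by
    rw [smul_eq_mul, coeff_mul]
    refine Ideal.sum_mem _ fun p hp => ?_
    have hp' : p.1 + p.2 = i := Finset.HasAntidiagonal.mem_antidiagonal.1 hp
    exact Ideal.mul_mem_left _ _
      (Ideal.pow_le_pow_right (by omega) (hg p.2 (by omega)))

theorem mem_coeffIdeal {I : Ideal A} {n : ℕ} {g : A⟦X⟧} :
    g ∈ coeffIdeal I n ↔ ∀ i < n, coeff i g ∈ I ^ (n - i) := Iff.rfl

/-- The ideal `(I, X)` of `A⟦X⟧`. -/
noncomputable def extIdeal (I : Ideal A) : Ideal A⟦X⟧ := I.map (C : A →+* A⟦X⟧) ⊔ Ideal.span {X}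

theorem mul_mem_coeffIdeal_succ (I : Ideal A) (n : ℕ) {a g : A⟦X⟧} (ha : a ∈ extIdeal I)
    (hg : g ∈ coeffIdeal I n) : a * g ∈ coeffIdeal I (n + 1) := by
  have hspan : extIdeal I = Ideal.span ((C : A →+* A⟦X⟧) '' (I : Set A) ∪ {X}) := by
    rw [extIdeal, Ideal.map, Ideal.span_union]
  rw [hspan] at ha
  induction ha using Submodule.span_induction generalizing g with
  | mem a ha =>
    rcases ha with ⟨r, hr, rfl⟩ | rfl
    · intro i hi
      rw [coeff_C_mul]
      rcases Nat.lt_succ_iff_lt_or_eq.1 hi with hi' | rfl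
      · have : n + 1 - i = (n - i) + 1 := by omega
        rw [this, pow_succ']
        exact Ideal.mul_mem_mul hr (hg i hi')
      · have : i + 1 - i = 1 := by omega
        rw [this, pow_one]
        exact Ideal.mul_mem_right _ _ hr
    · intro i hi
      cases i with
      | zero => simp
      | succ i =>
        rw [mul_comm, coeff_succ_mul_X]
        have : n + 1 - (i + 1) = n - i := by omega
        rw [this]
        exact hg i (by omega)
  | zero => rw [zero_mul]; exact Ideal.zero_mem _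
  | add a b _ _ iha ihb => rw [add_mul]; exact Ideal.add_mem _ (iha hg) (ihb hg)
  | smul c a _ iha =>
    rw [smul_eq_mul, mul_assoc, mul_left_comm]
    exact iha (Ideal.mul_mem_left _ c hg)

theorem extIdeal_pow_le_coeffIdeal (I : Ideal A) (n : ℕ) : extIdeal I ^ n ≤ coeffIdeal I n := by
  induction n with
  | zero => intro g _ i hi; omega
  | succ n ih =>
    rw [pow_succ', Ideal.mul_le]
    intro a ha g hg
    exact mul_mem_coeffIdeal_succ I n ha (ih hg)

theorem coeffIdeal_le_extIdeal_pow (I : Ideal A) (n : ℕ) : coeffIdeal I n ≤ extIdeal I ^ n := by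
  intro g hg
  set t : A⟦X⟧ := ∑ i ∈ Finset.range n, C (coeff i g) * X ^ i with ht
  have hcoeff : ∀ m < n, coeff m t = coeff m g := by
    intro m hm
    rw [ht, map_sum, Finset.sum_eq_single m]
    · rw [coeff_C_mul, coeff_X_pow_self, mul_one]
    · intro j _ hj
      rw [coeff_C_mul, coeff_X_pow, if_neg (Ne.symm hj), mul_zero]
    · intro h; exact absurd (Finset.mem_range.2 hm) h
  have hX : (X : A⟦X⟧) ∈ extIdeal I := Ideal.mem_sup_right (Ideal.mem_span_singleton_self X)
  have h1 : t ∈ extIdeal I ^ n := by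
    refine Ideal.sum_mem _ fun i hi => ?_
    have hi' : i < n := Finset.mem_range.1 hi
    have h2 : C (coeff i g) ∈ extIdeal I ^ (n - i) := by
      have h3 : C (coeff i g) ∈ (I ^ (n - i)).map (C : A →+* A⟦X⟧) :=
        Ideal.mem_map_of_mem _ (hg i hi')
      rw [Ideal.map_pow] at h3
      exact Ideal.pow_right_mono le_sup_left _ h3
    have h4 : n = (n - i) + i := by omega
    rw [h4, pow_add]
    exact Ideal.mul_mem_mul h2 (Ideal.pow_mem_pow hX i)
  have h5 : (X : A⟦X⟧) ^ n ∣ g - t := by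
    rw [X_pow_dvd_iff]
    intro m hm
    rw [map_sub, hcoeff m hm, sub_self]
  obtain ⟨h, hh⟩ := h5
  have h6 : g = t + X ^ n * h := by rw [← hh]; ring
  rw [h6]
  exact Ideal.add_mem _ h1 (Ideal.mul_mem_right _ _ (Ideal.pow_mem_pow hX n))

theorem extIdeal_pow_eq (I : Ideal A) (n : ℕ) : extIdeal I ^ n = coeffIdeal I n :=
  le_antisymm (extIdeal_pow_le_coeffIdeal I n) (coeffIdeal_le_extIdeal_pow I n)

theorem isHausdorff_extIdeal (I : Ideal A) [IsHausdorff I A] : IsHausdorff (extIdeal I) A⟦X⟧ := by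
  constructor
  intro g hg
  ext i
  rw [map_zero]
  apply IsHausdorff.haus ‹IsHausdorff I A›
  intro n
  have h1 := hg (n + i)
  rw [SModEq.zero, smul_eq_mul, Ideal.mul_top, extIdeal_pow_eq] at h1
  rw [SModEq.zero, smul_eq_mul, Ideal.mul_top]
  rcases Nat.eq_zero_or_pos n with rfl | hn
  · simp
  · have := h1 i (by omega)
    rwa [Nat.add_sub_cancel] at this

theorem isPrecomplete_extIdeal (I : Ideal A) [IsPrecomplete I A] :
    IsPrecomplete (extIdeal I) A⟦X⟧ := by
  constructor
  intro f hf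
  have hf' : ∀ {m n : ℕ}, m ≤ n → f m - f n ∈ coeffIdeal I m := by
    intro m n hmn
    have := hf hmn
    rwa [SModEq.sub_mem, smul_eq_mul, Ideal.mul_top, extIdeal_pow_eq] at this
  have hex : ∀ i : ℕ, ∃ L : A, ∀ k : ℕ, coeff i (f (k + i)) ≡ L [SMOD (I ^ k • ⊤ : Ideal A)] := by
    intro i
    apply IsPrecomplete.prec ‹IsPrecomplete I A›
    intro k l hkl
    rw [SModEq.sub_mem, smul_eq_mul, Ideal.mul_top, ← map_sub]
    rcases Nat.eq_zero_or_pos k with rfl | hk
    · simp
    · have := hf' (show k + i ≤ l + i by omega) i (by omega)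
      rwa [Nat.add_sub_cancel] at this
  choose L hL using hex
  refine ⟨PowerSeries.mk L, fun n => ?_⟩
  rw [SModEq.sub_mem, smul_eq_mul, Ideal.mul_top, extIdeal_pow_eq]
  intro i hi
  have := hL i (n - i)
  rw [SModEq.sub_mem, smul_eq_mul, Ideal.mul_top, Nat.sub_add_cancel hi.le] at this
  rwa [map_sub, coeff_mk]

theorem isAdicComplete_extIdeal (I : Ideal A) [IsAdicComplete I A] :
    IsAdicComplete (extIdeal I) A⟦X⟧ :=
  { isHausdorff_extIdeal I, isPrecomplete_extIdeal I with }


/-- The ideal `(I, X_1, …, X_d)` of `A⟦X_1, …, X_d⟧`. -/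
noncomputable def mvExtIdeal (I : Ideal A) (d : ℕ) : Ideal (MvPowerSeries (Fin d) A) :=
  I.map (MvPowerSeries.C : A →+* MvPowerSeries (Fin d) A) ⊔
    Ideal.span (Set.range (fun i : Fin d => (MvPowerSeries.X i : MvPowerSeries (Fin d) A)))

theorem mvExtIdeal_succ_map (I : Ideal A) (d : ℕ) :
    (mvExtIdeal I (d + 1)).map (MvPowerSeries.finSuccEquiv A d).toRingEquiv =
      extIdeal (mvExtIdeal I d) := by
  change (mvExtIdeal I (d + 1)).map
    ((MvPowerSeries.finSuccEquiv A d).toRingEquiv.toRingHom) = _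
  rw [mvExtIdeal, extIdeal, mvExtIdeal, Ideal.map_sup, Ideal.map_sup, Ideal.map_map, Ideal.map_map,
    Ideal.map_span, Ideal.map_span, sup_assoc, ← Ideal.span_union]
  congr 1
  · congr 1
    ext r
    simp
  · congr 1
    ext g
    constructor
    · rintro ⟨_, ⟨i, rfl⟩, rfl⟩
      refine Fin.cases ?_ (fun j => ?_) i
      · right; simp
      · left; exact ⟨MvPowerSeries.X j, ⟨j, rfl⟩, by simp⟩
    · rintro (⟨_, ⟨j, rfl⟩, rfl⟩ | rfl)
      · exact ⟨MvPowerSeries.X j.succ, ⟨j.succ, rfl⟩, by simp⟩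
      · exact ⟨MvPowerSeries.X 0, ⟨0, rfl⟩, by simp⟩

theorem isAdicComplete_mvExtIdeal (I : Ideal A) [IsAdicComplete I A] (d : ℕ) :
    IsAdicComplete (mvExtIdeal I d) (MvPowerSeries (Fin d) A) := by
  induction d with
  | zero =>
    have h : mvExtIdeal I 0 = I.map (MvPowerSeries.isEmptyEquiv (Fin 0) A).symm.toRingEquiv := by
      rw [mvExtIdeal, Set.range_eq_empty, Ideal.span_empty, sup_bot_eq]
      rfl
    rw [h, IsAdicComplete.congr_ringEquiv]
    infer_instance
  | succ d ih =>
    rw [← IsAdicComplete.congr_ringEquiv _ (MvPowerSeries.finSuccEquiv A d).toRingEquiv,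
      mvExtIdeal_succ_map]
    exact isAdicComplete_extIdeal _


end Fermat.Agent.S53lib

namespace Fermat.Agent.S53lib

open IsLocalRing

variable {A : Type*} [CommRing A]

theorem maximalIdeal_mvPowerSeries_eq [IsLocalRing A] (d : ℕ) :
    maximalIdeal (MvPowerSeries (Fin d) A) = mvExtIdeal (maximalIdeal A) d := by
  apply le_antisymm
  · intro f hf
    rw [mem_maximalIdeal, mem_nonunits_iff, MvPowerSeries.isUnit_iff_constantCoeff,
      ← mem_nonunits_iff, ← mem_maximalIdeal] at hf
    have h1 : f = MvPowerSeries.C (MvPowerSeries.constantCoeff f) +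
        (f - MvPowerSeries.C (MvPowerSeries.constantCoeff f)) := by ring
    rw [h1]
    refine Ideal.add_mem _ (Ideal.mem_sup_left (Ideal.mem_map_of_mem _ hf))
      (Ideal.mem_sup_right ?_)
    rw [Fermat.Agent.S57Lib.mem_span_range_X_iff]
    simp
  · rw [mvExtIdeal, sup_le_iff, Ideal.map_le_iff_le_comap, Ideal.span_le]
    constructor
    · intro r hr
      rw [Ideal.mem_comap, mem_maximalIdeal, mem_nonunits_iff,
        MvPowerSeries.isUnit_iff_constantCoeff, MvPowerSeries.constantCoeff_C]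
      exact hr
    · rintro _ ⟨i, rfl⟩
      rw [SetLike.mem_coe, mem_maximalIdeal, mem_nonunits_iff,
        MvPowerSeries.isUnit_iff_constantCoeff, MvPowerSeries.constantCoeff_X]
      exact not_isUnit_zero

/-- (P1) A power series ring in finitely many variables over a complete local ring is complete
for its maximal ideal. -/
theorem isAdicComplete_mvPowerSeries [IsLocalRing A] [IsAdicComplete (maximalIdeal A) A] (d : ℕ) :
    IsAdicComplete (maximalIdeal (MvPowerSeries (Fin d) A)) (MvPowerSeries (Fin d) A) := by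
  rw [maximalIdeal_mvPowerSeries_eq]
  exact isAdicComplete_mvExtIdeal _ d

end Fermat.Agent.S53lib
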