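import Mathlib

set_option autoImplicit false

namespace Fermat.Agent.S53lib

open Matrix

abbrev M2 (A : Type*) := Matrix (Fin 2) (Fin 2) A

variable {A : Type*} [CommRing A]

/-- entries in an ideal -/
def EntriesIn (I : Ideal A) (x : M2 A) : Prop := ∀ i j, x i j ∈ I

theorem EntriesIn.add {I : Ideal A} {x y : M2 A} (hx : EntriesIn I x) (hy : EntriesIn I y) :
    EntriesIn I (x + y) := fun i j => I.add_mem (hx i j) (hy i j)

theorem EntriesIn.sub {I : Ideal A} {x y : M2 A} (hx : EntriesIn I x) (hy : EntriesIn I y) :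
    EntriesIn I (x - y) := fun i j => I.sub_mem (hx i j) (hy i j)

theorem EntriesIn.zero {I : Ideal A} : EntriesIn I (0 : M2 A) := fun _ _ => I.zero_mem

theorem EntriesIn.mul {I J : Ideal A} {x y : M2 A} (hx : EntriesIn I x) (hy : EntriesIn J y) :
    EntriesIn (I * J) (x * y) := by
  intro i j
  rw [Matrix.mul_apply]
  exact Ideal.sum_mem _ fun l _ => Ideal.mul_mem_mul (hx i l) (hy l j)

theorem EntriesIn.mul_left {I : Ideal A} {y : M2 A} (x : M2 A) (hy : EntriesIn I y) :
    EntriesIn I (x * y) := by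
  intro i j
  rw [Matrix.mul_apply]
  exact Ideal.sum_mem _ fun l _ => I.mul_mem_left _ (hy l j)

theorem EntriesIn.mul_right {I : Ideal A} {x : M2 A} (hx : EntriesIn I x) (y : M2 A) :
    EntriesIn I (x * y) := by
  intro i j
  rw [Matrix.mul_apply]
  exact Ideal.sum_mem _ fun l _ => I.mul_mem_right _ (hx i l)

theorem EntriesIn.pow {I : Ideal A} {x : M2 A} (hx : EntriesIn I x) (n : ℕ) :
    EntriesIn (I ^ n) (x ^ n) := by
  induction n with
  | zero => intro i j; simp
  | succ n ih => rw [pow_succ, pow_succ]; exact ih.mul hx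

theorem EntriesIn.trace {I : Ideal A} {x : M2 A} (hx : EntriesIn I x) : x.trace ∈ I := by
  rw [Matrix.trace_fin_two]; exact I.add_mem (hx 0 0) (hx 1 1)

theorem EntriesIn.mono {I J : Ideal A} (h : I ≤ J) {x : M2 A} (hx : EntriesIn I x) :
    EntriesIn J x := fun i j => h (hx i j)

theorem entriesIn_bot {x : M2 A} : EntriesIn (⊥ : Ideal A) x ↔ x = 0 := by
  constructor
  · intro h; ext i j; simpa using h i j
  · rintro rfl; exact EntriesIn.zero

/-- The key conjugation lemma: an idempotent `e` lifting `E11`, and `u`, `u'` lifting `E21`, `E12`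
with the Peirce relations, can be simultaneously conjugated to standard form by a matrix
congruent to `1`, and conjugated entries are computed by traces. -/
theorem conj_formula (I : Ideal A) (hI : ∀ a ∈ I, IsUnit (1 + a))
    (e u u' : M2 A) (he : e * e = e) (h1 : e * u = 0) (h2 : u * e = u)
    (h3 : e * u' = u') (h4 : u' * e = 0)
    (hE : EntriesIn I (e - !![1, 0; 0, 0])) (hU : EntriesIn I (u - !![0, 0; 1, 0]))
    (hU' : EntriesIn I (u' - !![0, 1; 0, 0])) :
    ∃ Q Q' : M2 A, Q * Q' = 1 ∧ Q' * Q = 1 ∧ EntriesIn I (Q - 1) ∧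
      (trace (u' * u) - 1 ∈ I) ∧
      ∀ y : M2 A, (Q' * y * Q) 0 0 = trace (y * e) ∧ (Q' * y * Q) 0 1 = trace (y * u) ∧
        trace (u' * u) * (Q' * y * Q) 1 0 = trace (y * u') ∧
        (Q' * y * Q) 1 1 = trace (y * (1 - e)) := by
  set Q : M2 A := !![e 0 0, u 0 0; e 1 0, u 1 0] with hQ
  have hQ1 : EntriesIn I (Q - 1) := by
    intro i j
    have a1 := hE 0 0
    have a2 := hE 1 0
    have a3 := hU 0 0
    have a4 := hU 1 0
    fin_cases i <;> fin_cases j <;> simp [hQ] at a1 a2 a3 a4 ⊢ <;> assumption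
  have hdet : IsUnit Q.det := by
    have : Q.det = 1 + (Q.det - 1) := by ring
    rw [this]
    apply hI
    rw [Matrix.det_fin_two]
    have a1 : Q 0 0 - 1 ∈ I := by simpa using hQ1 0 0
    have a2 : Q 1 1 - 1 ∈ I := by simpa using hQ1 1 1
    have a3 : Q 0 1 ∈ I := by simpa using hQ1 0 1
    have : Q 0 0 * Q 1 1 - Q 0 1 * Q 1 0 - 1 =
        (Q 0 0 - 1) * Q 1 1 + (Q 1 1 - 1) - Q 0 1 * Q 1 0 := by ring
    rw [this]
    exact I.sub_mem (I.add_mem (I.mul_mem_right _ a1) a2) (I.mul_mem_right _ a3)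
  set Q' : M2 A := Q⁻¹ with hQ'
  have hQQ' : Q * Q' = 1 := Matrix.mul_nonsing_inv Q hdet
  have hQ'Q : Q' * Q = 1 := Matrix.nonsing_inv_mul Q hdet
  -- intertwining relations
  have heQ : e * Q = Q * !![1, 0; 0, 0] := by
    have e1 := congrFun (congrFun he 0) 0
    have e2 := congrFun (congrFun he 1) 0
    have e3 := congrFun (congrFun h1 0) 0
    have e4 := congrFun (congrFun h1 1) 0
    simp only [Matrix.mul_apply, Fin.sum_univ_two, Matrix.zero_apply] at e1 e2 e3 e4
    ext i j
    fin_cases i <;> fin_cases j <;>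
      simp [hQ, Matrix.mul_apply, Fin.sum_univ_two] <;> assumption
  have huu : u * u = 0 := by
    calc u * u = (u * e) * u := by rw [h2]
      _ = u * (e * u) := by rw [Matrix.mul_assoc]
      _ = 0 := by rw [h1, Matrix.mul_zero]
  have huQ : u * Q = Q * !![0, 0; 1, 0] := by
    have e1 := congrFun (congrFun h2 0) 0
    have e2 := congrFun (congrFun h2 1) 0
    have e3 := congrFun (congrFun huu 0) 0
    have e4 := congrFun (congrFun huu 1) 0
    simp only [Matrix.mul_apply, Fin.sum_univ_two, Matrix.zero_apply] at e1 e2 e3 e4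
    ext i j
    fin_cases i <;> fin_cases j <;>
      simp [hQ, Matrix.mul_apply, Fin.sum_univ_two] <;> assumption
  have heq : e = Q * !![1, 0; 0, 0] * Q' := by
    rw [← heQ, Matrix.mul_assoc, hQQ', Matrix.mul_one]
  have hueq : u = Q * !![0, 0; 1, 0] * Q' := by
    rw [← huQ, Matrix.mul_assoc, hQQ', Matrix.mul_one]
  set v' : M2 A := Q' * u' * Q with hv'
  have hu'eq : u' = Q * v' * Q' := by
    rw [hv']
    calc u' = (Q * Q') * u' * (Q * Q') := by rw [hQQ', Matrix.one_mul, Matrix.mul_one]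
      _ = Q * (Q' * u' * Q) * Q' := by simp only [Matrix.mul_assoc]
  have hv1 : !![1, 0; 0, 0] * v' = v' := by
    have : !![1, 0; 0, 0] = Q' * e * Q := by
      rw [Matrix.mul_assoc, heQ, ← Matrix.mul_assoc, hQ'Q, Matrix.one_mul]
    rw [this, hv']
    calc Q' * e * Q * (Q' * u' * Q) = Q' * e * (Q * Q') * u' * Q := by
          simp only [Matrix.mul_assoc]
      _ = Q' * (e * u') * Q := by rw [hQQ', Matrix.mul_one]; simp only [Matrix.mul_assoc]
      _ = Q' * u' * Q := by rw [h3]
  have hv2 : v' * !![1, 0; 0, 0] = 0 := by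
    rw [hv', Matrix.mul_assoc, ← heQ, ← Matrix.mul_assoc, Matrix.mul_assoc Q', h4,
      Matrix.mul_zero, Matrix.zero_mul]
  have hv'form : v' = !![0, v' 0 1; 0, 0] := by
    have e1 := congrFun (congrFun hv1 1) 0
    have e2 := congrFun (congrFun hv1 1) 1
    have e3 := congrFun (congrFun hv2 0) 0
    have e4 := congrFun (congrFun hv2 1) 0
    simp [Matrix.mul_apply, Fin.sum_univ_two] at e1 e2 e3 e4
    ext i j
    fin_cases i <;> fin_cases j <;> simp <;> first | assumption | (symm; assumption) | skip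
  have htr : ∀ y z : M2 A, trace (y * (Q * z * Q')) = trace (Q' * y * Q * z) := by
    intro y z
    calc trace (y * (Q * z * Q')) = trace ((y * Q * z) * Q') := by simp only [Matrix.mul_assoc]
      _ = trace (Q' * (y * Q * z)) := Matrix.trace_mul_comm _ _
      _ = trace (Q' * y * Q * z) := by simp only [Matrix.mul_assoc]
  have hc : trace (u' * u) = v' 0 1 := by
    rw [hueq, htr, ← hv', hv'form]
    simp [Matrix.trace_fin_two, Matrix.mul_apply, Fin.sum_univ_two]
  refine ⟨Q, Q', hQQ', hQ'Q, hQ1, ?_, ?_⟩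
  · -- c ≡ 1
    have h5 : EntriesIn I (u' * u - !![0, 1; 0, 0] * !![0, 0; 1, 0]) := by
      have : u' * u - !![0, 1; 0, 0] * !![0, 0; 1, 0] =
          (u' - !![0, 1; 0, 0]) * u + !![0, 1; 0, 0] * (u - !![0, 0; 1, 0]) := by
        rw [Matrix.sub_mul, Matrix.mul_sub]; abel
      rw [this]
      exact (hU'.mul_right _).add (hU.mul_left _)
    have := h5.trace
    rw [Matrix.trace_sub] at this
    simpa [Matrix.trace_fin_two] using this
  · intro y
    refine ⟨?_, ?_, ?_, ?_⟩
    · rw [heq, htr]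
      simp [Matrix.trace_fin_two, Matrix.mul_apply, Fin.sum_univ_two]
    · rw [hueq, htr]
      simp [Matrix.trace_fin_two, Matrix.mul_apply, Fin.sum_univ_two]
    · rw [hc, hu'eq, htr]
      generalize Q' * y * Q = y'
      generalize hcc : v' 0 1 = c at hv'form
      rw [hv'form]
      simp only [Matrix.trace_fin_two, Matrix.mul_apply, Fin.sum_univ_two]
      simp
      ring
    · have : (1 : M2 A) - e = Q * !![0, 0; 0, 1] * Q' := by
        rw [heq]
        have h1 : (1 : M2 A) = Q * 1 * Q' := by rw [Matrix.mul_one, hQQ']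
        conv_lhs => rw [h1]
        rw [← Matrix.sub_mul, ← Matrix.mul_sub]
        congr 2
        ext i j
        fin_cases i <;> fin_cases j <;> simp
      rw [this, htr]
      simp [Matrix.trace_fin_two, Matrix.mul_apply, Fin.sum_univ_two]

end Fermat.Agent.S53lib
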