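import Mathlib
import Fermat.Prelude.Def_GaloisRep_DeformationRingData
import Fermat.Prelude.Def_GaloisRep_DeformationCondition
import Fermat.Agent.S53lib.Mat

set_option autoImplicit false
set_option linter.unusedSectionVars false
set_option linter.style.haveILetI false
set_option linter.unusedSimpArgs false

noncomputable section

namespace Fermat.Agent.S53lib

open IsLocalRing Matrix

/-- the absolute Galois group of `ℚ` -/
abbrev Gal := AlgebraicClosure ℚ ≃ₐ[ℚ] AlgebraicClosure ℚ

section Basic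

variable {A : Type} [CommRing A] [IsLocalRing A]

/-- continuity of a matrix representation (adic topology on the target) -/
def IsCts (r : Gal →* M2 A) : Prop :=
  ∀ n : ℕ, ∃ L : IntermediateField ℚ (AlgebraicClosure ℚ), FiniteDimensional ℚ L ∧
    ∀ σ : Gal, (∀ x ∈ L, σ x = x) → EntriesIn (maximalIdeal A ^ n) (r σ - 1)

theorem mem_smul_top_of_forall_mem (I : Ideal A) (w : Fin 2 → A) (hw : ∀ i, w i ∈ I) :
    w ∈ I • (⊤ : Submodule A (Fin 2 → A)) := by
  have : w = ∑ i, w i • (Pi.single i (1 : A) : Fin 2 → A) := by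
    ext j; simp [Pi.single_apply]
  rw [this]
  exact Submodule.sum_mem _ fun i _ => Submodule.smul_mem_smul (hw i) Submodule.mem_top

/-- the adic Galois representation attached to a continuous matrix representation -/
noncomputable def ofMat (r : Gal →* M2 A) (h : IsCts r) : GaloisRepAdic A where
  V := Fin 2 → A
  finrank_eq := by simp
  ρ := ((Matrix.toLinAlgEquiv' : M2 A ≃ₐ[A] ((Fin 2 → A) →ₗ[A] (Fin 2 → A))) :
      M2 A →* ((Fin 2 → A) →ₗ[A] (Fin 2 → A))).comp r
  isAdicContinuous := by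
    intro n
    obtain ⟨L, hL, h1⟩ := h n
    refine ⟨L, hL, fun σ hσ v => ?_⟩
    apply mem_smul_top_of_forall_mem
    intro i
    have h2 := h1 σ hσ
    have : (((Matrix.toLinAlgEquiv' : M2 A ≃ₐ[A] ((Fin 2 → A) →ₗ[A] (Fin 2 → A))) :
      M2 A →* ((Fin 2 → A) →ₗ[A] (Fin 2 → A))).comp r σ v - v) i
        = ((r σ - 1) *ᵥ v) i := by
      simp [Matrix.sub_mulVec]
    rw [this, Matrix.mulVec, dotProduct]
    exact Ideal.sum_mem _ fun j _ => Ideal.mul_mem_right _ _ (h2 i j)

@[simp] theorem ofMat_ρ_apply (r : Gal →* M2 A) (h : IsCts r) (σ : Gal) (v : Fin 2 → A) :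
    (ofMat r h).ρ σ v = (r σ) *ᵥ v := rfl

/-- push a matrix representation forward along a ring hom -/
def mapRep {B : Type} [CommRing B] (φ : A →+* B) (r : Gal →* M2 A) : Gal →* M2 B :=
  ((RingHom.mapMatrix φ : M2 A →+* M2 B) : M2 A →* M2 B).comp r

@[simp] theorem mapRep_apply {B : Type} [CommRing B] (φ : A →+* B) (r : Gal →* M2 A) (σ : Gal) :
    mapRep φ r σ = (r σ).map φ := rfl

/-- conjugate a matrix representation -/
def conjRep (Q Q' : M2 A) (h : Q * Q' = 1) (r : Gal →* M2 A) : Gal →* M2 A where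
  toFun σ := Q' * r σ * Q
  map_one' := by
    rw [map_one, Matrix.mul_one]
    exact mul_eq_one_comm.mp h
  map_mul' σ τ := by
    rw [map_mul]
    calc Q' * (r σ * r τ) * Q = Q' * r σ * 1 * r τ * Q := by
          simp only [Matrix.mul_assoc, Matrix.one_mul]
      _ = Q' * r σ * Q * (Q' * r τ * Q) := by rw [← h]; simp only [Matrix.mul_assoc]

@[simp] theorem conjRep_apply (Q Q' : M2 A) (h : Q * Q' = 1) (r : Gal →* M2 A) (σ : Gal) :
    conjRep Q Q' h r σ = Q' * r σ * Q := rfl

end Basic

section Test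

variable (𝒪 : Type) [CommRing 𝒪] [IsLocalRing 𝒪]

/-- local `𝒪`-algebra with local structure map and the same residue field -/
structure IsTestAlg (A : Type) [CommRing A] [IsLocalRing A] [Algebra 𝒪 A] : Prop where
  isLocalHom : IsLocalHom (algebraMap 𝒪 A)
  residue_surjective : Function.Surjective (IsLocalRing.residue A ∘ algebraMap 𝒪 A)

variable {𝒪}

theorem toTest {A : Type} [CommRing A] [IsLocalRing A]
    [Algebra 𝒪 A] (h : GaloisRep.IsArtinianTestAlgebra 𝒪 A) : IsTestAlg 𝒪 A :=
  ⟨h.isLocalHom, h.residue_surjective⟩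

variable {A : Type} [CommRing A] [IsLocalRing A] [Algebra 𝒪 A]

theorem IsTestAlg.map_bijective (h : IsTestAlg 𝒪 A) :
    haveI := h.isLocalHom
    Function.Bijective (ResidueField.map (algebraMap 𝒪 A)) := by
  haveI := h.isLocalHom
  refine ⟨(ResidueField.map (algebraMap 𝒪 A)).injective, fun x => ?_⟩
  obtain ⟨c, hc⟩ := h.residue_surjective x
  exact ⟨residue 𝒪 c, by rw [ResidueField.map_residue]; exact hc⟩

/-- the augmentation `A → k` of a test algebra -/
noncomputable def resk (h : IsTestAlg 𝒪 A) : A →ₐ[𝒪] ResidueField 𝒪 :=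
  haveI := h.isLocalHom
  { ((RingEquiv.ofBijective (ResidueField.map (algebraMap 𝒪 A)) h.map_bijective).symm :
      ResidueField A →+* ResidueField 𝒪).comp (residue A) with
    commutes' := fun c => by
      show (RingEquiv.ofBijective (ResidueField.map (algebraMap 𝒪 A)) h.map_bijective).symm
        (residue A (algebraMap 𝒪 A c)) = residue 𝒪 c
      rw [RingEquiv.symm_apply_eq]
      exact (ResidueField.map_residue _ _).symm }

theorem map_resk (h : IsTestAlg 𝒪 A) (a : A) :
    haveI := h.isLocalHom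
    ResidueField.map (algebraMap 𝒪 A) (resk h a) = residue A a := by
  haveI := h.isLocalHom
  exact (RingEquiv.ofBijective (ResidueField.map (algebraMap 𝒪 A)) h.map_bijective).apply_symm_apply
    (residue A a)

theorem resk_eq_zero_iff (h : IsTestAlg 𝒪 A) (a : A) : resk h a = 0 ↔ a ∈ maximalIdeal A := by
  haveI := h.isLocalHom
  rw [← residue_eq_zero_iff, ← map_resk h a, map_eq_zero_iff _ (RingHom.injective _)]

theorem resk_surjective (h : IsTestAlg 𝒪 A) : Function.Surjective (resk h) := by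
  intro x
  obtain ⟨c, rfl⟩ := residue_surjective x
  exact ⟨algebraMap 𝒪 A c, (resk h).commutes c⟩

theorem exists_sub_mem (h : IsTestAlg 𝒪 A) (a : A) :
    ∃ c : 𝒪, a - algebraMap 𝒪 A c ∈ maximalIdeal A := by
  obtain ⟨c, hc⟩ := residue_surjective (resk h a)
  refine ⟨c, ?_⟩
  rw [← resk_eq_zero_iff h, map_sub, (resk h).commutes, sub_eq_zero]
  exact hc.symm

/-- normalized lift of `rbar` -/
def IsLift (h : IsTestAlg 𝒪 A) (rbar : Gal →* M2 (ResidueField 𝒪)) (r : Gal →* M2 A) : Prop :=
  ∀ σ, (r σ).map (resk h) = rbar σ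

/-- the canonical map from the polynomial ring on `Gal` sending `X σ` to the trace of `r σ` -/
noncomputable def traceHom (r : Gal →* M2 A) : MvPolynomial Gal 𝒪 →ₐ[𝒪] A :=
  MvPolynomial.aeval (fun σ => (r σ).trace)

@[simp] theorem traceHom_X (r : Gal →* M2 A) (σ : Gal) :
    traceHom (𝒪 := 𝒪) r (MvPolynomial.X σ) = (r σ).trace := by
  simp [traceHom]

end Test

/-- the matrix form of a residual representation with respect to a basis -/
noncomputable def rbarOf {k : Type} [Field k] (ρbar : ResidualGaloisRep k)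
    (b : Module.Basis (Fin 2) k ρbar.V) : Gal →* M2 k :=
  ((LinearMap.toMatrixAlgEquiv b : (ρbar.V →ₗ[k] ρbar.V) ≃ₐ[k] M2 k) :
    (ρbar.V →ₗ[k] ρbar.V) →* M2 k).comp ρbar.ρ

section Level

variable (𝒪 : Type) [CommRing 𝒪] [IsLocalRing 𝒪]
  (rbar : Gal →* M2 (ResidueField 𝒪))
  (𝒟 : ∀ ⦃A : Type⦄ [CommRing A] [IsLocalRing A] [Algebra 𝒪 A], GaloisRepAdic A → Prop)

/-- a normalized deformation of type `𝒟` to an Artinian test algebra with `𝔪 ^ (n+1) = 0` -/
structure LevelDatum (n : ℕ) : Type 1 where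
  B : Type
  [commRing : CommRing B]
  [isLocalRing : IsLocalRing B]
  [algebra : Algebra 𝒪 B]
  test : GaloisRep.IsArtinianTestAlgebra 𝒪 B
  nil : maximalIdeal B ^ (n + 1) = ⊥
  r : Gal →* M2 B
  cts : IsCts r
  lift : IsLift (toTest test) rbar r
  type : 𝒟 (ofMat r cts)

attribute [instance] LevelDatum.commRing LevelDatum.isLocalRing LevelDatum.algebra

variable {𝒪 rbar 𝒟}

/-- the kernel ideal of a level datum -/
noncomputable def LevelDatum.ker {n : ℕ} (D : LevelDatum 𝒪 rbar 𝒟 n) : Ideal (MvPolynomial Gal 𝒪) :=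
  RingHom.ker (traceHom (𝒪 := 𝒪) D.r)

end Level

end Fermat.Agent.S53lib

end
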