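import Mathlib
import Fermat.Agent.S53lib.Defs

/-! Burnside's theorem for two-dimensional absolutely irreducible representations.
OWNER: helper10 -/

set_option autoImplicit false
set_option linter.unusedSectionVars false
set_option linter.style.haveILetI false
set_option linter.unusedSimpArgs false

noncomputable section

namespace Fermat.Agent.S53lib

open Matrix

section MatrixBurnside

variable {K : Type*} [Field K]

/-- the `2 × 2` identity `M a M = tr(a M) M - det M adj a` -/
theorem mul_mul_self_eq (M a : M2 K) :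
    M * a * M = (a * M).trace • M - M.det • a.adjugate := by
  ext i j
  fin_cases i <;> fin_cases j <;>
    simp [Matrix.mul_apply, Fin.sum_univ_two, Matrix.trace_fin_two, Matrix.det_fin_two,
      Matrix.adjugate_fin_two] <;> ring

variable {G : Type*} [Monoid G] (R : G →* M2 K)

/-- irreducibility of a matrix representation -/
def MatIrred : Prop :=
  ∀ W : Submodule K (Fin 2 → K), (∀ σ, ∀ x ∈ W, R σ *ᵥ x ∈ W) → W = ⊥ ∨ W = ⊤

variable {R}

theorem eq_zero_of_forall_mulVec (hirr : MatIrred R) (N : M2 K) (v : Fin 2 → K) (hv : v ≠ 0)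
    (h : ∀ σ, N *ᵥ (R σ *ᵥ v) = 0) : N = 0 := by
  let W : Submodule K (Fin 2 → K) :=
    { carrier := {x | ∀ σ, N *ᵥ (R σ *ᵥ x) = 0}
      zero_mem' := fun σ => by simp
      add_mem' := fun {x y} hx hy σ => by
        rw [Matrix.mulVec_add, Matrix.mulVec_add, hx σ, hy σ, add_zero]
      smul_mem' := fun c x hx σ => by
        rw [Matrix.mulVec_smul, Matrix.mulVec_smul, hx σ, smul_zero] }
  have hW : ∀ σ, ∀ x ∈ W, R σ *ᵥ x ∈ W := by
    intro σ x hx τ
    have := hx (τ * σ)
    rwa [map_mul, ← Matrix.mulVec_mulVec] at this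
  rcases hirr W hW with h0 | h1
  · exfalso
    have : v ∈ W := h
    rw [h0, Submodule.mem_bot] at this
    exact hv this
  · have h2 : ∀ x : Fin 2 → K, N *ᵥ x = 0 := by
      intro x
      have hx : x ∈ W := by rw [h1]; exact Submodule.mem_top
      have := hx 1
      rwa [map_one, Matrix.one_mulVec] at this
    ext i j
    have := congrFun (h2 (Pi.single j 1)) i
    simpa using this

theorem exists_mulVec_ne_zero {z : M2 K} (hz : z ≠ 0) : ∃ w : Fin 2 → K, z *ᵥ w ≠ 0 := by
  by_contra hcon
  push Not at hcon
  apply hz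
  ext i j
  have := congrFun (hcon (Pi.single j 1)) i
  simpa using this

/-- a singular matrix which is trace-orthogonal to the image of an irreducible representation
vanishes -/
theorem eq_zero_of_det_eq_zero (hirr : MatIrred R) (M : M2 K) (hdet : M.det = 0)
    (htr : ∀ σ, (R σ * M).trace = 0) : M = 0 := by
  by_contra hM
  obtain ⟨w, hw⟩ := exists_mulVec_ne_zero hM
  apply hM
  apply eq_zero_of_forall_mulVec hirr M (M *ᵥ w) hw
  intro σ
  rw [Matrix.mulVec_mulVec, Matrix.mulVec_mulVec, mul_mul_self_eq, htr σ, hdet]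
  simp

theorem exists_singular [IsAlgClosed K] (hirr : MatIrred R) :
    ∃ (σ : G) (c : K), R σ - c • 1 ≠ 0 ∧ (R σ - c • (1 : M2 K)).det = 0 := by
  -- some `R σ` is not scalar
  have h1 : ∃ σ, ∀ c : K, R σ ≠ c • 1 := by
    by_contra hcon
    push Not at hcon
    choose c hc using hcon
    let W : Submodule K (Fin 2 → K) := Submodule.span K {Pi.single 0 1}
    have hW : ∀ σ, ∀ x ∈ W, R σ *ᵥ x ∈ W := by
      intro σ x hx
      rw [hc σ, Matrix.smul_mulVec, Matrix.one_mulVec]
      exact W.smul_mem _ hx
    rcases hirr W hW with h0 | h1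
    · have : (Pi.single 0 1 : Fin 2 → K) ∈ W := Submodule.mem_span_singleton_self _
      rw [h0, Submodule.mem_bot] at this
      have := congrFun this 0
      simp at this
    · have : (Pi.single 1 1 : Fin 2 → K) ∈ W := by rw [h1]; exact Submodule.mem_top
      obtain ⟨a, ha⟩ := Submodule.mem_span_singleton.1 this
      have := congrFun ha 1
      simp at this
  obtain ⟨σ, hσ⟩ := h1
  obtain ⟨c, hc⟩ := IsAlgClosed.exists_root (R σ).charpoly (by
    rw [Matrix.charpoly_degree_eq_dim]; simp)
  refine ⟨σ, c, sub_ne_zero.2 (hσ c), ?_⟩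
  rw [Polynomial.IsRoot, Matrix.eval_charpoly] at hc
  have h2 : R σ - c • (1 : M2 K) = -(Matrix.scalar (Fin 2) c - R σ) := by
    rw [neg_sub, Matrix.smul_one_eq_diagonal]; rfl
  rw [h2, Matrix.det_neg, hc, mul_zero]

/-- trace-orthogonality to the image of an irreducible representation over an algebraically
closed field forces vanishing -/
theorem eq_zero_of_forall_trace_eq_zero [IsAlgClosed K] (hirr : MatIrred R) (z : M2 K)
    (htr : ∀ σ, (R σ * z).trace = 0) : z = 0 := by
  obtain ⟨σ₀, c, hy0, hydet⟩ := exists_singular hirr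
  set y : M2 K := R σ₀ - c • 1 with hy
  by_contra hz
  obtain ⟨w, hw⟩ := exists_mulVec_ne_zero hz
  apply hy0
  apply eq_zero_of_forall_mulVec hirr y (z *ᵥ w) hw
  intro τ
  have h1 : y * R τ * z = 0 := by
    apply eq_zero_of_det_eq_zero hirr
    · rw [Matrix.det_mul, Matrix.det_mul, hydet, zero_mul, zero_mul]
    · intro σ
      have h2 : R σ * (y * R τ * z) = R (σ * σ₀ * τ) * z - c • (R (σ * τ) * z) := by
        rw [hy, map_mul, map_mul, map_mul]
        simp only [Matrix.sub_mul, Matrix.mul_sub, Matrix.mul_assoc, Matrix.smul_mul,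
          Matrix.mul_smul, Matrix.one_mul]
      rw [h2, Matrix.trace_sub, Matrix.trace_smul, htr, htr, smul_zero, sub_zero]
  rw [Matrix.mulVec_mulVec, Matrix.mulVec_mulVec, h1, Matrix.zero_mulVec]

end MatrixBurnside

/-- a linear functional on `M2 k` is `x ↦ tr (x z)` -/
theorem exists_trace_form {k : Type*} [Field k] (f : M2 k →ₗ[k] k) :
    ∃ z : M2 k, ∀ x, f x = (x * z).trace := by
  refine ⟨fun i j => f (Matrix.single j i 1), fun x => ?_⟩
  conv_lhs => rw [Matrix.matrix_eq_sum_single x]
  have h : ∀ i j, f (Matrix.single i j (x i j)) = x i j * f (Matrix.single i j 1) := by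
    intro i j
    rw [← smul_eq_mul, ← map_smul, Matrix.smul_single, smul_eq_mul, mul_one]
  simp only [map_sum, Fin.sum_univ_two, Matrix.trace_fin_two, Matrix.mul_apply, map_add, h]

/-- Burnside -/
theorem span_rbarOf_eq_top' {k : Type} [Field k] (ρbar : ResidualGaloisRep k)
    (habs : ρbar.IsAbsolutelyIrreducible) (b : Module.Basis (Fin 2) k ρbar.V) :
    Submodule.span k (Set.range (rbarOf ρbar b)) = ⊤ := by
  classical
  let K := AlgebraicClosure k
  let R : Gal →* M2 K :=
    ((RingHom.mapMatrix (algebraMap k K) : M2 k →+* M2 K) : M2 k →* M2 K).comp (rbarOf ρbar b)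
  have hR : ∀ σ, R σ = (rbarOf ρbar b σ).map (algebraMap k K) := fun _ => rfl
  have hirr : MatIrred R := by
    intro W hW
    let Bs := Algebra.TensorProduct.basis K b
    let e : (TensorProduct k K ρbar.V) ≃ₗ[K] (Fin 2 → K) := Bs.equivFun
    have key : ∀ σ x, e ((ρbar.ρ σ).baseChange K x) = R σ *ᵥ e x := by
      intro σ x
      have h1 := LinearMap.toMatrix_mulVec_repr Bs Bs ((ρbar.ρ σ).baseChange K) x
      rw [LinearMap.toMatrix_baseChange] at h1
      exact h1.symm
    have h2 := habs (W.comap e.toLinearMap) (by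
      intro σ x hx
      rw [Submodule.mem_comap] at hx ⊢
      have := hW σ _ hx
      exact (key σ x).symm ▸ this)
    rcases h2 with h2 | h2
    · left
      rw [eq_bot_iff]
      intro x hx
      have : e.symm x ∈ W.comap e.toLinearMap := by
        rw [Submodule.mem_comap]; simpa using hx
      rw [h2, Submodule.mem_bot] at this
      simpa using this
    · right
      rw [eq_top_iff]
      intro x _
      have : e.symm x ∈ W.comap e.toLinearMap := by rw [h2]; exact Submodule.mem_top
      rw [Submodule.mem_comap] at this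
      simpa using this
  by_contra hne
  obtain ⟨f, hf0, hf⟩ := Submodule.exists_le_ker_of_lt_top _ (lt_top_iff_ne_top.2 hne)
  obtain ⟨z, hz⟩ := exists_trace_form f
  have hz0 : z.map (algebraMap k K) = 0 := by
    apply eq_zero_of_forall_trace_eq_zero hirr
    intro σ
    have h1 : f (rbarOf ρbar b σ) = 0 := hf (Submodule.subset_span (Set.mem_range_self σ))
    rw [hz] at h1
    have h2 : R σ * z.map (algebraMap k K) = (rbarOf ρbar b σ * z).map (algebraMap k K) := by
      rw [hR, Matrix.map_mul]
    rw [h2, Matrix.trace_fin_two, Matrix.map_apply, Matrix.map_apply, ← map_add,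
      ← Matrix.trace_fin_two, h1, map_zero]
  apply hf0
  have hz1 : z = 0 := by
    ext i j
    have := congrFun (congrFun hz0 i) j
    simpa using this
  ext x
  rw [hz, hz1]
  simp

end Fermat.Agent.S53lib

end
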