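import Mathlib
import Fermat.Agent.S53lib.Defs

/-! Interface between `GaloisRepAdic` and matrix representations.  OWNER: helper29 -/

set_option autoImplicit false
set_option linter.unusedSectionVars false
set_option linter.style.haveILetI false
set_option linter.unusedSimpArgs false

noncomputable section

namespace Fermat.Agent.S53lib

open IsLocalRing Matrix

variable {A : Type} [CommRing A] [IsLocalRing A]

theorem isEquiv_refl (ρ : GaloisRepAdic A) : ρ.IsEquiv ρ := ⟨GaloisRepAdic.Equiv.refl ρ⟩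

theorem isEquiv_symm {ρ ρ' : GaloisRepAdic A} (h : ρ.IsEquiv ρ') : ρ'.IsEquiv ρ :=
  h.elim fun e => ⟨e.symm⟩

theorem isEquiv_trans {ρ ρ' ρ'' : GaloisRepAdic A} (h : ρ.IsEquiv ρ') (h' : ρ'.IsEquiv ρ'') :
    ρ.IsEquiv ρ'' :=
  h.elim fun e => h'.elim fun e' => ⟨e.trans e'⟩

theorem isEquiv_baseChangeAlong {B : Type} [CommRing B] [IsLocalRing B] (φ : A →+* B)
    (hφ : IsLocalHom φ) {ρ ρ' : GaloisRepAdic A} (h : ρ.IsEquiv ρ') :
    (ρ.baseChangeAlong φ hφ).IsEquiv (ρ'.baseChangeAlong φ hφ) :=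
  h.elim fun e => ⟨e.baseChangeAlong φ hφ⟩

theorem map_maximalIdeal_pow_le {B : Type} [CommRing B] [IsLocalRing B] (φ : A →+* B)
    (hφ : IsLocalHom φ) (n : ℕ) : (maximalIdeal A ^ n).map φ ≤ maximalIdeal B ^ n := by
  rw [Ideal.map_pow]
  exact Ideal.pow_right_mono (Ideal.map_le_iff_le_comap.mpr fun a ha =>
    Ideal.mem_comap.mpr (haveI := hφ; map_nonunit φ a ha)) n

theorem IsCts.map {B : Type} [CommRing B] [IsLocalRing B] (φ : A →+* B) (hφ : IsLocalHom φ)
    {r : Gal →* M2 A} (h : IsCts r) : IsCts (mapRep φ r) := by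
  intro n
  obtain ⟨L, hL, h1⟩ := h n
  refine ⟨L, hL, fun σ hσ i j => ?_⟩
  have h2 := Ideal.mem_map_of_mem φ (h1 σ hσ i j)
  have h3 : (mapRep φ r σ - 1) i j = φ ((r σ - 1) i j) := by
    simp only [mapRep_apply, Matrix.sub_apply, Matrix.map_apply, map_sub, Matrix.one_apply]
    split_ifs <;> simp
  rw [h3]
  exact map_maximalIdeal_pow_le φ hφ n h2

theorem IsCts.conj (Q Q' : M2 A) (hQ : Q * Q' = 1) {r : Gal →* M2 A} (h : IsCts r) :
    IsCts (conjRep Q Q' hQ r) := by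
  intro n
  obtain ⟨L, hL, h1⟩ := h n
  refine ⟨L, hL, fun σ hσ => ?_⟩
  have hQ' : Q' * Q = 1 := mul_eq_one_comm.mp hQ
  have h3 : conjRep Q Q' hQ r σ - 1 = Q' * (r σ - 1) * Q := by
    rw [conjRep_apply, Matrix.mul_sub, Matrix.sub_mul, Matrix.mul_one, hQ']
  rw [h3]
  exact ((h1 σ hσ).mul_left Q').mul_right Q

/-- if `φ` is injective and `m_B^n` pulls back into ... : continuity descends for nilpotent
maximal ideals: a representation into a ring with nilpotent maximal ideal is continuous iff it is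
trivial on an open subgroup. -/
theorem isCts_iff_of_nilpotent (hnil : IsNilpotent (maximalIdeal A)) (r : Gal →* M2 A) :
    IsCts r ↔ ∃ L : IntermediateField ℚ (AlgebraicClosure ℚ), FiniteDimensional ℚ L ∧
      ∀ σ : Gal, (∀ x ∈ L, σ x = x) → r σ = 1 := by
  constructor
  · intro h
    obtain ⟨n, hn⟩ := hnil
    obtain ⟨L, hL, h1⟩ := h n
    refine ⟨L, hL, fun σ hσ => ?_⟩
    have h2 := h1 σ hσ
    rw [hn] at h2
    exact sub_eq_zero.mp (entriesIn_bot.mp h2)
  · rintro ⟨L, hL, h1⟩ n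
    refine ⟨L, hL, fun σ hσ => ?_⟩
    rw [h1 σ hσ, sub_self]
    exact EntriesIn.zero

theorem repr_mem_of_mem_smul_top {V : Type} [AddCommGroup V] [Module A V]
    (b : Module.Basis (Fin 2) A V) (I : Ideal A) {x : V}
    (hx : x ∈ I • (⊤ : Submodule A V)) (i : Fin 2) : b.repr x i ∈ I := by
  refine Submodule.smul_induction_on (p := fun x => b.repr x i ∈ I) hx ?_ ?_
  · intro a ha w _
    rw [map_smul, Finsupp.smul_apply, smul_eq_mul]
    exact I.mul_mem_right _ ha
  · intro x y hx hy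
    rw [map_add, Finsupp.add_apply]
    exact I.add_mem hx hy

/-- the matrix representation attached to a basis -/
def matOfBasis (ρ : GaloisRepAdic A) (b : Module.Basis (Fin 2) A ρ.V) : Gal →* M2 A :=
  ((LinearMap.toMatrixAlgEquiv b : (ρ.V →ₗ[A] ρ.V) ≃ₐ[A] M2 A) :
    (ρ.V →ₗ[A] ρ.V) →* M2 A).comp ρ.ρ

theorem matOfBasis_apply (ρ : GaloisRepAdic A) (b : Module.Basis (Fin 2) A ρ.V) (σ : Gal) :
    matOfBasis ρ b σ = LinearMap.toMatrix b b (ρ.ρ σ) := rfl

theorem isCts_matOfBasis (ρ : GaloisRepAdic A) (b : Module.Basis (Fin 2) A ρ.V) :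
    IsCts (matOfBasis ρ b) := by
  intro n
  obtain ⟨L, hL, h1⟩ := ρ.isAdicContinuous n
  refine ⟨L, hL, fun σ hσ i j => ?_⟩
  have h2 := repr_mem_of_mem_smul_top b _ (h1 σ hσ (b j)) i
  have h3 : (matOfBasis ρ b σ - 1) i j = b.repr (ρ.ρ σ (b j) - b j) i := by
    rw [matOfBasis_apply, Matrix.sub_apply, LinearMap.toMatrix_apply, map_sub, Finsupp.sub_apply,
      Module.Basis.repr_self, Finsupp.single_apply, Matrix.one_apply]
    congr 1
    by_cases hij : i = j
    · simp [hij]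
    · simp [hij, Ne.symm hij]
  rw [h3]
  exact h2

theorem isEquiv_ofMat_matOfBasis (ρ : GaloisRepAdic A) (b : Module.Basis (Fin 2) A ρ.V) :
    ρ.IsEquiv (ofMat (matOfBasis ρ b) (isCts_matOfBasis ρ b)) :=
  ⟨{ toLinearEquiv := b.equivFun
     map_apply := fun σ x => by
      change b.equivFun (ρ.ρ σ x) = (LinearMap.toMatrix b b (ρ.ρ σ)) *ᵥ (b.equivFun x)
      exact (LinearMap.toMatrix_mulVec_repr b b (ρ.ρ σ) x).symm }⟩

theorem exists_ofMat_of_basis (ρ : GaloisRepAdic A) (b : Module.Basis (Fin 2) A ρ.V) :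
    ∃ (r : Gal →* M2 A) (h : IsCts r), ρ.IsEquiv (ofMat r h) ∧
      ∀ σ, r σ = LinearMap.toMatrix b b (ρ.ρ σ) :=
  ⟨matOfBasis ρ b, isCts_matOfBasis ρ b, isEquiv_ofMat_matOfBasis ρ b, fun _ => rfl⟩

theorem ofMat_congr {r r' : Gal →* M2 A} (e : r = r') (h : IsCts r) (h' : IsCts r') :
    (ofMat r h).IsEquiv (ofMat r' h') := by
  subst e
  exact isEquiv_refl _

theorem isEquiv_ofMat_of_basis (ρ : GaloisRepAdic A) (b : Module.Basis (Fin 2) A ρ.V)
    (r : Gal →* M2 A) (h : IsCts r) (hr : ∀ σ, LinearMap.toMatrix b b (ρ.ρ σ) = r σ) :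
    ρ.IsEquiv (ofMat r h) :=
  isEquiv_trans (isEquiv_ofMat_matOfBasis ρ b)
    (ofMat_congr (MonoidHom.ext fun σ => hr σ) _ _)

theorem ofMat_baseChangeAlong {B : Type} [CommRing B] [IsLocalRing B] (φ : A →+* B)
    (hφ : IsLocalHom φ) (r : Gal →* M2 A) (h : IsCts r) :
    ((ofMat r h).baseChangeAlong φ hφ).IsEquiv (ofMat (mapRep φ r) (h.map φ hφ)) := by
  letI : Algebra A B := φ.toAlgebra
  let b' : Module.Basis (Fin 2) B (TensorProduct A B (Fin 2 → A)) :=
    Algebra.TensorProduct.basis B (Pi.basisFun A (Fin 2))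
  refine isEquiv_ofMat_of_basis ((ofMat r h).baseChangeAlong φ hφ) b' _ _ fun σ => ?_
  change LinearMap.toMatrix b' b' ((Matrix.toLin' (r σ)).baseChange B) = (r σ).map φ
  rw [LinearMap.toMatrix_baseChange, LinearMap.toMatrix_eq_toMatrix', LinearMap.toMatrix'_toLin']
  rfl

theorem ofMat_conj (Q Q' : M2 A) (hQ : Q * Q' = 1) (r : Gal →* M2 A) (h : IsCts r) :
    (ofMat r h).IsEquiv (ofMat (conjRep Q Q' hQ r) (h.conj Q Q' hQ)) := by
  have hQ' : Q' * Q = 1 := mul_eq_one_comm.mp hQ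
  have key : ∀ (σ : Gal) (x : Fin 2 → A),
      Q' *ᵥ (r σ *ᵥ x) = (Q' * r σ * Q) *ᵥ (Q' *ᵥ x) := fun σ x => by
    rw [Matrix.mulVec_mulVec, Matrix.mulVec_mulVec, Matrix.mul_assoc (Q' * r σ), hQ,
      Matrix.mul_one]
  exact ⟨{ toLinearEquiv := Matrix.toLin'OfInv hQ hQ', map_apply := fun σ x => key σ x }⟩

theorem trace_eq_of_isEquiv {r r' : Gal →* M2 A} {h : IsCts r} {h' : IsCts r'}
    (e : (ofMat r h).IsEquiv (ofMat r' h')) (σ : Gal) : (r σ).trace = (r' σ).trace := by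
  obtain ⟨e⟩ := e
  let E : (Fin 2 → A) ≃ₗ[A] (Fin 2 → A) := e.toLinearEquiv
  have hE : ∀ x, E (r σ *ᵥ x) = r' σ *ᵥ (E x) := fun x => e.map_apply σ x
  have h1 : Matrix.toLin' (r' σ) = E.conj (Matrix.toLin' (r σ)) := by
    ext1 x
    apply LinearMap.ext
    intro y
    simp only [LinearMap.comp_apply, LinearEquiv.conj_apply, LinearEquiv.coe_coe,
      Matrix.toLin'_apply]
    rw [hE, LinearEquiv.apply_symm_apply]
  rw [← Matrix.trace_toLin'_eq, ← Matrix.trace_toLin'_eq (r' σ), h1, LinearMap.trace_conj']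

section ResidualGeneral

variable {K : Type} [Field K]

theorem residual_isEquiv_of_bases (ρ₁ ρ₂ : ResidualGaloisRep K)
    (b₁ : Module.Basis (Fin 2) K ρ₁.V) (b₂ : Module.Basis (Fin 2) K ρ₂.V)
    (h : ∀ σ, LinearMap.toMatrix b₁ b₁ (ρ₁.ρ σ) = LinearMap.toMatrix b₂ b₂ (ρ₂.ρ σ)) :
    ρ₁.IsEquiv ρ₂ := by
  refine ⟨{ toLinearEquiv := b₁.equivFun.trans b₂.equivFun.symm, map_apply := fun σ x => ?_ }⟩
  apply b₂.equivFun.injective
  rw [LinearEquiv.trans_apply, LinearEquiv.apply_symm_apply, LinearEquiv.trans_apply]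
  have h1 := LinearMap.toMatrix_mulVec_repr b₁ b₁ (ρ₁.ρ σ) x
  have h2 := LinearMap.toMatrix_mulVec_repr b₂ b₂ (ρ₂.ρ σ) (b₂.equivFun.symm (b₁.equivFun x))
  change _ = b₁.equivFun (ρ₁.ρ σ x) at h1
  change _ = b₂.equivFun (ρ₂.ρ σ (b₂.equivFun.symm (b₁.equivFun x))) at h2
  rw [← h1, ← h2, h σ]
  congr 1
  exact (b₂.equivFun.apply_symm_apply (b₁.equivFun x)).symm

theorem toMatrix_map_of_equiv {ρ₁ ρ₂ : ResidualGaloisRep K} (e : ResidualGaloisRep.Equiv ρ₁ ρ₂)
    (b₁ : Module.Basis (Fin 2) K ρ₁.V) (σ : Gal) :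
    LinearMap.toMatrix (b₁.map e.toLinearEquiv) (b₁.map e.toLinearEquiv) (ρ₂.ρ σ) =
      LinearMap.toMatrix b₁ b₁ (ρ₁.ρ σ) := by
  ext i j
  rw [LinearMap.toMatrix_apply, LinearMap.toMatrix_apply, Module.Basis.map_apply,
    ← e.map_apply, Module.Basis.map_repr, LinearEquiv.trans_apply,
    LinearEquiv.symm_apply_apply]

end ResidualGeneral

section Residual

variable {𝒪 : Type} [CommRing 𝒪] [IsLocalRing 𝒪] [Algebra 𝒪 A]
  (ρbar : ResidualGaloisRep (ResidueField 𝒪)) (b : Module.Basis (Fin 2) (ResidueField 𝒪) ρbar.V)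

theorem map_map_resk (hA : IsTestAlg 𝒪 A) [IsLocalHom (algebraMap 𝒪 A)] (M : M2 A) :
    (M.map (resk hA)).map (ResidueField.map (algebraMap 𝒪 A)) = M.map (residue A) := by
  ext i j
  simp only [Matrix.map_apply]
  exact map_resk hA (M i j)

/-- the basis of the base change of `ρbar` induced by `b` -/
def barBasis [IsLocalHom (algebraMap 𝒪 A)] :
    Module.Basis (Fin 2) (ResidueField A)
      (ρbar.baseChangeAlong (ResidueField.map (algebraMap 𝒪 A))).V :=
  letI : Algebra (ResidueField 𝒪) (ResidueField A) :=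
    (ResidueField.map (algebraMap 𝒪 A)).toAlgebra
  Algebra.TensorProduct.basis (ResidueField A) b

theorem toMatrix_barBasis [IsLocalHom (algebraMap 𝒪 A)] (σ : Gal) :
    LinearMap.toMatrix (barBasis (A := A) ρbar b) (barBasis (A := A) ρbar b)
      ((ρbar.baseChangeAlong (ResidueField.map (algebraMap 𝒪 A))).ρ σ) =
    (rbarOf ρbar b σ).map (ResidueField.map (algebraMap 𝒪 A)) := by
  letI : Algebra (ResidueField 𝒪) (ResidueField A) :=
    (ResidueField.map (algebraMap 𝒪 A)).toAlgebra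
  exact LinearMap.toMatrix_baseChange (ResidueField A) (ρbar.ρ σ) b b

/-- the basis of the residual representation induced by a basis -/
def resBasis (ρ : GaloisRepAdic A) (c : Module.Basis (Fin 2) A ρ.V) :
    Module.Basis (Fin 2) (ResidueField A) ρ.residual.V :=
  Algebra.TensorProduct.basis (ResidueField A) c

theorem toMatrix_resBasis (ρ : GaloisRepAdic A) (c : Module.Basis (Fin 2) A ρ.V) (σ : Gal) :
    LinearMap.toMatrix (resBasis ρ c) (resBasis ρ c) (ρ.residual.ρ σ) =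
      (LinearMap.toMatrix c c (ρ.ρ σ)).map (residue A) :=
  LinearMap.toMatrix_baseChange (ResidueField A) (ρ.ρ σ) c c

/-- the standard basis of `ofMat r h` -/
def stdBasis (r : Gal →* M2 A) (h : IsCts r) : Module.Basis (Fin 2) A (ofMat r h).V :=
  Pi.basisFun A (Fin 2)

theorem toMatrix_stdBasis (r : Gal →* M2 A) (h : IsCts r) (σ : Gal) :
    LinearMap.toMatrix (stdBasis r h) (stdBasis r h) ((ofMat r h).ρ σ) = r σ := by
  change LinearMap.toMatrix (Pi.basisFun A (Fin 2)) (Pi.basisFun A (Fin 2))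
    (Matrix.toLin' (r σ)) = r σ
  rw [LinearMap.toMatrix_eq_toMatrix', LinearMap.toMatrix'_toLin']

theorem residual_isEquiv_of_isLift (hA : IsTestAlg 𝒪 A) [IsLocalHom (algebraMap 𝒪 A)]
    {r : Gal →* M2 A} (h : IsCts r) (hl : IsLift hA (rbarOf ρbar b) r) :
    (ofMat r h).residual.IsEquiv
      (ρbar.baseChangeAlong (ResidueField.map (algebraMap 𝒪 A))) := by
  refine residual_isEquiv_of_bases _ _ (resBasis (ofMat r h) (stdBasis r h))
    (barBasis ρbar b) fun σ => ?_
  rw [toMatrix_resBasis, toMatrix_barBasis, ← hl σ, map_map_resk, toMatrix_stdBasis]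

theorem exists_isLift_of_residual_isEquiv (hA : IsTestAlg 𝒪 A) [IsLocalHom (algebraMap 𝒪 A)]
    (ρ : GaloisRepAdic A)
    (hρ : ρ.residual.IsEquiv (ρbar.baseChangeAlong (ResidueField.map (algebraMap 𝒪 A)))) :
    ∃ (r : Gal →* M2 A) (h : IsCts r), ρ.IsEquiv (ofMat r h) ∧ IsLift hA (rbarOf ρbar b) r := by
  obtain ⟨e⟩ := hρ
  -- the basis of the residual representation corresponding to `b`
  let c : Module.Basis (Fin 2) (ResidueField A) (TensorProduct A (ResidueField A) ρ.V) :=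
    (barBasis (A := A) ρbar b).map e.symm.toLinearEquiv
  have hsurj : Function.Surjective (TensorProduct.mk A (ResidueField A) ρ.V 1) :=
    TensorProduct.mk_surjective A ρ.V (ResidueField A) residue_surjective
  choose v hv using fun i => hsurj (c i)
  have hcv : (TensorProduct.mk A (ResidueField A) ρ.V 1 ∘ v) = c := funext hv
  haveI : Module.FinitePresentation A ρ.V := Module.finitePresentation_of_projective A ρ.V
  obtain ⟨b', hb'⟩ := Module.exists_basis_of_basis_baseChange (R := A) (M := ρ.V) v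
    (by rw [hcv]; exact c.linearIndependent) (by rw [hcv]; exact c.span_eq)
    (Module.Flat.rTensor_preserves_injective_linearMap _ Subtype.val_injective)
  refine ⟨matOfBasis ρ b', isCts_matOfBasis ρ b', isEquiv_ofMat_matOfBasis ρ b', fun σ => ?_⟩
  have hinj : Function.Injective
      (fun M : M2 (ResidueField 𝒪) => M.map (ResidueField.map (algebraMap 𝒪 A))) :=
    Matrix.map_injective (ResidueField.map (algebraMap 𝒪 A)).injective
  apply hinj
  change ((matOfBasis ρ b' σ).map (resk hA)).map (ResidueField.map (algebraMap 𝒪 A)) =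
    (rbarOf ρbar b σ).map (ResidueField.map (algebraMap 𝒪 A))
  rw [map_map_resk, matOfBasis_apply, ← toMatrix_resBasis, ← toMatrix_barBasis,
    ← toMatrix_map_of_equiv e.symm (barBasis (A := A) ρbar b) σ]
  have hbc : resBasis ρ b' = c := by
    apply Module.Basis.eq_of_apply_eq
    intro i
    change Algebra.TensorProduct.basis (ResidueField A) b' i = c i
    rw [Algebra.TensorProduct.basis_apply, hb', ← hv i]
    rfl
  rw [hbc]
  rfl

end Residual

end Fermat.Agent.S53lib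

end
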