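import Mathlib
import Fermat.Agent.S53lib.Defs

/-! Basics on test algebras.  OWNER: helper10 -/

set_option autoImplicit false
set_option linter.unusedSectionVars false
set_option linter.style.haveILetI false
set_option linter.unusedSimpArgs false

noncomputable section

namespace Fermat.Agent.S53lib

open IsLocalRing Matrix GaloisRep

variable {𝒪 : Type} [CommRing 𝒪] [IsLocalRing 𝒪]
variable {A : Type} [CommRing A] [IsLocalRing A] [Algebra 𝒪 A]
variable {B : Type} [CommRing B] [IsLocalRing B] [Algebra 𝒪 B]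

theorem isNilpotent_maximalIdeal_of_artinianTest (h : IsArtinianTestAlgebra 𝒪 A) :
    IsNilpotent (maximalIdeal A) := by
  haveI := h.isArtinian
  exact (isArtinianRing_iff_isNilpotent_maximalIdeal A).mp h.isArtinian

theorem finite_residueField_of_isTestAlg [Finite (ResidueField 𝒪)] (h : IsTestAlg 𝒪 A) :
    Finite (ResidueField A) := by
  haveI := h.isLocalHom
  exact Finite.of_surjective _ h.map_bijective.2

/-- Artinian test algebras are finite rings (finite residue field). -/
theorem finite_of_artinianTest [Finite (ResidueField 𝒪)] (h : IsArtinianTestAlgebra 𝒪 A) :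
    Finite A := by
  haveI := h.isArtinian
  haveI := finite_residueField_of_isTestAlg (toTest h)
  obtain ⟨n, hn⟩ := isNilpotent_maximalIdeal_of_artinianTest h
  have h1 : Finite (A ⧸ (⊥ : Ideal A)) := finite_quotient_iff.2 ⟨n, hn.le⟩
  exact Finite.of_equiv _ (RingEquiv.quotientBot A).toEquiv

/-- the residue field is an Artinian test algebra -/
theorem artinianTest_residueField : IsArtinianTestAlgebra 𝒪 (ResidueField 𝒪) where
  isLocalHom := by
    rw [ResidueField.algebraMap_eq]; infer_instance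
  residue_surjective := by
    rw [ResidueField.algebraMap_eq]
    exact (residue_surjective (R := ResidueField 𝒪)).comp (residue_surjective (R := 𝒪))
  isArtinian := inferInstance

theorem resk_residueField (h : IsTestAlg 𝒪 (ResidueField 𝒪)) (x : ResidueField 𝒪) :
    resk h x = x := by
  obtain ⟨c, rfl⟩ := residue_surjective x
  exact (resk h).commutes c

/-- `resk` is compatible with local algebra homs -/
theorem resk_algHom (hA : IsTestAlg 𝒪 A) (hB : IsTestAlg 𝒪 B) (φ : A →ₐ[𝒪] B)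
    (hφ : IsLocalHom (φ : A →+* B)) (a : A) : resk hB (φ a) = resk hA a := by
  obtain ⟨c, hc⟩ := exists_sub_mem hA a
  have h1 : resk hA (a - algebraMap 𝒪 A c) = 0 := (resk_eq_zero_iff hA _).2 hc
  have h2 : resk hB (φ (a - algebraMap 𝒪 A c)) = 0 := by
    rw [resk_eq_zero_iff hB]
    exact map_nonunit (φ : A →+* B) _ hc
  rw [map_sub, sub_eq_zero, (resk hA).commutes] at h1
  rw [map_sub, map_sub, sub_eq_zero, φ.commutes, (resk hB).commutes] at h2
  rw [h1, h2]

theorem IsLift.map (hA : IsTestAlg 𝒪 A) (hB : IsTestAlg 𝒪 B) (φ : A →ₐ[𝒪] B)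
    (hφ : IsLocalHom (φ : A →+* B)) {rbar : Gal →* M2 (ResidueField 𝒪)} {r : Gal →* M2 A}
    (h : IsLift hA rbar r) : IsLift hB rbar (mapRep (φ : A →+* B) r) := by
  intro σ
  rw [← h σ]
  ext i j
  exact resk_algHom hA hB φ hφ _

theorem map_resk_eq_one (hA : IsTestAlg 𝒪 A) {Q : M2 A}
    (hQ1 : EntriesIn (maximalIdeal A) (Q - 1)) : Q.map (resk hA) = 1 := by
  have h1 : (Q - 1).map (resk hA) = 0 := by
    ext i j
    exact (resk_eq_zero_iff hA _).2 (hQ1 i j)
  have h2 : (Q - 1).map (resk hA) = Q.map (resk hA) - 1 := by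
    ext i j
    by_cases hij : i = j
    · subst hij; simp
    · simp [hij]
  rw [h2, sub_eq_zero] at h1
  exact h1

/-- conjugating by a matrix congruent to `1` preserves normalized lifts -/
theorem IsLift.conj (hA : IsTestAlg 𝒪 A) {rbar : Gal →* M2 (ResidueField 𝒪)} {r : Gal →* M2 A}
    (h : IsLift hA rbar r) (Q Q' : M2 A) (hQ : Q * Q' = 1)
    (hQ1 : EntriesIn (maximalIdeal A) (Q - 1)) : IsLift hA rbar (conjRep Q Q' hQ r) := by
  intro σ
  have h1 : Q.map (resk hA) = 1 := map_resk_eq_one hA hQ1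
  let F : M2 A →+* M2 (ResidueField 𝒪) := RingHom.mapMatrix (resk hA).toRingHom
  have hF : ∀ x : M2 A, F x = x.map (resk hA) := fun _ => rfl
  have h2 : Q'.map (resk hA) = 1 := by
    have := congrArg F hQ
    rw [map_mul, map_one, hF, hF, h1, one_mul] at this
    exact this
  rw [conjRep_apply, ← hF, map_mul, map_mul, hF, hF, hF, h1, h2, h σ, one_mul, mul_one]

/-- any algebra hom out of a local ring with nilpotent maximal ideal is local -/
theorem isLocalHom_of_isNilpotent (hnil : IsNilpotent (maximalIdeal A)) (φ : A →+* B) :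
    IsLocalHom φ := by
  constructor
  intro a ha
  by_contra hna
  obtain ⟨n, hn⟩ := hnil
  have h1 : a ^ n ∈ maximalIdeal A ^ n := Ideal.pow_mem_pow hna n
  rw [hn, Ideal.zero_eq_bot, Ideal.mem_bot] at h1
  have h2 : IsUnit (φ a ^ n) := ha.pow n
  rw [← map_pow, h1, map_zero] at h2
  exact not_isUnit_zero h2

/-- a surjective algebra hom between local rings is local -/
theorem isLocalHom_of_surjective (φ : A →+* B) (hφ : Function.Surjective φ) :
    IsLocalHom φ :=
  IsLocalHom.of_surjective φ hφ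

theorem map_maximalIdeal_of_surjective (φ : A →+* B) (hφ : Function.Surjective φ) :
    (maximalIdeal A).map φ = maximalIdeal B :=
  IsLocalRing.map_maximalIdeal_of_surjective φ hφ

/-- a local quotient of a test algebra is a test algebra -/
theorem isTestAlg_of_surjective (hA : IsTestAlg 𝒪 A) (φ : A →ₐ[𝒪] B)
    (hφ : Function.Surjective φ) : IsTestAlg 𝒪 B where
  isLocalHom := by
    haveI := hA.isLocalHom
    haveI : IsLocalHom (φ : A →+* B) := IsLocalHom.of_surjective _ hφ
    have h1 : algebraMap 𝒪 B = (φ : A →+* B).comp (algebraMap 𝒪 A) := by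
      ext c; exact (φ.commutes c).symm
    rw [h1]
    exact RingHom.isLocalHom_comp _ _
  residue_surjective := by
    intro x
    obtain ⟨b, rfl⟩ := residue_surjective x
    obtain ⟨a, rfl⟩ := hφ b
    obtain ⟨c, hc⟩ := exists_sub_mem hA a
    refine ⟨c, ?_⟩
    haveI : IsLocalHom (φ : A →+* B) := IsLocalHom.of_surjective _ hφ
    have h2 : φ (a - algebraMap 𝒪 A c) ∈ maximalIdeal B := map_nonunit (φ : A →+* B) _ hc
    rw [map_sub, φ.commutes, ← residue_eq_zero_iff, map_sub, sub_eq_zero] at h2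
    exact h2.symm

theorem artinianTest_of_surjective (hA : IsArtinianTestAlgebra 𝒪 A) (φ : A →ₐ[𝒪] B)
    (hφ : Function.Surjective φ) : IsArtinianTestAlgebra 𝒪 B :=
  have h := isTestAlg_of_surjective (toTest hA) φ hφ
  { isLocalHom := h.isLocalHom
    residue_surjective := h.residue_surjective
    isArtinian := by
      haveI := hA.isArtinian
      exact Function.Surjective.isArtinianRing (f := (φ : A →+* B)) hφ }

section Quotient

theorem isLocalRing_quotient (I : Ideal A) (hI : I ≠ ⊤) : IsLocalRing (A ⧸ I) := by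
  haveI : Nontrivial (A ⧸ I) := Ideal.Quotient.nontrivial_iff.2 hI
  exact IsLocalRing.of_surjective' (Ideal.Quotient.mk I) Ideal.Quotient.mk_surjective

theorem maximalIdeal_quotient_pow (n : ℕ) [IsLocalRing (A ⧸ maximalIdeal A ^ (n + 1))] :
    maximalIdeal (A ⧸ maximalIdeal A ^ (n + 1)) ^ (n + 1) = ⊥ := by
  rw [← IsLocalRing.map_maximalIdeal_of_surjective (Ideal.Quotient.mk (maximalIdeal A ^ (n + 1)))
    Ideal.Quotient.mk_surjective, ← Ideal.map_pow, Ideal.map_quotient_self]

theorem artinianTest_quotient_pow [IsNoetherianRing A] (hA : IsTestAlg 𝒪 A) (n : ℕ)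
    [IsLocalRing (A ⧸ maximalIdeal A ^ (n + 1))] :
    IsArtinianTestAlgebra 𝒪 (A ⧸ maximalIdeal A ^ (n + 1)) :=
  have h := isTestAlg_of_surjective hA (Ideal.Quotient.mkₐ 𝒪 (maximalIdeal A ^ (n + 1)))
    (Ideal.Quotient.mkₐ_surjective 𝒪 _)
  { isLocalHom := h.isLocalHom
    residue_surjective := h.residue_surjective
    isArtinian := (isArtinianRing_iff_isNilpotent_maximalIdeal _).2
      ⟨n + 1, maximalIdeal_quotient_pow n⟩ }

end Quotient

section Sub

variable [Finite (ResidueField 𝒪)]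

theorem sub_isLocalHom (hA : IsArtinianTestAlgebra 𝒪 A) (S : Subalgebra 𝒪 A) :
    IsLocalHom (S.val : S →+* A) := by
  haveI := finite_of_artinianTest hA
  constructor
  intro x hx
  obtain ⟨u, hu⟩ := hx
  obtain ⟨n, hn, hun⟩ := (isOfFinOrder_of_finite u).exists_pow_eq_one
  have h1 : (x : A) ^ n = 1 := by
    have h2 : ((u ^ n : Aˣ) : A) = 1 := by rw [hun]; rfl
    rw [Units.val_pow_eq_pow_val, hu] at h2
    exact h2
  refine IsUnit.of_mul_eq_one (x ^ (n - 1)) ?_
  apply Subtype.ext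
  rw [← pow_succ', Nat.sub_add_cancel hn]
  exact h1

theorem sub_isLocalRing (hA : IsArtinianTestAlgebra 𝒪 A) (S : Subalgebra 𝒪 A) :
    IsLocalRing S := by
  haveI := sub_isLocalHom hA S
  exact RingHom.domain_isLocalRing (S.val : S →+* A)

theorem sub_artinianTest (hA : IsArtinianTestAlgebra 𝒪 A) (S : Subalgebra 𝒪 A) [IsLocalRing S] :
    IsArtinianTestAlgebra 𝒪 S where
  isLocalHom := by
    constructor
    intro c hc
    haveI := hA.isLocalHom
    have h1 : IsUnit ((S.val : S →+* A) (algebraMap 𝒪 S c)) := hc.map _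
    exact isUnit_of_map_unit (algebraMap 𝒪 A) c h1
  residue_surjective := by
    intro x
    obtain ⟨s, rfl⟩ := residue_surjective x
    obtain ⟨c, hc⟩ := exists_sub_mem (toTest hA) (s : A)
    refine ⟨c, ?_⟩
    have h2 : s - algebraMap 𝒪 S c ∈ maximalIdeal S := by
      intro hu
      exact hc (hu.map (S.val : S →+* A))
    rw [← residue_eq_zero_iff, map_sub, sub_eq_zero] at h2
    exact h2.symm
  isArtinian := by
    haveI := finite_of_artinianTest hA
    infer_instance

theorem sub_nil (hA : IsArtinianTestAlgebra 𝒪 A) (S : Subalgebra 𝒪 A) [IsLocalRing S] (n : ℕ)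
    (hn : maximalIdeal A ^ n = ⊥) : maximalIdeal S ^ n = ⊥ := by
  haveI := sub_isLocalHom hA S
  have h1 : (maximalIdeal S ^ n).map (S.val : S →+* A) ≤ maximalIdeal A ^ n := by
    rw [Ideal.map_pow]
    exact Ideal.pow_right_mono (map_maximalIdeal_le _) n
  rw [hn, le_bot_iff, Ideal.map_eq_bot_iff_of_injective Subtype.val_injective] at h1
  exact h1

end Sub

section FibProd

/-- the fibre product `A ×_k B` -/
def fibProd (hA : IsTestAlg 𝒪 A) (hB : IsTestAlg 𝒪 B) : Subalgebra 𝒪 (A × B) :=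
  AlgHom.equalizer ((resk hA).comp (AlgHom.fst 𝒪 A B)) ((resk hB).comp (AlgHom.snd 𝒪 A B))

theorem mem_fibProd (hA : IsTestAlg 𝒪 A) (hB : IsTestAlg 𝒪 B) (x : A × B) :
    x ∈ fibProd hA hB ↔ resk hA x.1 = resk hB x.2 := Iff.rfl

/-- first projection -/
def fibFst (hA : IsTestAlg 𝒪 A) (hB : IsTestAlg 𝒪 B) : fibProd hA hB →ₐ[𝒪] A :=
  (AlgHom.fst 𝒪 A B).comp (fibProd hA hB).val

/-- second projection -/
def fibSnd (hA : IsTestAlg 𝒪 A) (hB : IsTestAlg 𝒪 B) : fibProd hA hB →ₐ[𝒪] B :=
  (AlgHom.snd 𝒪 A B).comp (fibProd hA hB).val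

theorem isUnit_iff_resk_ne_zero (hA : IsTestAlg 𝒪 A) (a : A) : IsUnit a ↔ resk hA a ≠ 0 := by
  rw [Ne, resk_eq_zero_iff, mem_maximalIdeal, mem_nonunits_iff, not_not]

theorem fibProd_isUnit_of_resk_ne_zero (hA : IsTestAlg 𝒪 A) (hB : IsTestAlg 𝒪 B)
    (x : fibProd hA hB) (hx : resk hA (x : A × B).1 ≠ 0) : IsUnit x := by
  have hx2 : resk hB (x : A × B).2 ≠ 0 := by
    rw [← (mem_fibProd hA hB x).1 x.2]; exact hx
  obtain ⟨u, hu⟩ := (isUnit_iff_resk_ne_zero hA _).2 hx
  obtain ⟨v, hv⟩ := (isUnit_iff_resk_ne_zero hB _).2 hx2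
  have hmem : ((↑u⁻¹ : A), (↑v⁻¹ : B)) ∈ fibProd hA hB := by
    rw [mem_fibProd]
    have h1 : resk hA (x : A × B).1 * resk hA ↑u⁻¹ = 1 := by
      rw [← map_mul, ← hu, Units.mul_inv, map_one]
    have h2 : resk hB (x : A × B).2 * resk hB ↑v⁻¹ = 1 := by
      rw [← map_mul, ← hv, Units.mul_inv, map_one]
    rw [← (mem_fibProd hA hB x).1 x.2] at h2
    exact mul_left_cancel₀ hx (h1.trans h2.symm)
  refine IsUnit.of_mul_eq_one ⟨_, hmem⟩ ?_
  apply Subtype.ext
  apply Prod.ext
  · show (x : A × B).1 * ↑u⁻¹ = 1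
    rw [← hu, Units.mul_inv]
  · show (x : A × B).2 * ↑v⁻¹ = 1
    rw [← hv, Units.mul_inv]

theorem fibFst_isLocalHom (hA : IsTestAlg 𝒪 A) (hB : IsTestAlg 𝒪 B) :
    IsLocalHom (fibFst hA hB : fibProd hA hB →+* A) := by
  constructor
  intro x hx
  exact fibProd_isUnit_of_resk_ne_zero hA hB x ((isUnit_iff_resk_ne_zero hA _).1 hx)

theorem fibSnd_isLocalHom (hA : IsTestAlg 𝒪 A) (hB : IsTestAlg 𝒪 B) :
    IsLocalHom (fibSnd hA hB : fibProd hA hB →+* B) := by
  constructor
  intro x hx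
  apply fibProd_isUnit_of_resk_ne_zero hA hB x
  rw [(mem_fibProd hA hB x).1 x.2]
  exact (isUnit_iff_resk_ne_zero hB _).1 hx

theorem fibProd_isLocalRing (hA : IsTestAlg 𝒪 A) (hB : IsTestAlg 𝒪 B) :
    IsLocalRing (fibProd hA hB) := by
  haveI := fibFst_isLocalHom hA hB
  exact RingHom.domain_isLocalRing (fibFst hA hB : fibProd hA hB →+* A)

theorem fibProd_isTestAlg (hA : IsTestAlg 𝒪 A) (hB : IsTestAlg 𝒪 B)
    [IsLocalRing (fibProd hA hB)] : IsTestAlg 𝒪 (fibProd hA hB) where
  isLocalHom := by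
    constructor
    intro c hc
    haveI := hA.isLocalHom
    have h1 : IsUnit ((fibFst hA hB : fibProd hA hB →+* A) (algebraMap 𝒪 _ c)) := hc.map _
    exact isUnit_of_map_unit (algebraMap 𝒪 A) c h1
  residue_surjective := by
    intro x
    obtain ⟨s, rfl⟩ := residue_surjective x
    obtain ⟨c, hc⟩ := exists_sub_mem hA (s : A × B).1
    refine ⟨c, ?_⟩
    have h2 : s - algebraMap 𝒪 (fibProd hA hB) c ∈ maximalIdeal (fibProd hA hB) := by
      intro hu
      exact hc (hu.map (fibFst hA hB : fibProd hA hB →+* A))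
    rw [← residue_eq_zero_iff, map_sub, sub_eq_zero] at h2
    exact h2.symm

theorem fibProd_artinianTest [Finite (ResidueField 𝒪)] (hA : IsArtinianTestAlgebra 𝒪 A)
    (hB : IsArtinianTestAlgebra 𝒪 B) [IsLocalRing (fibProd (toTest hA) (toTest hB))] :
    IsArtinianTestAlgebra 𝒪 (fibProd (toTest hA) (toTest hB)) :=
  have h := fibProd_isTestAlg (toTest hA) (toTest hB)
  { isLocalHom := h.isLocalHom
    residue_surjective := h.residue_surjective
    isArtinian := by
      haveI := finite_of_artinianTest hA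
      haveI := finite_of_artinianTest hB
      infer_instance }

theorem fibProd_nil (hA : IsTestAlg 𝒪 A) (hB : IsTestAlg 𝒪 B) [IsLocalRing (fibProd hA hB)]
    (n : ℕ) (hnA : maximalIdeal A ^ n = ⊥) (hnB : maximalIdeal B ^ n = ⊥) :
    maximalIdeal (fibProd hA hB) ^ n = ⊥ := by
  haveI := fibFst_isLocalHom hA hB
  haveI := fibSnd_isLocalHom hA hB
  have h1 : (maximalIdeal (fibProd hA hB) ^ n).map (fibFst hA hB : fibProd hA hB →+* A) ≤
      maximalIdeal A ^ n := by
    rw [Ideal.map_pow]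
    exact Ideal.pow_right_mono (map_maximalIdeal_le _) n
  have h2 : (maximalIdeal (fibProd hA hB) ^ n).map (fibSnd hA hB : fibProd hA hB →+* B) ≤
      maximalIdeal B ^ n := by
    rw [Ideal.map_pow]
    exact Ideal.pow_right_mono (map_maximalIdeal_le _) n
  rw [hnA] at h1
  rw [hnB] at h2
  rw [eq_bot_iff]
  intro x hx
  have h3 := h1 (Ideal.mem_map_of_mem _ hx)
  have h4 := h2 (Ideal.mem_map_of_mem _ hx)
  rw [Ideal.mem_bot] at h3 h4 ⊢
  apply Subtype.ext
  exact Prod.ext h3 h4

end FibProd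

end Fermat.Agent.S53lib

end
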