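import Mathlib
import Fermat.Agent.S53lib.Defs
import Fermat.Agent.S53lib.TestAlg

/-! Burnside, spanning, Carayol uniqueness, descent to the trace algebra.  OWNER: helper25 -/

set_option autoImplicit false
set_option linter.unusedSectionVars false
set_option linter.style.haveILetI false
set_option linter.unusedSimpArgs false

noncomputable section

namespace Fermat.Agent.S53lib

open IsLocalRing Matrix GaloisRep Module

theorem burnside_algClosed {K V G : Type*} [Field K] [IsAlgClosed K] [AddCommGroup V] [Module K V]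
    [FiniteDimensional K V] [Nontrivial V] [Monoid G] (ρ : G →* Module.End K V)
    (hirr : ∀ W : Submodule K V, (∀ g, ∀ x ∈ W, ρ g x ∈ W) → W = ⊥ ∨ W = ⊤) :
    Submodule.span K (Set.range ρ) = ⊤ := by
  set 𝒜 : Subalgebra K (Module.End K V) := Algebra.adjoin K (Set.range ρ) with h𝒜
  have hsimple : IsSimpleModule 𝒜 V := by
    rw [isSimpleModule_iff]
    refine { exists_pair_ne := ⟨⊥, ⊤, bot_ne_top⟩, eq_bot_or_eq_top := fun W => ?_ }
    have := hirr (W.restrictScalars K) (fun g x hx => by
      have : (⟨ρ g, Algebra.subset_adjoin ⟨g, rfl⟩⟩ : 𝒜) • x ∈ W := W.smul_mem _ hx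
      exact this)
    rcases this with h | h
    · left; simpa using h
    · right; simpa using h
  have hschur := IsSimpleModule.algebraMap_end_bijective_of_isAlgClosed (A := 𝒜) (V := V) K
  have htop : 𝒜 = ⊤ := by
    rw [eq_top_iff]
    intro f _
    let f' : Module.End (Module.End 𝒜 V) V :=
      { toFun := f
        map_add' := f.map_add
        map_smul' := fun φ v => by
          obtain ⟨c, rfl⟩ := hschur.2 φ
          simp [Module.algebraMap_end_apply] }
    obtain ⟨s, hs⟩ := Module.Finite.fg_top (R := K) (M := V)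
    obtain ⟨a, ha⟩ := jacobson_density f' s
    have : f = a.1 := by
      apply LinearMap.ext_on hs
      intro m hm
      exact ha m hm
    rw [this]; exact a.2
  have h2 : (Algebra.adjoin K (Set.range ρ)).toSubmodule = Submodule.span K (Set.range ρ) := by
    rw [Algebra.adjoin_eq_span]
    congr 1
    have : Set.range ρ = (MonoidHom.mrange ρ : Set _) := rfl
    rw [this, Submonoid.closure_eq]
  rw [← h2, ← h𝒜, htop]; rfl

theorem rbarOf_apply {k : Type} [Field k] (ρbar : ResidualGaloisRep k)
    (b : Module.Basis (Fin 2) k ρbar.V) (σ : Gal) :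
    rbarOf ρbar b σ = LinearMap.toMatrix b b (ρbar.ρ σ) := rfl

/-- Burnside -/
theorem span_rbarOf_eq_top {k : Type} [Field k] (ρbar : ResidualGaloisRep k)
    (habs : ρbar.IsAbsolutelyIrreducible) (b : Module.Basis (Fin 2) k ρbar.V) :
    Submodule.span k (Set.range (rbarOf ρbar b)) = ⊤ := by
  by_contra hne
  obtain ⟨f, hf0, hf⟩ := Submodule.exists_le_ker_of_lt_top _ (lt_top_iff_ne_top.mpr hne)
  set K := AlgebraicClosure k
  set ρK := ρbar.baseChange K with hρK
  have hnt : Nontrivial ρK.V := by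
    apply Module.nontrivial_of_finrank_pos (R := K)
    rw [ρK.finrank_eq]; norm_num
  have hB := burnside_algClosed (K := K) (V := ρK.V) ρK.ρ habs
  let bK : Module.Basis (Fin 2) K ρK.V := Algebra.TensorProduct.basis K b
  -- the functional
  let F : Module.End K ρK.V →ₗ[K] K :=
    { toFun := fun T => ∑ i, ∑ j, algebraMap k K (f (Matrix.single i j 1)) * LinearMap.toMatrix bK bK T i j
      map_add' := fun S T => by
        simp only [map_add, Matrix.add_apply, mul_add, Finset.sum_add_distrib]
      map_smul' := fun c T => by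
        simp only [map_smul, Matrix.smul_apply, smul_eq_mul, RingHom.id_apply]
        rw [Finset.mul_sum]
        refine Finset.sum_congr rfl fun i _ => ?_
        rw [Finset.mul_sum]
        exact Finset.sum_congr rfl fun j _ => by ring }
  have hfM : ∀ M : M2 k, f M = ∑ i, ∑ j, f (Matrix.single i j 1) * M i j := by
    intro M
    conv_lhs => rw [Matrix.matrix_eq_sum_single M]
    simp only [map_sum]
    refine Finset.sum_congr rfl fun i _ => Finset.sum_congr rfl fun j _ => ?_
    have : Matrix.single i j (M i j) = (M i j) • Matrix.single i j (1 : k) := by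
      simp [Matrix.smul_single]
    rw [this, map_smul, smul_eq_mul, mul_comm]
  have hF0 : ∀ σ, F (ρK.ρ σ) = 0 := by
    intro σ
    have h1 : LinearMap.toMatrix bK bK (ρK.ρ σ) = (rbarOf ρbar b σ).map (algebraMap k K) :=
      LinearMap.toMatrix_baseChange K (ρbar.ρ σ) b b
    have h2 : f (rbarOf ρbar b σ) = 0 := hf (Submodule.subset_span ⟨σ, rfl⟩)
    show ∑ i, ∑ j, algebraMap k K (f (Matrix.single i j 1)) * LinearMap.toMatrix bK bK (ρK.ρ σ) i j = 0
    rw [h1]
    rw [hfM] at h2
    have := congrArg (algebraMap k K) h2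
    simpa only [map_sum, map_mul, map_zero, Matrix.map_apply] using this
  have hFtop : F = 0 := by
    have : Submodule.span K (Set.range ρK.ρ) ≤ LinearMap.ker F := by
      rw [Submodule.span_le]
      rintro _ ⟨σ, rfl⟩
      exact hF0 σ
    rw [hB, top_le_iff, LinearMap.ker_eq_top] at this
    exact this
  apply hf0
  apply LinearMap.ext
  intro M
  rw [hfM]
  have hz : ∀ i j, f (Matrix.single i j 1) = 0 := by
    intro i j
    have h3 : F (Matrix.toLin bK bK (Matrix.single i j 1)) = 0 := by rw [hFtop]; rfl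
    have h4 : F (Matrix.toLin bK bK (Matrix.single i j 1)) = algebraMap k K (f (Matrix.single i j 1)) := by
      show ∑ i', ∑ j', algebraMap k K (f (Matrix.single i' j' 1)) *
        LinearMap.toMatrix bK bK (Matrix.toLin bK bK (Matrix.single i j 1)) i' j' = _
      rw [LinearMap.toMatrix_toLin]
      fin_cases i <;> fin_cases j <;> simp [Matrix.single_apply]
    rw [h4] at h3
    exact (map_eq_zero_iff _ (algebraMap k K).injective).mp h3
  simp [hz]

variable {𝒪 : Type} [CommRing 𝒪] [IsLocalRing 𝒪]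
variable {A : Type} [CommRing A] [IsLocalRing A] [Algebra 𝒪 A]

theorem entriesIn_iff_map_resk (hA : IsTestAlg 𝒪 A) (x : M2 A) :
    EntriesIn (maximalIdeal A) x ↔ x.map (resk hA) = 0 := by
  constructor
  · intro h; ext i j; simpa using (resk_eq_zero_iff hA _).mpr (h i j)
  · intro h i j
    rw [← resk_eq_zero_iff hA]
    simpa using congrFun (congrFun h i) j

theorem entriesIn_sub_iff (hA : IsTestAlg 𝒪 A) (x y : M2 A) :
    EntriesIn (maximalIdeal A) (x - y) ↔ x.map (resk hA) = y.map (resk hA) := by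
  rw [entriesIn_iff_map_resk hA]
  have : (x - y).map (resk hA) = x.map (resk hA) - y.map (resk hA) :=
    map_sub (resk hA).mapMatrix x y
  rw [this, sub_eq_zero]

theorem mem_smul_top_of_entriesIn (I : Ideal A) (x : M2 A) (hx : EntriesIn I x) :
    x ∈ I • (⊤ : Submodule A (M2 A)) := by
  rw [Matrix.matrix_eq_sum_single x]
  refine Submodule.sum_mem _ fun i _ => Submodule.sum_mem _ fun j _ => ?_
  have : Matrix.single i j (x i j) = (x i j) • Matrix.single i j (1 : A) := by
    simp [Matrix.smul_single]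
  rw [this]
  exact Submodule.smul_mem_smul (hx i j) Submodule.mem_top

/-- every matrix over `k` lifts to the `𝒪`-span of `r (Gal)` -/
theorem exists_lift_mem_span {rbar : Gal →* M2 (ResidueField 𝒪)}
    (hspan : Submodule.span (ResidueField 𝒪) (Set.range rbar) = ⊤)
    (hA : IsTestAlg 𝒪 A) (r : Gal →* M2 A) (hr : IsLift hA rbar r) (y : M2 (ResidueField 𝒪)) :
    ∃ x ∈ Submodule.span 𝒪 (Set.range r), x.map (resk hA) = y := by
  have hy : y ∈ Submodule.span (ResidueField 𝒪) (Set.range rbar) := by rw [hspan]; trivial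
  induction hy using Submodule.span_induction with
  | mem y hy =>
    obtain ⟨σ, rfl⟩ := hy
    exact ⟨r σ, Submodule.subset_span ⟨σ, rfl⟩, hr σ⟩
  | zero => exact ⟨0, Submodule.zero_mem _, by ext; simp⟩
  | add y z _ _ hy hz =>
    obtain ⟨x, hx, rfl⟩ := hy
    obtain ⟨x', hx', rfl⟩ := hz
    exact ⟨x + x', Submodule.add_mem _ hx hx', map_add (resk hA).mapMatrix x x'⟩
  | smul c y _ hy =>
    obtain ⟨x, hx, rfl⟩ := hy
    obtain ⟨c, rfl⟩ := residue_surjective c
    refine ⟨c • x, Submodule.smul_mem _ _ hx, ?_⟩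
    ext i j
    simp only [Matrix.map_apply, Matrix.smul_apply]
    rw [Algebra.smul_def, map_mul, AlgHom.commutes, smul_eq_mul]
    rfl

/-- Nakayama: a normalized lift of an absolutely irreducible representation spans `M2 A`. -/
theorem span_eq_top_of_isLift {rbar : Gal →* M2 (ResidueField 𝒪)}
    (hspan : Submodule.span (ResidueField 𝒪) (Set.range rbar) = ⊤)
    (hA : IsTestAlg 𝒪 A) (r : Gal →* M2 A) (hr : IsLift hA rbar r) :
    Submodule.span A (Set.range r) = ⊤ := by
  rw [eq_top_iff]
  apply Submodule.le_of_le_smul_of_le_jacobson_bot (I := maximalIdeal A)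
    (Module.Finite.fg_top) (maximalIdeal_le_jacobson _)
  intro M _
  obtain ⟨x, hx, hxM⟩ := exists_lift_mem_span hspan hA r hr (M.map (resk hA))
  have h1 : x ∈ Submodule.span A (Set.range r) := by
    have : Submodule.span 𝒪 (Set.range r) ≤ (Submodule.span A (Set.range r)).restrictScalars 𝒪 :=
      Submodule.span_le.mpr (fun y hy => Submodule.subset_span hy)
    exact this hx
  have h2 : M - x ∈ maximalIdeal A • (⊤ : Submodule A (M2 A)) :=
    mem_smul_top_of_entriesIn _ _ ((entriesIn_sub_iff hA M x).mpr hxM.symm)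
  have : M = x + (M - x) := by abel
  rw [this]
  exact Submodule.add_mem_sup h1 h2

theorem eq_zero_of_trace_mul {M : M2 A} (h : ∀ z : M2 A, (M * z).trace = 0) : M = 0 := by
  ext i j
  have := h (Matrix.single j i 1)
  rw [Matrix.trace_mul_single] at this
  simpa using this

/-- linear extension of `r` to the group algebra -/
def linExt (r : Gal →* M2 A) : MonoidAlgebra A Gal →ₐ[A] M2 A := MonoidAlgebra.lift A (M2 A) Gal r

theorem linExt_of (r : Gal →* M2 A) (σ : Gal) : linExt r (MonoidAlgebra.of A Gal σ) = r σ :=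
  MonoidAlgebra.lift_of r σ

theorem linExt_surjective {r : Gal →* M2 A} (h : Submodule.span A (Set.range r) = ⊤) :
    Function.Surjective (linExt r) := by
  intro M
  have hM : M ∈ Submodule.span A (Set.range r) := by rw [h]; trivial
  induction hM using Submodule.span_induction with
  | mem y hy => obtain ⟨σ, rfl⟩ := hy; exact ⟨_, linExt_of r σ⟩
  | zero => exact ⟨0, map_zero _⟩
  | add y z _ _ hy hz =>
    obtain ⟨x, rfl⟩ := hy; obtain ⟨x', rfl⟩ := hz; exact ⟨x + x', map_add _ _ _⟩
  | smul c y _ hy => obtain ⟨x, rfl⟩ := hy; exact ⟨c • x, map_smul _ _ _⟩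

theorem trace_linExt_eq {r r' : Gal →* M2 A} (htr : ∀ σ, (r σ).trace = (r' σ).trace)
    (x : MonoidAlgebra A Gal) : (linExt r x).trace = (linExt r' x).trace := by
  induction x using MonoidAlgebra.induction_on with
  | of σ => rw [linExt_of, linExt_of, htr]
  | add x y hx hy => rw [map_add, map_add, Matrix.trace_add, Matrix.trace_add, hx, hy]
  | smul c x hx => rw [map_smul, map_smul, Matrix.trace_smul, Matrix.trace_smul, hx]

theorem map_resk_linExt_eq (hA : IsTestAlg 𝒪 A) {rbar : Gal →* M2 (ResidueField 𝒪)}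
    {r r' : Gal →* M2 A} (hr : IsLift hA rbar r) (hr' : IsLift hA rbar r')
    (x : MonoidAlgebra A Gal) : (linExt r x).map (resk hA) = (linExt r' x).map (resk hA) := by
  induction x using MonoidAlgebra.induction_on with
  | of σ => rw [linExt_of, linExt_of, hr, hr']
  | add x y hx hy =>
    rw [map_add, map_add]
    show (resk hA).mapMatrix _ = (resk hA).mapMatrix _
    rw [map_add, map_add]
    exact congrArg₂ (· + ·) hx hy
  | smul c x hx =>
    rw [map_smul, map_smul]
    ext i j
    have := congrFun (congrFun hx i) j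
    simp only [Matrix.map_apply] at this
    simp only [Matrix.map_apply, Matrix.smul_apply, smul_eq_mul, map_mul, this]

theorem linExt_eq_zero_of {r r' : Gal →* M2 A} (htr : ∀ σ, (r σ).trace = (r' σ).trace)
    (h' : Function.Surjective (linExt r')) {x : MonoidAlgebra A Gal} (hx : linExt r x = 0) :
    linExt r' x = 0 := by
  apply eq_zero_of_trace_mul
  intro z
  obtain ⟨y, rfl⟩ := h' z
  rw [← map_mul, ← trace_linExt_eq htr, map_mul, hx, Matrix.zero_mul, Matrix.trace_zero]

theorem isUnit_one_add_of_mem_maximalIdeal (a : A) (ha : a ∈ maximalIdeal A) : IsUnit (1 + a) := by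
  by_contra h
  have h1 : (1 + a) ∈ maximalIdeal A := (mem_maximalIdeal _).mpr h
  have : (1 : A) ∈ maximalIdeal A := by
    have := (maximalIdeal A).sub_mem h1 ha
    simp at this
  exact (Ideal.ne_top_iff_one _).mp (Ideal.IsPrime.ne_top inferInstance) this

/-- Carayol: normalized lifts with equal traces are conjugate (any local test algebra). -/
theorem conj_of_trace_eq {rbar : Gal →* M2 (ResidueField 𝒪)}
    (hspan : Submodule.span (ResidueField 𝒪) (Set.range rbar) = ⊤)
    (hA : IsTestAlg 𝒪 A) (r r' : Gal →* M2 A) (hr : IsLift hA rbar r) (hr' : IsLift hA rbar r')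
    (htr : ∀ σ, (r σ).trace = (r' σ).trace) :
    ∃ (Q Q' : M2 A) (hQ : Q * Q' = 1), EntriesIn (maximalIdeal A) (Q - 1) ∧
      r' = conjRep Q Q' hQ r := by
  have hs := linExt_surjective (span_eq_top_of_isLift hspan hA r hr)
  have hs' := linExt_surjective (span_eq_top_of_isLift hspan hA r' hr')
  obtain ⟨xe, hxe⟩ := hs' !![1, 0; 0, 0]
  obtain ⟨xu, hxu⟩ := hs' !![0, 0; 1, 0]
  obtain ⟨xu', hxu'⟩ := hs' !![0, 1; 0, 0]
  have htr' : ∀ σ, (r' σ).trace = (r σ).trace := fun σ => (htr σ).symm
  have key : ∀ x : MonoidAlgebra A Gal, linExt r' x = 0 → linExt r x = 0 :=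
    fun x hx => linExt_eq_zero_of htr' hs hx
  have he : linExt r xe * linExt r xe = linExt r xe := by
    rw [← sub_eq_zero, ← map_mul, ← map_sub]
    apply key
    rw [map_sub, map_mul, hxe]
    ext i j; fin_cases i <;> fin_cases j <;> simp
  have h1 : linExt r xe * linExt r xu = 0 := by
    rw [← map_mul]
    apply key
    rw [map_mul, hxe, hxu]
    ext i j; fin_cases i <;> fin_cases j <;> simp
  have h2 : linExt r xu * linExt r xe = linExt r xu := by
    rw [← sub_eq_zero, ← map_mul, ← map_sub]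
    apply key
    rw [map_sub, map_mul, hxe, hxu]
    ext i j; fin_cases i <;> fin_cases j <;> simp
  have h3 : linExt r xe * linExt r xu' = linExt r xu' := by
    rw [← sub_eq_zero, ← map_mul, ← map_sub]
    apply key
    rw [map_sub, map_mul, hxe, hxu']
    ext i j; fin_cases i <;> fin_cases j <;> simp
  have h4 : linExt r xu' * linExt r xe = 0 := by
    rw [← map_mul]
    apply key
    rw [map_mul, hxe, hxu']
    ext i j; fin_cases i <;> fin_cases j <;> simp
  have hE : EntriesIn (maximalIdeal A) (linExt r xe - !![1, 0; 0, 0]) := by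
    rw [entriesIn_sub_iff hA, map_resk_linExt_eq hA hr hr', hxe]
  have hU : EntriesIn (maximalIdeal A) (linExt r xu - !![0, 0; 1, 0]) := by
    rw [entriesIn_sub_iff hA, map_resk_linExt_eq hA hr hr', hxu]
  have hU' : EntriesIn (maximalIdeal A) (linExt r xu' - !![0, 1; 0, 0]) := by
    rw [entriesIn_sub_iff hA, map_resk_linExt_eq hA hr hr', hxu']
  obtain ⟨Q, Q', hQQ', hQ'Q, hQ1, -, hform⟩ := conj_formula (maximalIdeal A)
    isUnit_one_add_of_mem_maximalIdeal _ _ _ he h1 h2 h3 h4 hE hU hU'
  refine ⟨Q, Q', hQQ', hQ1, ?_⟩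
  ext σ i j
  rw [conjRep_apply]
  obtain ⟨f00, f01, f10, f11⟩ := hform (r σ)
  have tr1 : ∀ x : MonoidAlgebra A Gal, (r σ * linExt r x).trace = (r' σ * linExt r' x).trace := by
    intro x
    rw [← linExt_of r σ, ← linExt_of r' σ, ← map_mul, ← map_mul, trace_linExt_eq htr]
  have hc : (linExt r xu' * linExt r xu).trace = 1 := by
    rw [← map_mul, trace_linExt_eq htr, map_mul, hxu, hxu']
    simp [Matrix.trace_fin_two]
  have h1e : (1 : M2 A) - linExt r xe = linExt r (1 - xe) := by rw [map_sub, map_one]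
  rw [hc, one_mul, tr1, hxu'] at f10
  rw [tr1, hxe] at f00
  rw [tr1, hxu] at f01
  rw [h1e, tr1, map_sub, map_one, hxe] at f11
  fin_cases i <;> fin_cases j
  · simp only [Fin.zero_eta, Fin.isValue]; rw [f00]; simp [Matrix.trace_fin_two, Matrix.mul_apply, Fin.sum_univ_two]
  · simp only [Fin.zero_eta, Fin.mk_one, Fin.isValue]; rw [f01]; simp [Matrix.trace_fin_two, Matrix.mul_apply, Fin.sum_univ_two]
  · simp only [Fin.zero_eta, Fin.mk_one, Fin.isValue]; rw [f10]; simp [Matrix.trace_fin_two, Matrix.mul_apply, Fin.sum_univ_two]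
  · simp only [Fin.mk_one, Fin.isValue]; rw [f11]; simp [Matrix.trace_fin_two, Matrix.mul_apply, Fin.sum_univ_two]

/-- the `𝒪`-subalgebra of `M2 A` generated by the image of `r` -/
def imgAlg (𝒪 : Type) [CommRing 𝒪] {A : Type} [CommRing A] [Algebra 𝒪 A] (r : Gal →* M2 A) :
    Subalgebra 𝒪 (M2 A) := Algebra.adjoin 𝒪 (Set.range r)

theorem imgAlg_toSubmodule (r : Gal →* M2 A) :
    Subalgebra.toSubmodule (imgAlg 𝒪 r) = Submodule.span 𝒪 (Set.range r) := by
  rw [imgAlg, Algebra.adjoin_eq_span]
  congr 1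
  have : Set.range r = (MonoidHom.mrange r : Set _) := rfl
  rw [this, Submonoid.closure_eq]

theorem mem_imgAlg_iff (r : Gal →* M2 A) (x : M2 A) :
    x ∈ imgAlg 𝒪 r ↔ x ∈ Submodule.span 𝒪 (Set.range r) := by
  rw [← imgAlg_toSubmodule, Subalgebra.mem_toSubmodule]

theorem trace_mem_range_of_mem_imgAlg (r : Gal →* M2 A) {x : M2 A} (hx : x ∈ imgAlg 𝒪 r) :
    x.trace ∈ (traceHom (𝒪 := 𝒪) r).range := by
  rw [mem_imgAlg_iff] at hx
  induction hx using Submodule.span_induction with
  | mem y hy => obtain ⟨σ, rfl⟩ := hy; exact ⟨MvPolynomial.X σ, traceHom_X r σ⟩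
  | zero => rw [Matrix.trace_zero]; exact Subalgebra.zero_mem _
  | add y z _ _ hy hz => rw [Matrix.trace_add]; exact Subalgebra.add_mem _ hy hz
  | smul c y _ hy => rw [Matrix.trace_smul]; exact Subalgebra.smul_mem _ hy c

/-- descent to the trace algebra when the maximal ideal is nilpotent -/
theorem descent {rbar : Gal →* M2 (ResidueField 𝒪)}
    (hspan : Submodule.span (ResidueField 𝒪) (Set.range rbar) = ⊤)
    (hA : IsTestAlg 𝒪 A) (hnil : IsNilpotent (maximalIdeal A))
    (r : Gal →* M2 A) (hr : IsLift hA rbar r) :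
    ∃ (Q Q' : M2 A) (hQ : Q * Q' = 1), EntriesIn (maximalIdeal A) (Q - 1) ∧
      ∀ σ i j, conjRep Q Q' hQ r σ i j ∈ (traceHom (𝒪 := 𝒪) r).range := by
  obtain ⟨n, hn⟩ := hnil
  set E := imgAlg 𝒪 r with hE
  let red : E →+* M2 (ResidueField 𝒪) := ((resk hA).mapMatrix.comp E.val : E →ₐ[𝒪] _)
  have hred : ∀ x : E, red x = (x : M2 A).map (resk hA) := fun _ => rfl
  have hsurj : ∀ y, ∃ x : E, red x = y := by
    intro y
    obtain ⟨x, hx, hxy⟩ := exists_lift_mem_span hspan hA r hr y
    exact ⟨⟨x, (mem_imgAlg_iff r x).mpr hx⟩, hxy⟩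
  have hker : ∀ x ∈ RingHom.ker red, IsNilpotent x := by
    intro x hx
    refine ⟨n, ?_⟩
    have h1 : EntriesIn (maximalIdeal A) (x : M2 A) := (entriesIn_iff_map_resk hA _).mpr hx
    have h2 := h1.pow n
    rw [hn] at h2
    apply Subtype.ext
    exact entriesIn_bot.mp h2
  have hidem : IsIdempotentElem (!![1, 0; 0, 0] : M2 (ResidueField 𝒪)) := by
    ext i j; fin_cases i <;> fin_cases j <;> simp
  obtain ⟨e, he, hee⟩ := exists_isIdempotentElem_eq_of_ker_isNilpotent red hker _
    (by obtain ⟨x, hx⟩ := hsurj !![1, 0; 0, 0]; exact ⟨x, hx⟩) hidem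
  obtain ⟨x, hx⟩ := hsurj !![0, 0; 1, 0]
  obtain ⟨x', hx'⟩ := hsurj !![0, 1; 0, 0]
  set u : E := (1 - e) * x * e with hu
  set u' : E := e * x' * (1 - e) with hu'
  have he' : e * e = e := he
  have he1 : e * (1 - e) = 0 := by rw [mul_sub, mul_one, he', sub_self]
  have he2 : (1 - e) * e = 0 := by rw [sub_mul, one_mul, he', sub_self]
  have h1 : e * u = 0 := by rw [hu, ← mul_assoc, ← mul_assoc, he1, zero_mul, zero_mul]
  have h2 : u * e = u := by rw [hu, mul_assoc, he']
  have h3 : e * u' = u' := by rw [hu', ← mul_assoc, ← mul_assoc, he']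
  have h4 : u' * e = 0 := by rw [hu', mul_assoc, he2, mul_zero]
  have hru : red u = !![0, 0; 1, 0] := by
    rw [hu, map_mul, map_mul, map_sub, map_one, hee, hx, Matrix.one_fin_two]
    ext i j; fin_cases i <;> fin_cases j <;> simp [Matrix.mul_apply, Fin.sum_univ_two]
  have hru' : red u' = !![0, 1; 0, 0] := by
    rw [hu', map_mul, map_mul, map_sub, map_one, hee, hx', Matrix.one_fin_two]
    ext i j; fin_cases i <;> fin_cases j <;> simp [Matrix.mul_apply, Fin.sum_univ_two]
  have lit : ∀ a b c d : 𝒪, (!![algebraMap 𝒪 A a, algebraMap 𝒪 A b; algebraMap 𝒪 A c,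
      algebraMap 𝒪 A d] : M2 A).map (resk hA) = !![residue 𝒪 a, residue 𝒪 b; residue 𝒪 c,
      residue 𝒪 d] := by
    intro a b c d
    ext i j; fin_cases i <;> fin_cases j <;> simp
  have hE1 : EntriesIn (maximalIdeal A) ((e : M2 A) - !![1, 0; 0, 0]) := by
    rw [entriesIn_sub_iff hA, ← hred, hee]
    have := lit 1 0 0 0
    simp only [map_one, map_zero] at this
    exact this.symm
  have hU : EntriesIn (maximalIdeal A) ((u : M2 A) - !![0, 0; 1, 0]) := by
    rw [entriesIn_sub_iff hA, ← hred, hru]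
    have := lit 0 0 1 0
    simp only [map_one, map_zero] at this
    exact this.symm
  have hU' : EntriesIn (maximalIdeal A) ((u' : M2 A) - !![0, 1; 0, 0]) := by
    rw [entriesIn_sub_iff hA, ← hred, hru']
    have := lit 0 1 0 0
    simp only [map_one, map_zero] at this
    exact this.symm
  obtain ⟨Q, Q', hQQ', hQ'Q, hQ1, hc, hform⟩ := conj_formula (maximalIdeal A)
    isUnit_one_add_of_mem_maximalIdeal (e : M2 A) (u : M2 A) (u' : M2 A)
    (congrArg Subtype.val he') (congrArg Subtype.val h1) (congrArg Subtype.val h2)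
    (congrArg Subtype.val h3) (congrArg Subtype.val h4) hE1 hU hU'
  refine ⟨Q, Q', hQQ', hQ1, ?_⟩
  set S := (traceHom (𝒪 := 𝒪) r).range with hS
  -- the constant `c` is invertible in `S`
  set c := ((u' : M2 A) * (u : M2 A)).trace with hcdef
  have hcS : c ∈ S := trace_mem_range_of_mem_imgAlg r (E.mul_mem u'.2 u.2)
  obtain ⟨d, hdS, hcd⟩ : ∃ d ∈ S, d * c = 1 := by
    refine ⟨∑ i ∈ Finset.range n, (1 - c) ^ i, ?_, ?_⟩
    · exact Subalgebra.sum_mem _ fun i _ => Subalgebra.pow_mem _
        (Subalgebra.sub_mem _ (Subalgebra.one_mem _) hcS) i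
    · have h5 := mul_neg_geom_sum (1 - c) n
      have h6 : (1 - c) ^ n = 0 := by
        have : (1 - c) ^ n ∈ maximalIdeal A ^ n := Ideal.pow_mem_pow (by
          have := (maximalIdeal A).neg_mem hc
          simpa using this) n
        rw [hn] at this
        simpa using this
      rw [h6, sub_zero, sub_sub_cancel] at h5
      rw [mul_comm]; exact h5
  intro σ i j
  rw [conjRep_apply]
  have hσ : r σ ∈ E := Algebra.subset_adjoin ⟨σ, rfl⟩
  obtain ⟨f00, f01, f10, f11⟩ := hform (r σ)
  fin_cases i <;> fin_cases j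
  · simp only [Fin.zero_eta, Fin.isValue]; rw [f00]
    exact trace_mem_range_of_mem_imgAlg r (E.mul_mem hσ e.2)
  · simp only [Fin.zero_eta, Fin.mk_one, Fin.isValue]; rw [f01]
    exact trace_mem_range_of_mem_imgAlg r (E.mul_mem hσ u.2)
  · simp only [Fin.zero_eta, Fin.mk_one, Fin.isValue]
    have : (Q' * r σ * Q) 1 0 = d * (r σ * (u' : M2 A)).trace := by
      rw [← f10, ← mul_assoc, hcd, one_mul]
    rw [this]
    exact S.mul_mem hdS (trace_mem_range_of_mem_imgAlg r (E.mul_mem hσ u'.2))
  · simp only [Fin.mk_one, Fin.isValue]; rw [f11]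
    exact trace_mem_range_of_mem_imgAlg r (E.mul_mem hσ (E.sub_mem E.one_mem e.2))

end Fermat.Agent.S53lib
end
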