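import Mathlib
import Fermat.Agent.S53lib.Defs
import Fermat.Agent.S53lib.Iface
import Fermat.Agent.S53lib.TestAlg

/-! The tangent space bound.  OWNER: helper27 (auxiliary lemmas live in namespace
`Fermat.Agent.S53lib.Tangent`).

Let `Q` be the finite quotient in `TangentFinite` and `ι := Q → k[ε]`.
For a trace-generated level datum `D` (i.e. `traceHom D.r` surjective):
* every `𝒪`-algebra hom `φ : D.B → k[ε]` gives the class of `(ofMat D.r).baseChangeAlong φ` in `Q`;
  this is injective in `φ` (equal classes ⇒ equal traces ⇒ `φ = ψ` on generators `tr (D.r σ)`).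
* algebra homs `D.B → k[ε]` separate the points of `𝔪 / (𝔪² + 𝔪_𝒪 B)` (functionals on the
  cotangent space killing the classes coming from `𝒪` give algebra homs);
* hence there is `t : ι → 𝔪` with `𝔪 = (t i) + 𝔪_𝒪 B + 𝔪²`;
* `MvPolynomial ι 𝒪 → D.B`, `X i ↦ t i` is surjective and kills `𝔫 ^ (n+1)`, where
  `𝔫 = ker (MvPolynomial ι 𝒪 → k)`; `C n := Nat.card (MvPolynomial ι 𝒪 ⧸ 𝔫 ^ (n+1))`.
-/

set_option autoImplicit false
set_option linter.unusedSectionVars false
set_option linter.style.haveILetI false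
set_option linter.unusedSimpArgs false

noncomputable section

namespace Fermat.Agent.S53lib

open IsLocalRing Matrix GaloisRep

namespace Tangent

section DualNumbers

variable (𝒪 : Type) [CommRing 𝒪] [IsLocalRing 𝒪]

/-- the `𝒪`-algebra structure on `k[ε]` used in `TangentFinite` -/
@[reducible] def algDk : Algebra 𝒪 (DualNumber (ResidueField 𝒪)) :=
  ((algebraMap (ResidueField 𝒪) (DualNumber (ResidueField 𝒪))).comp
    (algebraMap 𝒪 (ResidueField 𝒪))).toAlgebra

attribute [local instance] algDk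

theorem algebraMap_Dk (c : 𝒪) :
    algebraMap 𝒪 (DualNumber (ResidueField 𝒪)) c = TrivSqZeroExt.inl (residue 𝒪 c) := rfl

end DualNumbers

section Construct

variable {𝒪 : Type} [CommRing 𝒪] [IsLocalRing 𝒪]
variable {B : Type} [CommRing B] [IsLocalRing B] [Algebra 𝒪 B]

attribute [local instance] algDk

theorem resk_algebraMap (h : IsTestAlg 𝒪 B) (c : 𝒪) : resk h (algebraMap 𝒪 B c) = residue 𝒪 c :=
  (resk h).commutes c

theorem mem_maximalIdeal_of_algebraMap_mem (h : IsTestAlg 𝒪 B) {c : 𝒪}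
    (hc : algebraMap 𝒪 B c ∈ maximalIdeal B) : c ∈ maximalIdeal 𝒪 := by
  rw [← resk_eq_zero_iff h, resk_algebraMap] at hc
  exact (residue_eq_zero_iff c).mp hc

theorem algebraMap_mem_maximalIdeal (h : IsTestAlg 𝒪 B) {c : 𝒪}
    (hc : c ∈ maximalIdeal 𝒪) : algebraMap 𝒪 B c ∈ maximalIdeal B := by
  rw [← resk_eq_zero_iff h, resk_algebraMap]
  exact (residue_eq_zero_iff c).mpr hc

/-- data of a "tangent functional" -/
structure TanFun (h : IsTestAlg 𝒪 B) where
  lam : maximalIdeal B →+ ResidueField 𝒪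
  smul : ∀ (b : B) (x : maximalIdeal B), lam (b • x) = resk h b * lam x
  kill : ∀ (c : 𝒪) (hc : algebraMap 𝒪 B c ∈ maximalIdeal B), lam ⟨algebraMap 𝒪 B c, hc⟩ = 0

variable (h : IsTestAlg 𝒪 B) (L : TanFun h)

/-- a set theoretic section -/
def secO (a : B) : 𝒪 := (exists_sub_mem h a).choose

theorem secO_spec (a : B) : a - algebraMap 𝒪 B (secO h a) ∈ maximalIdeal B :=
  (exists_sub_mem h a).choose_spec

/-- the `ε`-component -/
def epsPart (a : B) : ResidueField 𝒪 := L.lam ⟨a - algebraMap 𝒪 B (secO h a), secO_spec h a⟩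

theorem epsPart_eq (a : B) (c : 𝒪) (hc : a - algebraMap 𝒪 B c ∈ maximalIdeal B) :
    epsPart h L a = L.lam ⟨a - algebraMap 𝒪 B c, hc⟩ := by
  have hd : algebraMap 𝒪 B (c - secO h a) ∈ maximalIdeal B := by
    have : algebraMap 𝒪 B (c - secO h a) =
        (a - algebraMap 𝒪 B (secO h a)) - (a - algebraMap 𝒪 B c) := by
      rw [map_sub]; ring
    rw [this]
    exact Ideal.sub_mem _ (secO_spec h a) hc
  have h1 : (⟨a - algebraMap 𝒪 B (secO h a), secO_spec h a⟩ : maximalIdeal B) =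
      ⟨a - algebraMap 𝒪 B c, hc⟩ + ⟨algebraMap 𝒪 B (c - secO h a), hd⟩ := by
    apply Subtype.ext
    simp only [Submodule.coe_add, map_sub]
    ring
  rw [epsPart, h1, map_add, L.kill, add_zero]

theorem resk_eq_residue (a : B) (c : 𝒪) (hc : a - algebraMap 𝒪 B c ∈ maximalIdeal B) :
    resk h a = residue 𝒪 c := by
  rw [← resk_eq_zero_iff h, map_sub, resk_algebraMap, sub_eq_zero] at hc
  exact hc

/-- the algebra hom to the dual numbers attached to a tangent functional -/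
def tanHom : B →ₐ[𝒪] DualNumber (ResidueField 𝒪) where
  toFun a := TrivSqZeroExt.inl (resk h a) + TrivSqZeroExt.inr (epsPart h L a)
  map_one' := by
    have h1 : (1 : B) - algebraMap 𝒪 B 1 ∈ maximalIdeal B := by simp
    rw [epsPart_eq h L 1 1 h1]
    have : (⟨(1 : B) - algebraMap 𝒪 B 1, h1⟩ : maximalIdeal B) = 0 := by
      apply Subtype.ext; simp
    rw [this, map_zero, map_one]
    simp
  map_zero' := by
    have h1 : (0 : B) - algebraMap 𝒪 B 0 ∈ maximalIdeal B := by simp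
    rw [epsPart_eq h L 0 0 h1]
    have : (⟨(0 : B) - algebraMap 𝒪 B 0, h1⟩ : maximalIdeal B) = 0 := by
      apply Subtype.ext; simp
    rw [this, map_zero, map_zero]
    simp
  map_add' a b := by
    have h1 : (a + b) - algebraMap 𝒪 B (secO h a + secO h b) ∈ maximalIdeal B := by
      have : (a + b) - algebraMap 𝒪 B (secO h a + secO h b) =
          (a - algebraMap 𝒪 B (secO h a)) + (b - algebraMap 𝒪 B (secO h b)) := by
        rw [map_add]; ring
      rw [this]
      exact Ideal.add_mem _ (secO_spec h a) (secO_spec h b)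
    rw [epsPart_eq h L (a + b) _ h1]
    have : (⟨(a + b) - algebraMap 𝒪 B (secO h a + secO h b), h1⟩ : maximalIdeal B) =
        ⟨a - algebraMap 𝒪 B (secO h a), secO_spec h a⟩ +
          ⟨b - algebraMap 𝒪 B (secO h b), secO_spec h b⟩ := by
      apply Subtype.ext
      simp only [Submodule.coe_add, map_add]
      ring
    rw [this, map_add, map_add]
    simp only [epsPart, TrivSqZeroExt.inl_add, TrivSqZeroExt.inr_add]
    abel
  map_mul' a b := by
    have h1 : (a * b) - algebraMap 𝒪 B (secO h a * secO h b) ∈ maximalIdeal B := by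
      have : (a * b) - algebraMap 𝒪 B (secO h a * secO h b) =
          b * (a - algebraMap 𝒪 B (secO h a)) +
            algebraMap 𝒪 B (secO h a) * (b - algebraMap 𝒪 B (secO h b)) := by
        rw [map_mul]; ring
      rw [this]
      exact Ideal.add_mem _ (Ideal.mul_mem_left _ _ (secO_spec h a))
        (Ideal.mul_mem_left _ _ (secO_spec h b))
    rw [epsPart_eq h L (a * b) _ h1]
    have : (⟨(a * b) - algebraMap 𝒪 B (secO h a * secO h b), h1⟩ : maximalIdeal B) =
        b • ⟨a - algebraMap 𝒪 B (secO h a), secO_spec h a⟩ +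
          algebraMap 𝒪 B (secO h a) • ⟨b - algebraMap 𝒪 B (secO h b), secO_spec h b⟩ := by
      apply Subtype.ext
      simp only [Submodule.coe_add, map_mul, Submodule.coe_smul, smul_eq_mul]
      ring
    rw [this, map_add, L.smul, L.smul, resk_algebraMap, ← resk_eq_residue h a _ (secO_spec h a),
      map_mul]
    apply TrivSqZeroExt.ext
    · simp
    · simp [epsPart]
      ring
  commutes' c := by
    have h1 : algebraMap 𝒪 B c - algebraMap 𝒪 B c ∈ maximalIdeal B := by simp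
    rw [epsPart_eq h L _ c h1]
    have : (⟨algebraMap 𝒪 B c - algebraMap 𝒪 B c, h1⟩ : maximalIdeal B) = 0 := by
      apply Subtype.ext; simp
    rw [this, map_zero, resk_algebraMap, algebraMap_Dk]
    simp

theorem tanHom_apply_of_mem (x : B) (hx : x ∈ maximalIdeal B) :
    tanHom h L x = TrivSqZeroExt.inr (L.lam ⟨x, hx⟩) := by
  have h1 : x - algebraMap 𝒪 B 0 ∈ maximalIdeal B := by simpa using hx
  show TrivSqZeroExt.inl (resk h x) + TrivSqZeroExt.inr (epsPart h L x) = _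
  rw [epsPart_eq h L x 0 h1, (resk_eq_zero_iff h x).mpr hx]
  have : (⟨x - algebraMap 𝒪 B 0, h1⟩ : maximalIdeal B) = ⟨x, hx⟩ := by
    apply Subtype.ext; simp
  rw [this]
  simp

end Construct

section Separate

variable {𝒪 : Type} [CommRing 𝒪] [IsLocalRing 𝒪]
variable {B : Type} [CommRing B] [IsLocalRing B] [Algebra 𝒪 B]

attribute [local instance] algDk

/-- the ideal of `B` generated by the maximal ideal of `𝒪` -/
abbrev idealO (𝒪 : Type) [CommRing 𝒪] [IsLocalRing 𝒪] (B : Type) [CommRing B] [Algebra 𝒪 B] :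
    Ideal B := (maximalIdeal 𝒪).map (algebraMap 𝒪 B)

/-- the span in the cotangent space of the classes coming from `𝒪` -/
def cotO (_h : IsTestAlg 𝒪 B) : Submodule (ResidueField B) (CotangentSpace B) :=
  Submodule.span (ResidueField B)
    {v | ∃ (c : 𝒪) (hc : algebraMap 𝒪 B c ∈ maximalIdeal B),
      v = (maximalIdeal B).toCotangent ⟨algebraMap 𝒪 B c, hc⟩}

theorem mem_of_toCotangent_mem_cotO (h : IsTestAlg 𝒪 B) (v : CotangentSpace B) (hv : v ∈ cotO h) :
    ∀ y : maximalIdeal B, (maximalIdeal B).toCotangent y = v →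
      (y : B) ∈ maximalIdeal B ^ 2 ⊔ idealO 𝒪 B := by
  induction hv using Submodule.span_induction with
  | mem v hv =>
    obtain ⟨c, hc, rfl⟩ := hv
    intro y hy
    rw [Ideal.toCotangent_eq] at hy
    have : (y : B) = ((y : B) - algebraMap 𝒪 B c) + algebraMap 𝒪 B c := by ring
    rw [this]
    exact Ideal.add_mem _ (Ideal.mem_sup_left hy)
      (Ideal.mem_sup_right (Ideal.mem_map_of_mem _ (mem_maximalIdeal_of_algebraMap_mem h hc)))
  | zero =>
    intro y hy
    exact Ideal.mem_sup_left ((Ideal.toCotangent_eq_zero _ y).mp hy)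
  | add v w _ _ ihv ihw =>
    intro y hy
    obtain ⟨y1, rfl⟩ := Ideal.toCotangent_surjective _ v
    have h2 : (maximalIdeal B).toCotangent (y - y1) = w := by
      rw [map_sub, hy]; abel
    have : (y : B) = (y1 : B) + ((y - y1 : maximalIdeal B) : B) := by
      simp
    rw [this]
    exact Ideal.add_mem _ (ihv y1 rfl) (ihw _ h2)
  | smul a v _ ihv =>
    intro y hy
    obtain ⟨y1, rfl⟩ := Ideal.toCotangent_surjective _ v
    obtain ⟨b, rfl⟩ := residue_surjective a
    have h2 : (maximalIdeal B).toCotangent (b • y1) = residue B b • (maximalIdeal B).toCotangent y1 := by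
      rw [map_smul]
      exact (IsScalarTower.algebraMap_smul (ResidueField B) b _).symm
    rw [← h2, Ideal.toCotangent_eq] at hy
    have : (y : B) = ((y : B) - ((b • y1 : maximalIdeal B) : B)) + b * (y1 : B) := by
      simp
    rw [this]
    exact Ideal.add_mem _ (Ideal.mem_sup_left hy) (Ideal.mul_mem_left _ _ (ihv y1 rfl))

/-- the inverse of the identification of residue fields -/
def resEquiv (h : IsTestAlg 𝒪 B) : ResidueField B ≃+* ResidueField 𝒪 :=
  haveI := h.isLocalHom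
  (RingEquiv.ofBijective (ResidueField.map (algebraMap 𝒪 B)) h.map_bijective).symm

theorem resEquiv_residue (h : IsTestAlg 𝒪 B) (b : B) : resEquiv h (residue B b) = resk h b := rfl

theorem exists_tanFun (h : IsTestAlg 𝒪 B) (x : B) (hx : x ∈ maximalIdeal B)
    (hx' : x ∉ maximalIdeal B ^ 2 ⊔ idealO 𝒪 B) :
    ∃ L : TanFun h, L.lam ⟨x, hx⟩ ≠ 0 := by
  have hnot : (maximalIdeal B).toCotangent ⟨x, hx⟩ ∉ cotO h := fun hmem =>
    hx' (mem_of_toCotangent_mem_cotO h _ hmem ⟨x, hx⟩ rfl)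
  obtain ⟨f, hf, hker⟩ := Submodule.exists_le_ker_of_notMem hnot
  refine ⟨⟨((resEquiv h : ResidueField B →+* ResidueField 𝒪) : ResidueField B →+ ResidueField 𝒪).comp
    (f.toAddMonoidHom.comp (maximalIdeal B).toCotangent.toAddMonoidHom), ?_, ?_⟩, ?_⟩
  · intro b y
    simp only [AddMonoidHom.coe_comp, AddMonoidHom.coe_coe, LinearMap.toAddMonoidHom_coe,
      Function.comp_apply, RingHom.coe_coe]
    have h2 : (maximalIdeal B).toCotangent (b • y) = residue B b • (maximalIdeal B).toCotangent y := by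
      rw [map_smul]
      exact (IsScalarTower.algebraMap_smul (ResidueField B) b _).symm
    rw [h2, map_smul, smul_eq_mul, map_mul, resEquiv_residue]
  · intro c hc
    simp only [AddMonoidHom.coe_comp, AddMonoidHom.coe_coe, LinearMap.toAddMonoidHom_coe,
      Function.comp_apply, RingHom.coe_coe]
    have : f ((maximalIdeal B).toCotangent ⟨algebraMap 𝒪 B c, hc⟩) = 0 :=
      hker (Submodule.subset_span ⟨c, hc, rfl⟩)
    rw [this, map_zero]
  · simp only [AddMonoidHom.coe_comp, AddMonoidHom.coe_coe, LinearMap.toAddMonoidHom_coe,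
      Function.comp_apply, RingHom.coe_coe]
    intro h0
    exact hf ((map_eq_zero_iff _ (resEquiv h).injective).mp h0)

/-- key lemma: algebra homs to the dual numbers separate `𝔪 / (𝔪² + 𝔪_𝒪 B)` -/
theorem mem_of_forall_algHom_eq_zero (h : IsTestAlg 𝒪 B) (x : B) (hx : x ∈ maximalIdeal B)
    (hall : ∀ φ : B →ₐ[𝒪] DualNumber (ResidueField 𝒪), φ x = 0) :
    x ∈ maximalIdeal B ^ 2 ⊔ idealO 𝒪 B := by
  by_contra hx'
  obtain ⟨L, hL⟩ := exists_tanFun h x hx hx'
  have := hall (tanHom h L)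
  rw [tanHom_apply_of_mem h L x hx] at this
  exact hL (TrivSqZeroExt.inr_injective (this.trans (TrivSqZeroExt.inr_zero _).symm))

end Separate

section Bound

variable {𝒪 : Type} [CommRing 𝒪] [IsLocalRing 𝒪]
variable {B : Type} [CommRing B] [IsLocalRing B] [Algebra 𝒪 B]

/-- the augmentation of the polynomial ring -/
def augP (𝒪 : Type) [CommRing 𝒪] [IsLocalRing 𝒪] (ι : Type*) :
    MvPolynomial ι 𝒪 →ₐ[𝒪] ResidueField 𝒪 :=
  MvPolynomial.aeval (fun _ => 0)

/-- the augmentation ideal -/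
def augIdeal (𝒪 : Type) [CommRing 𝒪] [IsLocalRing 𝒪] (ι : Type*) : Ideal (MvPolynomial ι 𝒪) :=
  RingHom.ker (augP 𝒪 ι)

theorem augP_surjective (ι : Type*) : Function.Surjective (augP 𝒪 ι) := by
  intro x
  obtain ⟨c, rfl⟩ := residue_surjective x
  exact ⟨MvPolynomial.C c, by simp [augP]⟩

theorem finite_quot_augIdeal_pow [IsNoetherianRing 𝒪] [Finite (ResidueField 𝒪)] (ι : Type*)
    [Finite ι] (n : ℕ) : Finite (MvPolynomial ι 𝒪 ⧸ augIdeal 𝒪 ι ^ n) := by
  haveI : Finite (MvPolynomial ι 𝒪 ⧸ augIdeal 𝒪 ι) :=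
    Finite.of_equiv _
      (RingHom.quotientKerEquivOfSurjective (f := (augP 𝒪 ι : MvPolynomial ι 𝒪 →+* ResidueField 𝒪))
        (augP_surjective ι)).symm.toEquiv
  exact Ideal.finite_quotient_pow (IsNoetherian.noetherian _) n

theorem card_le_of_generators [IsNoetherianRing 𝒪] [Finite (ResidueField 𝒪)] (ι : Type*) [Finite ι]
    (h : IsTestAlg 𝒪 B) (n : ℕ) (hnil : maximalIdeal B ^ (n + 1) = ⊥)
    (t : ι → B) (ht : ∀ i, t i ∈ maximalIdeal B)
    (hgen : maximalIdeal B ≤ Ideal.span (Set.range t) ⊔ idealO 𝒪 B ⊔ maximalIdeal B ^ 2) :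
    Nat.card B ≤ Nat.card (MvPolynomial ι 𝒪 ⧸ augIdeal 𝒪 ι ^ (n + 1)) := by
  set Φ : MvPolynomial ι 𝒪 →ₐ[𝒪] B := MvPolynomial.aeval t with hΦ
  set 𝔫 := augIdeal 𝒪 ι with h𝔫
  have hcomp : (resk h).comp Φ = augP 𝒪 ι := by
    apply MvPolynomial.algHom_ext
    intro i
    simp [hΦ, augP, (resk_eq_zero_iff h (t i)).mpr (ht i)]
  have hmap_le : 𝔫.map (Φ : MvPolynomial ι 𝒪 →+* B) ≤ maximalIdeal B := by
    rw [Ideal.map_le_iff_le_comap]
    intro p hp
    rw [Ideal.mem_comap, ← resk_eq_zero_iff h]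
    have : resk h (Φ p) = augP 𝒪 ι p := by rw [← hcomp]; rfl
    exact this.trans hp
  have hb_le : Ideal.span (Set.range t) ⊔ idealO 𝒪 B ≤ 𝔫.map (Φ : MvPolynomial ι 𝒪 →+* B) := by
    refine sup_le ?_ ?_
    · rw [Ideal.span_le]
      rintro _ ⟨i, rfl⟩
      have h1 : (MvPolynomial.X i : MvPolynomial ι 𝒪) ∈ 𝔫 := by
        show augP 𝒪 ι (MvPolynomial.X i) = 0
        simp [augP]
      have h2 := Ideal.mem_map_of_mem (Φ : MvPolynomial ι 𝒪 →+* B) h1
      simpa [hΦ] using h2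
    · rw [Ideal.map_le_iff_le_comap]
      intro c hc
      have h1 : (MvPolynomial.C c : MvPolynomial ι 𝒪) ∈ 𝔫 := by
        show augP 𝒪 ι (MvPolynomial.C c) = 0
        have : augP 𝒪 ι (MvPolynomial.C c) = residue 𝒪 c := by simp [augP]
        rw [this]
        exact (residue_eq_zero_iff c).mpr hc
      have h2 := Ideal.mem_map_of_mem (Φ : MvPolynomial ι 𝒪 →+* B) h1
      simpa [hΦ] using h2
  -- `𝔪 ≤ 𝔠 ⊔ 𝔪 ^ j`
  have hstep : ∀ j : ℕ, maximalIdeal B ≤
      𝔫.map (Φ : MvPolynomial ι 𝒪 →+* B) ⊔ maximalIdeal B ^ (j + 1) := by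
    intro j
    induction j with
    | zero => simp
    | succ j ih =>
      have h2 : maximalIdeal B ^ 2 ≤
          𝔫.map (Φ : MvPolynomial ι 𝒪 →+* B) ⊔ maximalIdeal B ^ (j + 1 + 1) := by
        calc maximalIdeal B ^ 2 = maximalIdeal B * maximalIdeal B := pow_two _
          _ ≤ (𝔫.map (Φ : MvPolynomial ι 𝒪 →+* B) ⊔ maximalIdeal B ^ (j + 1)) * maximalIdeal B :=
              Ideal.mul_mono_left ih
          _ = 𝔫.map (Φ : MvPolynomial ι 𝒪 →+* B) * maximalIdeal B ⊔
                maximalIdeal B ^ (j + 1) * maximalIdeal B := Ideal.sup_mul _ _ _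
          _ ≤ 𝔫.map (Φ : MvPolynomial ι 𝒪 →+* B) ⊔ maximalIdeal B ^ (j + 1 + 1) :=
              sup_le_sup Ideal.mul_le_left (by rw [← pow_succ])
      exact hgen.trans (sup_le (hb_le.trans le_sup_left) h2)
  have hmax : maximalIdeal B = 𝔫.map (Φ : MvPolynomial ι 𝒪 →+* B) := by
    refine le_antisymm ?_ hmap_le
    have := hstep n
    rwa [hnil, sup_bot_eq] at this
  -- surjectivity of `Φ` by the nilpotent Nakayama argument
  letI : Algebra (MvPolynomial ι 𝒪) B := (Φ : MvPolynomial ι 𝒪 →+* B).toAlgebra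
  have halg : ∀ p : MvPolynomial ι 𝒪, algebraMap (MvPolynomial ι 𝒪) B p = Φ p := fun _ => rfl
  set N : Submodule (MvPolynomial ι 𝒪) B := LinearMap.range (Algebra.linearMap (MvPolynomial ι 𝒪) B)
    with hN
  have hsmul : 𝔫 • (⊤ : Submodule (MvPolynomial ι 𝒪) B) =
      (maximalIdeal B).restrictScalars (MvPolynomial ι 𝒪) := by
    rw [Ideal.smul_top_eq_map, hmax]
    rfl
  have H1 : (⊤ : Submodule (MvPolynomial ι 𝒪) B) ≤ N ⊔ 𝔫 • ⊤ := by
    intro b _
    obtain ⟨c, hc⟩ := exists_sub_mem h b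
    have : b = algebraMap 𝒪 B c + (b - algebraMap 𝒪 B c) := by ring
    rw [this]
    refine Submodule.add_mem_sup ⟨MvPolynomial.C c, ?_⟩ ?_
    · rw [Algebra.linearMap_apply, halg]
      simp [hΦ]
    · rw [hsmul]
      exact hc
  have H2 : ∀ j : ℕ, (⊤ : Submodule (MvPolynomial ι 𝒪) B) ≤ N ⊔ 𝔫 ^ j • ⊤ := by
    intro j
    induction j with
    | zero => rw [pow_zero, Ideal.one_eq_top, Submodule.top_smul]; exact le_sup_right
    | succ j ih =>
      have h3 : 𝔫 ^ j • (⊤ : Submodule (MvPolynomial ι 𝒪) B) ≤ N ⊔ 𝔫 ^ (j + 1) • ⊤ := by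
        calc 𝔫 ^ j • (⊤ : Submodule (MvPolynomial ι 𝒪) B) ≤ 𝔫 ^ j • (N ⊔ 𝔫 • ⊤) :=
              Submodule.smul_mono le_rfl H1
          _ = 𝔫 ^ j • N ⊔ 𝔫 ^ j • 𝔫 • ⊤ := Submodule.smul_sup _ _ _
          _ ≤ N ⊔ 𝔫 ^ (j + 1) • ⊤ := by
              refine sup_le_sup Submodule.smul_le_right ?_
              rw [← Submodule.mul_smul, ← pow_succ]
      exact ih.trans (sup_le le_sup_left h3)
  have H3 : 𝔫 ^ (n + 1) • (⊤ : Submodule (MvPolynomial ι 𝒪) B) = ⊥ := by
    rw [Ideal.smul_top_eq_map, Ideal.map_pow]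
    have : Ideal.map (algebraMap (MvPolynomial ι 𝒪) B) 𝔫 = maximalIdeal B := hmax.symm
    rw [this, hnil]
    rfl
  have hsurj : Function.Surjective Φ := by
    intro b
    have := H2 (n + 1) (Submodule.mem_top (x := b))
    rw [H3, sup_bot_eq] at this
    obtain ⟨p, hp⟩ := this
    exact ⟨p, hp⟩
  have hkill : ∀ p ∈ 𝔫 ^ (n + 1), (Φ : MvPolynomial ι 𝒪 →+* B) p = 0 := by
    intro p hp
    have h4 := Ideal.mem_map_of_mem (Φ : MvPolynomial ι 𝒪 →+* B) hp
    rw [Ideal.map_pow, ← hmax, hnil] at h4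
    exact h4
  haveI := finite_quot_augIdeal_pow (𝒪 := 𝒪) ι (n + 1)
  refine Nat.card_le_card_of_surjective (Ideal.Quotient.lift (𝔫 ^ (n + 1)) (Φ : MvPolynomial ι 𝒪 →+* B) hkill) ?_
  exact Ideal.Quotient.lift_surjective_of_surjective _ hkill hsurj

end Bound

section Classes

variable (𝒪 : Type) [CommRing 𝒪] [IsLocalRing 𝒪]

attribute [local instance] algDk

/-- the algebra structure on the residue field of `k[ε]` used in `TangentFinite` -/
@[reducible] def algResDk :
    Algebra (ResidueField 𝒪) (ResidueField (DualNumber (ResidueField 𝒪))) :=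
  ((IsLocalRing.residue (DualNumber (ResidueField 𝒪))).comp
    (algebraMap (ResidueField 𝒪) (DualNumber (ResidueField 𝒪)))).toAlgebra

attribute [local instance] algResDk

theorem isLocalHom_algebraMap_Dk : IsLocalHom (algebraMap 𝒪 (DualNumber (ResidueField 𝒪))) := by
  constructor
  intro c hc
  rw [algebraMap_Dk, TrivSqZeroExt.isUnit_inl_iff] at hc
  by_contra hcu
  have : residue 𝒪 c = 0 := (residue_eq_zero_iff c).mpr hcu
  rw [this] at hc
  exact not_isUnit_zero hc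

theorem artinianTest_Dk [Finite (ResidueField 𝒪)] :
    IsArtinianTestAlgebra 𝒪 (DualNumber (ResidueField 𝒪)) where
  isLocalHom := isLocalHom_algebraMap_Dk 𝒪
  residue_surjective := by
    intro x
    obtain ⟨y, rfl⟩ := residue_surjective x
    obtain ⟨c, hc⟩ := residue_surjective y.fst
    refine ⟨c, ?_⟩
    rw [Function.comp_apply, algebraMap_Dk, hc, ← sub_eq_zero, ← map_sub, residue_eq_zero_iff,
      mem_maximalIdeal, mem_nonunits_iff, TrivSqZeroExt.isUnit_iff_isUnit_fst]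
    simp
  isArtinian := by
    haveI : Finite (DualNumber (ResidueField 𝒪)) :=
      inferInstanceAs (Finite (ResidueField 𝒪 × ResidueField 𝒪))
    infer_instance

variable (ρbar : ResidualGaloisRep (ResidueField 𝒪))
  (𝒟 : ∀ ⦃A : Type⦄ [CommRing A] [IsLocalRing A] [Algebra 𝒪 A], GaloisRepAdic A → Prop)

/-- the set of deformations to the dual numbers -/
def TanSub : Type 1 :=
  {ρ : GaloisRepAdic (DualNumber (ResidueField 𝒪)) //
      𝒟 ρ ∧ ρ.residual.IsEquiv (ρbar.baseChange (ResidueField (DualNumber (ResidueField 𝒪)))) }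

/-- equivalence of deformations to the dual numbers -/
def tanSetoid : Setoid (TanSub 𝒪 ρbar 𝒟) :=
  ⟨fun ρ ρ' => ρ.1.IsEquiv ρ'.1, ⟨fun ρ => ⟨GaloisRepAdic.Equiv.refl ρ.1⟩,
        fun ⟨e⟩ => ⟨e.symm⟩, fun ⟨e⟩ ⟨e'⟩ => ⟨e.trans e'⟩⟩⟩

theorem finite_of_tangentFinite (hfin : GaloisRep.TangentFinite 𝒪 ρbar 𝒟) :
    Finite (Quotient (tanSetoid 𝒪 ρbar 𝒟)) := hfin

theorem residueField_map_algebraMap_Dk :
    haveI := isLocalHom_algebraMap_Dk 𝒪
    ResidueField.map (algebraMap 𝒪 (DualNumber (ResidueField 𝒪))) =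
      (IsLocalRing.residue (DualNumber (ResidueField 𝒪))).comp
        (algebraMap (ResidueField 𝒪) (DualNumber (ResidueField 𝒪))) := by
  haveI := isLocalHom_algebraMap_Dk 𝒪
  ext x
  obtain ⟨c, rfl⟩ := residue_surjective x
  rw [ResidueField.map_residue]
  rfl

variable {𝒪 ρbar 𝒟}
variable [Finite (ResidueField 𝒪)] (b : Module.Basis (Fin 2) (ResidueField 𝒪) ρbar.V)
  (h𝒟 : GaloisRep.IsDeformationCondition 𝒪 𝒟) {n : ℕ} (D : LevelDatum 𝒪 (rbarOf ρbar b) 𝒟 n)

theorem isLocalHom_toDk (φ : D.B →ₐ[𝒪] DualNumber (ResidueField 𝒪)) :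
    IsLocalHom (φ : D.B →+* DualNumber (ResidueField 𝒪)) :=
  isLocalHom_of_isNilpotent (isNilpotent_maximalIdeal_of_artinianTest D.test) _

/-- the deformation to the dual numbers attached to an algebra hom -/
def pushDk (φ : D.B →ₐ[𝒪] DualNumber (ResidueField 𝒪)) :
    GaloisRepAdic (DualNumber (ResidueField 𝒪)) :=
  (ofMat D.r D.cts).baseChangeAlong (φ : D.B →+* DualNumber (ResidueField 𝒪)) (isLocalHom_toDk b D φ)

theorem pushDk_isEquiv (φ : D.B →ₐ[𝒪] DualNumber (ResidueField 𝒪)) :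
    (pushDk b D φ).IsEquiv (ofMat (mapRep (φ : D.B →+* DualNumber (ResidueField 𝒪)) D.r)
      (D.cts.map _ (isLocalHom_toDk b D φ))) :=
  ofMat_baseChangeAlong _ (isLocalHom_toDk b D φ) D.r D.cts

include h𝒟 in
theorem pushDk_type (φ : D.B →ₐ[𝒪] DualNumber (ResidueField 𝒪)) : 𝒟 (pushDk b D φ) :=
  h𝒟.baseChangeAlong D.test (artinianTest_Dk 𝒪) φ (isLocalHom_toDk b D φ) D.type

theorem pushDk_residual (φ : D.B →ₐ[𝒪] DualNumber (ResidueField 𝒪)) :
    (pushDk b D φ).residual.IsEquiv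
      (ρbar.baseChange (ResidueField (DualNumber (ResidueField 𝒪)))) := by
  haveI := isLocalHom_algebraMap_Dk 𝒪
  obtain ⟨e1⟩ := pushDk_isEquiv b D φ
  have hl : IsLift (toTest (artinianTest_Dk 𝒪)) (rbarOf ρbar b)
      (mapRep (φ : D.B →+* DualNumber (ResidueField 𝒪)) D.r) :=
    IsLift.map (toTest D.test) (toTest (artinianTest_Dk 𝒪)) φ (isLocalHom_toDk b D φ) D.lift
  obtain ⟨e2⟩ := residual_isEquiv_of_isLift ρbar b (toTest (artinianTest_Dk 𝒪))
    (D.cts.map _ (isLocalHom_toDk b D φ)) hl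
  have e3 := e1.residual.trans e2
  rw [residueField_map_algebraMap_Dk] at e3
  exact ⟨e3⟩

/-- the class of the deformation attached to an algebra hom -/
def classDk (φ : D.B →ₐ[𝒪] DualNumber (ResidueField 𝒪)) : Quotient (tanSetoid 𝒪 ρbar 𝒟) :=
  Quotient.mk _ ⟨pushDk b D φ, pushDk_type b h𝒟 D φ, pushDk_residual b D φ⟩

theorem classDk_injective (hsurj : Function.Surjective (traceHom (𝒪 := 𝒪) D.r)) :
    Function.Injective (classDk b h𝒟 D) := by
  intro φ ψ hφψ
  have h1 : (pushDk b D φ).IsEquiv (pushDk b D ψ) := Quotient.exact hφψ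
  have h2 := isEquiv_trans (isEquiv_trans (isEquiv_symm (pushDk_isEquiv b D φ)) h1)
    (pushDk_isEquiv b D ψ)
  have h3 : ∀ σ, φ ((D.r σ).trace) = ψ ((D.r σ).trace) := by
    intro σ
    have := trace_eq_of_isEquiv h2 σ
    simpa [Matrix.trace_fin_two] using this
  have h4 : φ.comp (traceHom (𝒪 := 𝒪) D.r) = ψ.comp (traceHom (𝒪 := 𝒪) D.r) := by
    apply MvPolynomial.algHom_ext
    intro σ
    simp [h3 σ]
  ext a : 1
  obtain ⟨p, rfl⟩ := hsurj a
  exact DFunLike.congr_fun h4 p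

end Classes

end Tangent

open Tangent in
open Classical in
theorem card_bound
    (𝒪 : Type) [CommRing 𝒪] [IsDomain 𝒪] [IsDiscreteValuationRing 𝒪]
    [IsAdicComplete (IsLocalRing.maximalIdeal 𝒪) 𝒪] [Finite (IsLocalRing.ResidueField 𝒪)]
    (ρbar : ResidualGaloisRep (IsLocalRing.ResidueField 𝒪))
    (b : Module.Basis (Fin 2) (ResidueField 𝒪) ρbar.V)
    (𝒟 : ∀ ⦃A : Type⦄ [CommRing A] [IsLocalRing A] [Algebra 𝒪 A], GaloisRepAdic A → Prop)
    (h𝒟 : GaloisRep.IsDeformationCondition 𝒪 𝒟)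
    (hfin : GaloisRep.TangentFinite 𝒪 ρbar 𝒟) :
    ∃ C : ℕ → ℕ, ∀ (n : ℕ) (D : LevelDatum 𝒪 (rbarOf ρbar b) 𝒟 n),
      Function.Surjective (traceHom (𝒪 := 𝒪) D.r) → Nat.card D.B ≤ C n := by
  letI := algDk 𝒪
  haveI := finite_of_tangentFinite 𝒪 ρbar 𝒟 hfin
  haveI : Finite (DualNumber (ResidueField 𝒪)) :=
    inferInstanceAs (Finite (ResidueField 𝒪 × ResidueField 𝒪))
  refine ⟨fun n => Nat.card (MvPolynomial (Quotient (tanSetoid 𝒪 ρbar 𝒟) → DualNumber (ResidueField 𝒪)) 𝒪 ⧸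
    augIdeal 𝒪 (Quotient (tanSetoid 𝒪 ρbar 𝒟) → DualNumber (ResidueField 𝒪)) ^ (n + 1)),
    fun n D hsurj => ?_⟩
  have hJ := classDk_injective b h𝒟 D hsurj
  set J := classDk b h𝒟 D with hJdef
  let t : (Quotient (tanSetoid 𝒪 ρbar 𝒟) → DualNumber (ResidueField 𝒪)) → D.B := fun f =>
    if h : ∃ x ∈ maximalIdeal D.B, ∀ φ : D.B →ₐ[𝒪] DualNumber (ResidueField 𝒪), φ x = f (J φ)
    then h.choose else 0
  have ht : ∀ f, t f ∈ maximalIdeal D.B := by
    intro f
    by_cases h : ∃ x ∈ maximalIdeal D.B, ∀ φ : D.B →ₐ[𝒪] DualNumber (ResidueField 𝒪), φ x = f (J φ)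
    · simp only [t, dif_pos h]
      exact h.choose_spec.1
    · simp only [t, dif_neg h]
      exact Ideal.zero_mem _
  refine card_le_of_generators _ (toTest D.test) n D.nil t ht ?_
  intro x hx
  set f : Quotient (tanSetoid 𝒪 ρbar 𝒟) → DualNumber (ResidueField 𝒪) :=
    Function.extend J (fun φ => φ x) 0 with hf
  have hfJ : ∀ φ, f (J φ) = φ x := fun φ => hJ.extend_apply _ _ φ
  have h : ∃ y ∈ maximalIdeal D.B, ∀ φ : D.B →ₐ[𝒪] DualNumber (ResidueField 𝒪), φ y = f (J φ) :=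
    ⟨x, hx, fun φ => (hfJ φ).symm⟩
  have htf : ∀ φ : D.B →ₐ[𝒪] DualNumber (ResidueField 𝒪), φ (t f) = f (J φ) := by
    simp only [t, dif_pos h]
    exact h.choose_spec.2
  have hdiff : x - t f ∈ maximalIdeal D.B ^ 2 ⊔ idealO 𝒪 D.B := by
    apply mem_of_forall_algHom_eq_zero (toTest D.test) _ (Ideal.sub_mem _ hx (ht f))
    intro φ
    rw [map_sub, htf, hfJ, sub_self]
  have hx' : x = t f + (x - t f) := by ring
  rw [hx']
  refine Ideal.add_mem _ (Ideal.mem_sup_left (Ideal.mem_sup_left (Ideal.subset_span ⟨f, rfl⟩))) ?_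
  have hle : maximalIdeal D.B ^ 2 ⊔ idealO 𝒪 D.B ≤
      Ideal.span (Set.range t) ⊔ idealO 𝒪 D.B ⊔ maximalIdeal D.B ^ 2 :=
    sup_le le_sup_right (le_sup_of_le_left le_sup_right)
  exact hle hdiff

end Fermat.Agent.S53lib

end
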