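import Mathlib
import Fermat.Agent.S53lib.Defs
import Fermat.Agent.S53lib.Iface
import Fermat.Agent.S53lib.TestAlg
import Fermat.Agent.S53lib.Rep
import Fermat.Agent.S53lib.Tangent

/-! Level-n universal objects and the tower.  OWNER: helper25 -/

set_option autoImplicit false
set_option linter.unusedSectionVars false
set_option linter.style.haveILetI false
set_option linter.unusedSimpArgs false

noncomputable section

namespace Fermat.Agent.S53lib

open IsLocalRing Matrix GaloisRep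

section Helpers

variable {𝒪 : Type} [CommRing 𝒪] [IsLocalRing 𝒪]
variable {𝒟 : ∀ ⦃A : Type⦄ [CommRing A] [IsLocalRing A] [Algebra 𝒪 A], GaloisRepAdic A → Prop}
variable {A : Type} [CommRing A] [IsLocalRing A] [Algebra 𝒪 A]
variable {B : Type} [CommRing B] [IsLocalRing B] [Algebra 𝒪 B]

theorem type_map (h𝒟 : IsDeformationCondition 𝒪 𝒟) (hA : IsArtinianTestAlgebra 𝒪 A)
    (hB : IsArtinianTestAlgebra 𝒪 B) (φ : A →ₐ[𝒪] B) (hφ : IsLocalHom (φ : A →+* B))
    {r : Gal →* M2 A} {h : IsCts r} (ht : 𝒟 (ofMat r h)) :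
    𝒟 (ofMat (mapRep (φ : A →+* B) r) (h.map _ hφ)) :=
  h𝒟.of_isEquiv hB (ofMat_baseChangeAlong _ hφ r h) (h𝒟.baseChangeAlong hA hB φ hφ ht)

theorem type_conj (h𝒟 : IsDeformationCondition 𝒪 𝒟) (hA : IsArtinianTestAlgebra 𝒪 A)
    (Q Q' : M2 A) (hQ : Q * Q' = 1) {r : Gal →* M2 A} {h : IsCts r} (ht : 𝒟 (ofMat r h)) :
    𝒟 (ofMat (conjRep Q Q' hQ r) (h.conj Q Q' hQ)) :=
  h𝒟.of_isEquiv hA (ofMat_conj Q Q' hQ r h) ht

theorem type_congr {r r' : Gal →* M2 A} (e : r = r') {h : IsCts r} {h' : IsCts r'}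
    (ht : 𝒟 (ofMat r h)) : 𝒟 (ofMat r' h') := by
  subst e; exact ht

theorem trace_conjRep (Q Q' : M2 A) (hQ : Q * Q' = 1) (r : Gal →* M2 A) (σ : Gal) :
    (conjRep Q Q' hQ r σ).trace = (r σ).trace := by
  rw [conjRep_apply, Matrix.trace_mul_comm, ← Matrix.mul_assoc, hQ, Matrix.one_mul]

theorem traceHom_conjRep (Q Q' : M2 A) (hQ : Q * Q' = 1) (r : Gal →* M2 A) :
    traceHom (𝒪 := 𝒪) (conjRep Q Q' hQ r) = traceHom r := by
  apply MvPolynomial.algHom_ext
  intro σ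
  rw [traceHom_X, traceHom_X, trace_conjRep]

theorem trace_mapRep (φ : A →+* B) (r : Gal →* M2 A) (σ : Gal) :
    (mapRep φ r σ).trace = φ (r σ).trace := by
  rw [mapRep_apply, Matrix.trace_fin_two, Matrix.trace_fin_two, map_add]; rfl

theorem traceHom_mapRep (φ : A →ₐ[𝒪] B) (r : Gal →* M2 A) :
    traceHom (𝒪 := 𝒪) (mapRep (φ : A →+* B) r) = φ.comp (traceHom r) := by
  apply MvPolynomial.algHom_ext
  intro σ
  rw [traceHom_X, AlgHom.comp_apply, traceHom_X, trace_mapRep]; rfl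

/-- restrict a representation with entries in a subalgebra -/
def restrictRep (S : Subalgebra 𝒪 A) (r : Gal →* M2 A) (h : ∀ σ i j, r σ i j ∈ S) :
    Gal →* M2 S where
  toFun σ := Matrix.of fun i j => ⟨r σ i j, h σ i j⟩
  map_one' := by
    ext i j
    simp only [Matrix.of_apply, map_one]
    fin_cases i <;> fin_cases j <;> simp
  map_mul' σ τ := by
    ext i j
    simp only [Matrix.of_apply, map_mul, Matrix.mul_apply, Fin.sum_univ_two]
    simp

theorem restrictRep_apply (S : Subalgebra 𝒪 A) (r : Gal →* M2 A) (h : ∀ σ i j, r σ i j ∈ S)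
    (σ : Gal) (i j : Fin 2) : ((restrictRep S r h σ i j : S) : A) = r σ i j := rfl

end Helpers

section Main

variable {𝒪 : Type} [CommRing 𝒪] [IsLocalRing 𝒪] [Finite (ResidueField 𝒪)]
variable {rbar : Gal →* M2 (ResidueField 𝒪)}
variable {𝒟 : ∀ ⦃A : Type⦄ [CommRing A] [IsLocalRing A] [Algebra 𝒪 A], GaloisRepAdic A → Prop}

/-- descent of a level datum to its trace algebra -/
theorem LevelDatum.exists_descend (h𝒟 : IsDeformationCondition 𝒪 𝒟)
    (hspan : Submodule.span (ResidueField 𝒪) (Set.range rbar) = ⊤)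
    {n : ℕ} (D : LevelDatum 𝒪 rbar 𝒟 n) :
    ∃ D' : LevelDatum 𝒪 rbar 𝒟 n, Function.Surjective (traceHom (𝒪 := 𝒪) D'.r) ∧
      D'.ker = D.ker := by
  obtain ⟨Q, Q', hQ, hQ1, hmem⟩ := descent hspan (toTest D.test)
    (isNilpotent_maximalIdeal_of_artinianTest D.test) D.r D.lift
  set S : Subalgebra 𝒪 D.B := (traceHom (𝒪 := 𝒪) D.r).range with hS
  haveI : IsLocalRing S := sub_isLocalRing D.test S
  have hSt : IsArtinianTestAlgebra 𝒪 S := sub_artinianTest D.test S
  have hloc : IsLocalHom ((S.val : S →ₐ[𝒪] D.B) : S →+* D.B) := sub_isLocalHom D.test S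
  set r' := conjRep Q Q' hQ D.r with hr'
  have hr'cts : IsCts r' := D.cts.conj Q Q' hQ
  set r0 := restrictRep S r' hmem with hr0
  have hmap : mapRep ((S.val : S →ₐ[𝒪] D.B) : S →+* D.B) r0 = r' := by
    ext σ i j; rfl
  have hinj : Function.Injective (S.val : S →ₐ[𝒪] D.B) := Subtype.val_injective
  have hr0cts : IsCts r0 := by
    rw [isCts_iff_of_nilpotent (isNilpotent_maximalIdeal_of_artinianTest hSt)]
    obtain ⟨L, hL, h1⟩ := (isCts_iff_of_nilpotent
      (isNilpotent_maximalIdeal_of_artinianTest D.test) r').mp hr'cts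
    refine ⟨L, hL, fun σ hσ => ?_⟩
    have h2 := h1 σ hσ
    ext i j
    have h3 : ((r0 σ i j : S) : D.B) = r' σ i j := rfl
    rw [h3, h2]
    fin_cases i <;> fin_cases j <;> simp
  have hlift' : IsLift (toTest D.test) rbar r' := D.lift.conj (toTest D.test) Q Q' hQ hQ1
  have hlift0 : IsLift (toTest hSt) rbar r0 := by
    intro σ
    rw [← hlift' σ]
    ext i j
    simp only [Matrix.map_apply]
    exact (resk_algHom (toTest hSt) (toTest D.test) S.val hloc (r0 σ i j)).symm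
  have htype0 : 𝒟 (ofMat r0 hr0cts) := by
    apply h𝒟.of_baseChangeAlong_injective hSt D.test S.val hloc hinj
    apply h𝒟.of_isEquiv D.test (isEquiv_symm (ofMat_baseChangeAlong _ hloc r0 hr0cts))
    exact type_congr hmap.symm (type_conj h𝒟 D.test Q Q' hQ D.type)
  have hcomp : (S.val : S →ₐ[𝒪] D.B).comp (traceHom (𝒪 := 𝒪) r0) = traceHom D.r := by
    rw [← traceHom_mapRep, hmap, hr', traceHom_conjRep]
  refine ⟨{ B := S, test := hSt, nil := sub_nil D.test S _ D.nil, r := r0, cts := hr0cts,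
            lift := hlift0, type := htype0 }, ?_, ?_⟩
  · rintro ⟨s, x, rfl⟩
    refine ⟨x, Subtype.ext ?_⟩
    exact congrArg (fun f => f x) hcomp
  · ext x
    simp only [LevelDatum.ker, RingHom.mem_ker]
    rw [← hcomp]
    simp only [AlgHom.comp_apply]
    constructor
    · intro h; rw [h, map_zero]
    · intro h; exact hinj (by rw [h, map_zero])


section Fib

variable {A : Type} [CommRing A] [IsLocalRing A] [Algebra 𝒪 A]
variable {B : Type} [CommRing B] [IsLocalRing B] [Algebra 𝒪 B]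

/-- the glued representation on the fibre product over `k` -/
def fibRep (hA : IsTestAlg 𝒪 A) (hB : IsTestAlg 𝒪 B) (r : Gal →* M2 A) (r' : Gal →* M2 B)
    (hr : IsLift hA rbar r) (hr' : IsLift hB rbar r') : Gal →* M2 (fibProd hA hB) where
  toFun σ := Matrix.of fun i j => ⟨(r σ i j, r' σ i j), by
    rw [mem_fibProd]
    have h1 := congrFun (congrFun (hr σ) i) j
    have h2 := congrFun (congrFun (hr' σ) i) j
    simp only [Matrix.map_apply] at h1 h2
    rw [h1, h2]⟩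
  map_one' := by
    ext i j
    · simp only [Matrix.of_apply, map_one]
      fin_cases i <;> fin_cases j <;> simp
    · simp only [Matrix.of_apply, map_one]
      fin_cases i <;> fin_cases j <;> simp
  map_mul' σ τ := by
    ext i j
    · simp only [Matrix.of_apply, map_mul, Matrix.mul_apply, Fin.sum_univ_two]
      simp
    · simp only [Matrix.of_apply, map_mul, Matrix.mul_apply, Fin.sum_univ_two]
      simp

theorem fibRep_fst (hA : IsTestAlg 𝒪 A) (hB : IsTestAlg 𝒪 B) (r : Gal →* M2 A) (r' : Gal →* M2 B)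
    (hr : IsLift hA rbar r) (hr' : IsLift hB rbar r') [IsLocalRing (fibProd hA hB)] :
    mapRep (fibFst hA hB : fibProd hA hB →+* A) (fibRep hA hB r r' hr hr') = r := by
  ext σ i j; rfl

theorem fibRep_snd (hA : IsTestAlg 𝒪 A) (hB : IsTestAlg 𝒪 B) (r : Gal →* M2 A) (r' : Gal →* M2 B)
    (hr : IsLift hA rbar r) (hr' : IsLift hB rbar r') [IsLocalRing (fibProd hA hB)] :
    mapRep (fibSnd hA hB : fibProd hA hB →+* B) (fibRep hA hB r r' hr hr') = r' := by
  ext σ i j; rfl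

end Fib

/-- the infimum of two kernels is a kernel -/
theorem LevelDatum.exists_inf (h𝒟 : IsDeformationCondition 𝒪 𝒟)
    {n : ℕ} (D D' : LevelDatum 𝒪 rbar 𝒟 n) :
    ∃ D'' : LevelDatum 𝒪 rbar 𝒟 n, D''.ker = D.ker ⊓ D'.ker := by
  set hA := toTest D.test
  set hB := toTest D'.test
  haveI : IsLocalRing (fibProd hA hB) := fibProd_isLocalRing hA hB
  have hP : IsArtinianTestAlgebra 𝒪 (fibProd hA hB) := fibProd_artinianTest D.test D'.test
  have hl1 := fibFst_isLocalHom hA hB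
  have hl2 := fibSnd_isLocalHom hA hB
  set r := fibRep hA hB D.r D'.r D.lift D'.lift with hr
  have h1 : mapRep (fibFst hA hB : fibProd hA hB →+* D.B) r = D.r := fibRep_fst ..
  have h2 : mapRep (fibSnd hA hB : fibProd hA hB →+* D'.B) r = D'.r := fibRep_snd ..
  have hcts : IsCts r := by
    rw [isCts_iff_of_nilpotent (isNilpotent_maximalIdeal_of_artinianTest hP)]
    obtain ⟨L1, hL1, g1⟩ := (isCts_iff_of_nilpotent
      (isNilpotent_maximalIdeal_of_artinianTest D.test) D.r).mp D.cts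
    obtain ⟨L2, hL2, g2⟩ := (isCts_iff_of_nilpotent
      (isNilpotent_maximalIdeal_of_artinianTest D'.test) D'.r).mp D'.cts
    refine ⟨L1 ⊔ L2, IntermediateField.finiteDimensional_sup L1 L2, fun σ hσ => ?_⟩
    have e1 := g1 σ fun x hx => hσ x ((le_sup_left : L1 ≤ L1 ⊔ L2) hx)
    have e2 := g2 σ fun x hx => hσ x ((le_sup_right : L2 ≤ L1 ⊔ L2) hx)
    ext i j
    · have : ((r σ i j : fibProd hA hB) : D.B × D'.B).1 = D.r σ i j := rfl
      rw [this, e1]
      fin_cases i <;> fin_cases j <;> simp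
    · have : ((r σ i j : fibProd hA hB) : D.B × D'.B).2 = D'.r σ i j := rfl
      rw [this, e2]
      fin_cases i <;> fin_cases j <;> simp
  have hlift : IsLift (toTest hP) rbar r := by
    intro σ
    rw [← D.lift σ]
    ext i j
    simp only [Matrix.map_apply]
    exact (resk_algHom (toTest hP) hA (fibFst hA hB) hl1 (r σ i j)).symm
  have htype : 𝒟 (ofMat r hcts) := by
    refine h𝒟.of_fibreProduct D.test D'.test artinianTest_residueField hP (resk hA) (resk hB)
      (fibFst hA hB) (fibSnd hA hB) hl1 hl2 ?_ ?_ ?_ ?_ ?_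
    · ext x; exact x.2
    · intro x y hxy
      exact Subtype.ext hxy
    · intro a b hab
      exact ⟨⟨(a, b), hab⟩, rfl, rfl⟩
    · apply h𝒟.of_isEquiv D.test (isEquiv_symm (ofMat_baseChangeAlong _ hl1 r hcts))
      exact type_congr h1.symm D.type
    · apply h𝒟.of_isEquiv D'.test (isEquiv_symm (ofMat_baseChangeAlong _ hl2 r hcts))
      exact type_congr h2.symm D'.type
  have hc1 : (fibFst hA hB).comp (traceHom (𝒪 := 𝒪) r) = traceHom D.r := by
    rw [← traceHom_mapRep, h1]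
  have hc2 : (fibSnd hA hB).comp (traceHom (𝒪 := 𝒪) r) = traceHom D'.r := by
    rw [← traceHom_mapRep, h2]
  refine ⟨{ B := fibProd hA hB, test := hP, nil := fibProd_nil hA hB _ D.nil D'.nil, r := r,
            cts := hcts, lift := hlift, type := htype }, ?_⟩
  ext x
  simp only [LevelDatum.ker, RingHom.mem_ker, Ideal.mem_inf]
  rw [← hc1, ← hc2]
  simp only [AlgHom.comp_apply]
  constructor
  · intro h; rw [h, map_zero, map_zero]; exact ⟨rfl, rfl⟩
  · rintro ⟨e1, e2⟩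
    exact Subtype.ext (Prod.ext e1 e2)

/-- existence of a level datum with minimal kernel, given a cardinality bound -/
theorem LevelDatum.exists_min (h𝒟 : IsDeformationCondition 𝒪 𝒟)
    (hspan : Submodule.span (ResidueField 𝒪) (Set.range rbar) = ⊤)
    {n : ℕ} (D₀ : LevelDatum 𝒪 rbar 𝒟 n) (C : ℕ)
    (hC : ∀ D : LevelDatum 𝒪 rbar 𝒟 n, Function.Surjective (traceHom (𝒪 := 𝒪) D.r) →
      Nat.card D.B ≤ C) :
    ∃ D : LevelDatum 𝒪 rbar 𝒟 n, Function.Surjective (traceHom (𝒪 := 𝒪) D.r) ∧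
      ∀ D' : LevelDatum 𝒪 rbar 𝒟 n, D.ker ≤ D'.ker := by
  -- cardinalities of the quotients
  have hfin : ∀ D : LevelDatum 𝒪 rbar 𝒟 n, Finite (MvPolynomial Gal 𝒪 ⧸ D.ker) ∧
      Nat.card (MvPolynomial Gal 𝒪 ⧸ D.ker) ≤ C := by
    intro D
    obtain ⟨D', hs, hk⟩ := D.exists_descend h𝒟 hspan
    rw [← hk]
    have e := (Ideal.quotientKerAlgEquivOfSurjective hs).toEquiv
    haveI := finite_of_artinianTest D'.test
    exact ⟨Finite.of_equiv _ e.symm, (Nat.card_congr e).trans_le (hC D' hs)⟩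
  set T : Set ℕ := {m | ∃ D : LevelDatum 𝒪 rbar 𝒟 n, m = Nat.card (MvPolynomial Gal 𝒪 ⧸ D.ker)}
  have hT1 : T.Nonempty := ⟨_, D₀, rfl⟩
  have hT2 : BddAbove T := ⟨C, by rintro _ ⟨D, rfl⟩; exact (hfin D).2⟩
  obtain ⟨D, hD⟩ := Nat.sSup_mem hT1 hT2
  have hmax : ∀ D' : LevelDatum 𝒪 rbar 𝒟 n,
      Nat.card (MvPolynomial Gal 𝒪 ⧸ D'.ker) ≤ Nat.card (MvPolynomial Gal 𝒪 ⧸ D.ker) := by
    intro D'
    rw [← hD]
    exact le_csSup hT2 ⟨D', rfl⟩
  have hmin : ∀ D' : LevelDatum 𝒪 rbar 𝒟 n, D.ker ≤ D'.ker := by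
    intro D'
    obtain ⟨D'', hk⟩ := D.exists_inf h𝒟 D'
    have hle : D''.ker ≤ D.ker := hk ▸ inf_le_left
    haveI := (hfin D'').1
    have hbij := (Ideal.Quotient.factor_surjective hle).bijective_of_nat_card_le (hmax D'')
    intro x hx
    have h0 : Ideal.Quotient.factor hle (Ideal.Quotient.mk _ x) = Ideal.Quotient.factor hle 0 := by
      rw [Ideal.Quotient.factor_mk, map_zero, Ideal.Quotient.eq_zero_iff_mem]
      exact hx
    have h1 := hbij.1 h0
    rw [Ideal.Quotient.eq_zero_iff_mem, hk] at h1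
    exact h1.2
  obtain ⟨D', hs, hk⟩ := D.exists_descend h𝒟 hspan
  exact ⟨D', hs, fun D'' => hk ▸ hmin D''⟩

/-- a level datum is also a datum of the next level -/
def LevelDatum.succ {n : ℕ} (D : LevelDatum 𝒪 rbar 𝒟 n) : LevelDatum 𝒪 rbar 𝒟 (n + 1) :=
  { B := D.B, test := D.test, nil := by rw [pow_succ, D.nil, Ideal.bot_mul], r := D.r,
    cts := D.cts, lift := D.lift, type := D.type }

theorem LevelDatum.succ_ker {n : ℕ} (D : LevelDatum 𝒪 rbar 𝒟 n) : D.succ.ker = D.ker := rfl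

/-- conjugate a level datum by a matrix congruent to `1` -/
def LevelDatum.conj (h𝒟 : IsDeformationCondition 𝒪 𝒟) {n : ℕ} (D : LevelDatum 𝒪 rbar 𝒟 n)
    (Q Q' : M2 D.B) (hQ : Q * Q' = 1) (hQ1 : EntriesIn (maximalIdeal D.B) (Q - 1)) :
    LevelDatum 𝒪 rbar 𝒟 n :=
  { B := D.B, test := D.test, nil := D.nil, r := conjRep Q Q' hQ D.r,
    cts := D.cts.conj Q Q' hQ, lift := D.lift.conj (toTest D.test) Q Q' hQ hQ1,
    type := type_conj h𝒟 D.test Q Q' hQ D.type }

/-- the truncation of a level `n+1` datum to level `n` -/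
theorem LevelDatum.exists_trunc (h𝒟 : IsDeformationCondition 𝒪 𝒟) {n : ℕ}
    (D : LevelDatum 𝒪 rbar 𝒟 (n + 1)) :
    ∃ D' : LevelDatum 𝒪 rbar 𝒟 n,
      D'.ker = (maximalIdeal D.B ^ (n + 1)).comap (traceHom (𝒪 := 𝒪) D.r) := by
  have hne : maximalIdeal D.B ^ (n + 1) ≠ ⊤ := by
    intro h
    have : maximalIdeal D.B ^ (n + 1) ≤ maximalIdeal D.B := Ideal.pow_le_self (by omega)
    rw [h, top_le_iff] at this
    exact Ideal.IsPrime.ne_top inferInstance this
  haveI : IsLocalRing (D.B ⧸ maximalIdeal D.B ^ (n + 1)) := isLocalRing_quotient _ hne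
  set q : D.B →ₐ[𝒪] D.B ⧸ maximalIdeal D.B ^ (n + 1) := Ideal.Quotient.mkₐ 𝒪 _ with hq
  have hqs : Function.Surjective q := Ideal.Quotient.mkₐ_surjective 𝒪 _
  have hT := artinianTest_of_surjective D.test q hqs
  have hloc : IsLocalHom (q : D.B →+* D.B ⧸ maximalIdeal D.B ^ (n + 1)) :=
    isLocalHom_of_surjective _ hqs
  refine ⟨{ B := D.B ⧸ maximalIdeal D.B ^ (n + 1), test := hT,
            nil := maximalIdeal_quotient_pow n,
            r := mapRep (q : D.B →+* D.B ⧸ maximalIdeal D.B ^ (n + 1)) D.r,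
            cts := D.cts.map _ hloc,
            lift := D.lift.map (toTest D.test) (toTest hT) q hloc,
            type := type_map h𝒟 D.test hT q hloc D.type }, ?_⟩
  ext x
  simp only [LevelDatum.ker, RingHom.mem_ker, Ideal.mem_comap]
  rw [traceHom_mapRep, AlgHom.comp_apply]
  exact Ideal.Quotient.eq_zero_iff_mem

theorem exists_inv_of_entriesIn {A : Type} [CommRing A] [IsLocalRing A] (Q : M2 A)
    (hQ1 : EntriesIn (maximalIdeal A) (Q - 1)) : ∃ Q' : M2 A, Q * Q' = 1 := by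
  have hdet : IsUnit Q.det := by
    have : Q.det = 1 + (Q.det - 1) := by ring
    rw [this]
    apply isUnit_one_add_of_mem_maximalIdeal
    rw [Matrix.det_fin_two]
    have a1 : Q 0 0 - 1 ∈ maximalIdeal A := by simpa using hQ1 0 0
    have a2 : Q 1 1 - 1 ∈ maximalIdeal A := by simpa using hQ1 1 1
    have a3 : Q 0 1 ∈ maximalIdeal A := by simpa using hQ1 0 1
    have : Q 0 0 * Q 1 1 - Q 0 1 * Q 1 0 - 1 =
        (Q 0 0 - 1) * Q 1 1 + (Q 1 1 - 1) - Q 0 1 * Q 1 0 := by ring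
    rw [this]
    exact Ideal.sub_mem _ (Ideal.add_mem _ (Ideal.mul_mem_right _ _ a1) a2)
      (Ideal.mul_mem_right _ _ a3)
  exact ⟨Q⁻¹, Matrix.mul_nonsing_inv Q hdet⟩

/-- being universal at level `n` -/
def LevelDatum.IsUniv {n : ℕ} (D : LevelDatum 𝒪 rbar 𝒟 n) : Prop :=
  Function.Surjective (traceHom (𝒪 := 𝒪) D.r) ∧ ∀ D' : LevelDatum 𝒪 rbar 𝒟 n, D.ker ≤ D'.ker

theorem LevelDatum.exists_next (h𝒟 : IsDeformationCondition 𝒪 𝒟)
    (hspan : Submodule.span (ResidueField 𝒪) (Set.range rbar) = ⊤)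
    {n : ℕ} (D : LevelDatum 𝒪 rbar 𝒟 n) (hD : D.IsUniv)
    (U : LevelDatum 𝒪 rbar 𝒟 (n + 1)) (hU : U.IsUniv) :
    ∃ (D' : LevelDatum 𝒪 rbar 𝒟 (n + 1)) (_ : D'.IsUniv) (π : D'.B →ₐ[𝒪] D.B),
      Function.Surjective π ∧ mapRep (π : D'.B →+* D.B) D'.r = D.r ∧
      RingHom.ker (π : D'.B →+* D.B) = maximalIdeal D'.B ^ (n + 1) := by
  have hle : U.ker ≤ D.ker := hU.2 D.succ
  set π : U.B →ₐ[𝒪] D.B := AlgHom.liftOfSurjective (traceHom U.r) hU.1 (traceHom D.r) hle with hπ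
  have hπc : ∀ x, π (traceHom U.r x) = traceHom D.r x :=
    AlgHom.liftOfSurjective_apply _ _ _ _
  have hπs : Function.Surjective π := AlgHom.liftOfSurjective_surjective _ _ _ _ hD.1
  have hloc : IsLocalHom (π : U.B →+* D.B) := isLocalHom_of_surjective _ hπs
  set r1 := mapRep (π : U.B →+* D.B) U.r with hr1
  have hl1 : IsLift (toTest D.test) rbar r1 := U.lift.map (toTest U.test) (toTest D.test) π hloc
  have htr : ∀ σ, (r1 σ).trace = (D.r σ).trace := by
    intro σ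
    rw [hr1, trace_mapRep, ← traceHom_X (𝒪 := 𝒪) U.r σ, ← traceHom_X (𝒪 := 𝒪) D.r σ]
    exact hπc _
  obtain ⟨Q, Q', hQ, hQ1, hconj⟩ := conj_of_trace_eq hspan (toTest D.test) r1 D.r hl1 D.lift htr
  -- lift `Q`
  choose q hq using fun i j => hπs (Q i j)
  set Qt : M2 U.B := Matrix.of q with hQt
  have hQtmap : Qt.map π = Q := by ext i j; exact hq i j
  have hQt1 : EntriesIn (maximalIdeal U.B) (Qt - 1) := by
    intro i j
    by_contra hcon
    have hu : IsUnit ((Qt - 1) i j) := by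
      by_contra h; exact hcon ((mem_maximalIdeal _).mpr h)
    have hu2 : IsUnit ((π : U.B →+* D.B) ((Qt - 1) i j)) := hu.map _
    have : (π : U.B →+* D.B) ((Qt - 1) i j) = (Q - 1) i j := by
      rw [← hQtmap]
      fin_cases i <;> fin_cases j <;> simp
    rw [this] at hu2
    exact (mem_maximalIdeal _).mp (hQ1 i j) hu2
  obtain ⟨Qt', hQt'⟩ := exists_inv_of_entriesIn Qt hQt1
  have hQt'map : Qt'.map π = Q' := by
    have h1 : Q * Qt'.map π = 1 := by
      rw [← hQtmap]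
      have := congrArg (fun M => (π : U.B →+* D.B).mapMatrix M) hQt'
      simp only [map_mul, map_one] at this
      exact this
    calc Qt'.map π = (Q' * Q) * Qt'.map π := by rw [mul_eq_one_comm.mp hQ, Matrix.one_mul]
      _ = Q' := by rw [Matrix.mul_assoc, h1, Matrix.mul_one]
  set D' := U.conj h𝒟 Qt Qt' hQt' hQt1 with hD'
  have hker : D'.ker = U.ker := by
    show RingHom.ker (traceHom (𝒪 := 𝒪) (conjRep Qt Qt' hQt' U.r)) = _
    rw [traceHom_conjRep]; rfl
  have huniv : D'.IsUniv := by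
    refine ⟨?_, fun D'' => hker ▸ hU.2 D''⟩
    show Function.Surjective (traceHom (𝒪 := 𝒪) (conjRep Qt Qt' hQt' U.r))
    rw [traceHom_conjRep]; exact hU.1
  refine ⟨D', huniv, π, hπs, ?_, ?_⟩
  · rw [hconj]
    ext σ i j
    show ((Qt' * U.r σ * Qt).map π) i j = (Q' * r1 σ * Q) i j
    have : (Qt' * U.r σ * Qt).map π = Qt'.map π * (U.r σ).map π * Qt.map π := by
      have e1 := map_mul (π : U.B →+* D.B).mapMatrix (Qt' * U.r σ) Qt
      have e2 := map_mul (π : U.B →+* D.B).mapMatrix Qt' (U.r σ)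
      rw [e2] at e1
      exact e1
    rw [this, hQtmap, hQt'map]; rfl
  · show RingHom.ker (π : U.B →+* D.B) = maximalIdeal U.B ^ (n + 1)
    apply le_antisymm
    · intro x hx
      obtain ⟨y, rfl⟩ := hU.1 x
      obtain ⟨T, hT⟩ := U.exists_trunc h𝒟
      have h1 : y ∈ D.ker := by
        rw [RingHom.mem_ker] at hx
        show traceHom D.r y = 0
        rw [← hπc]; exact hx
      have h2 := hD.2 T h1
      rw [hT] at h2
      exact h2
    · have h1 : (maximalIdeal U.B).map (π : U.B →+* D.B) = maximalIdeal D.B :=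
        map_maximalIdeal_of_surjective _ hπs
      rw [← Ideal.map_eq_bot_iff_le_ker, Ideal.map_pow, h1, D.nil]

end Main

/-- The tower of level-`n` universal deformations: this is the input of the limit construction. -/
structure Tower (𝒪 : Type) [CommRing 𝒪] [IsLocalRing 𝒪]
    (rbar : Gal →* M2 (ResidueField 𝒪))
    (𝒟 : ∀ ⦃A : Type⦄ [CommRing A] [IsLocalRing A] [Algebra 𝒪 A], GaloisRepAdic A → Prop) :
    Type 1 where
  D : ∀ n, LevelDatum 𝒪 rbar 𝒟 n
  surj : ∀ n, Function.Surjective (traceHom (𝒪 := 𝒪) (D n).r)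
  min : ∀ n (D' : LevelDatum 𝒪 rbar 𝒟 n), (D n).ker ≤ D'.ker
  π : ∀ n, (D (n + 1)).B →ₐ[𝒪] (D n).B
  π_surj : ∀ n, Function.Surjective (π n)
  π_r : ∀ n, mapRep (π n : (D (n + 1)).B →+* (D n).B) (D (n + 1)).r = (D n).r
  ker_π : ∀ n, RingHom.ker (π n : (D (n + 1)).B →+* (D n).B) = maximalIdeal (D (n + 1)).B ^ (n + 1)

theorem exists_base
    (𝒪 : Type) [CommRing 𝒪] [IsLocalRing 𝒪]
    (ρbar : ResidualGaloisRep (IsLocalRing.ResidueField 𝒪))
    (b : Module.Basis (Fin 2) (ResidueField 𝒪) ρbar.V)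
    (𝒟 : ∀ ⦃A : Type⦄ [CommRing A] [IsLocalRing A] [Algebra 𝒪 A], GaloisRepAdic A → Prop)
    (h𝒟 : GaloisRep.IsDeformationCondition 𝒪 𝒟)
    (hbar : 𝒟 (GaloisRepAdic.ofResidualGaloisRep ρbar)) (n : ℕ) :
    Nonempty (LevelDatum 𝒪 (rbarOf ρbar b) 𝒟 n) := by
  obtain ⟨r, h, he, hr⟩ := exists_ofMat_of_basis (GaloisRepAdic.ofResidualGaloisRep ρbar) b
  have hrr : r = rbarOf ρbar b := by
    ext σ : 1
    rw [hr]; rfl
  subst hrr
  refine ⟨{ B := ResidueField 𝒪, test := artinianTest_residueField, nil := ?_,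
            r := rbarOf ρbar b, cts := h, lift := ?_,
            type := h𝒟.of_isEquiv artinianTest_residueField he hbar }⟩
  · rw [IsLocalRing.maximalIdeal_eq_bot, pow_succ, Ideal.mul_bot]
  · intro σ
    ext i j
    simp only [Matrix.map_apply]
    exact resk_residueField _ _

theorem exists_tower
    (𝒪 : Type) [CommRing 𝒪] [IsDomain 𝒪] [IsDiscreteValuationRing 𝒪]
    [IsAdicComplete (IsLocalRing.maximalIdeal 𝒪) 𝒪] [Finite (IsLocalRing.ResidueField 𝒪)]
    (ρbar : ResidualGaloisRep (IsLocalRing.ResidueField 𝒪))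
    (b : Module.Basis (Fin 2) (ResidueField 𝒪) ρbar.V)
    (𝒟 : ∀ ⦃A : Type⦄ [CommRing A] [IsLocalRing A] [Algebra 𝒪 A], GaloisRepAdic A → Prop)
    (habs : ρbar.IsAbsolutelyIrreducible)
    (h𝒟 : GaloisRep.IsDeformationCondition 𝒪 𝒟)
    (hbar : 𝒟 (GaloisRepAdic.ofResidualGaloisRep ρbar))
    (hfin : GaloisRep.TangentFinite 𝒪 ρbar 𝒟) :
    Nonempty (Tower 𝒪 (rbarOf ρbar b) 𝒟) := by
  have hspan := span_rbarOf_eq_top ρbar habs b
  obtain ⟨C, hC⟩ := card_bound 𝒪 ρbar b 𝒟 h𝒟 hfin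
  have huniv : ∀ n, ∃ U : LevelDatum 𝒪 (rbarOf ρbar b) 𝒟 n, U.IsUniv := by
    intro n
    obtain ⟨D₀⟩ := exists_base 𝒪 ρbar b 𝒟 h𝒟 hbar n
    exact LevelDatum.exists_min h𝒟 hspan D₀ (C n) (hC n)
  choose U hU using huniv
  let P : ℕ → Type 1 := fun n => {D : LevelDatum 𝒪 (rbarOf ρbar b) 𝒟 n // D.IsUniv}
  let next : ∀ n, P n → P (n + 1) := fun n D =>
    ⟨(LevelDatum.exists_next h𝒟 hspan D.1 D.2 (U (n + 1)) (hU (n + 1))).choose,
      (LevelDatum.exists_next h𝒟 hspan D.1 D.2 (U (n + 1)) (hU (n + 1))).choose_spec.choose⟩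
  let seq : ∀ n, P n := fun n => Nat.rec (motive := P) ⟨U 0, hU 0⟩ next n
  have hspec : ∀ n, ∃ π : (seq (n + 1)).1.B →ₐ[𝒪] (seq n).1.B,
      Function.Surjective π ∧ mapRep (π : (seq (n + 1)).1.B →+* (seq n).1.B) (seq (n + 1)).1.r
        = (seq n).1.r ∧
      RingHom.ker (π : (seq (n + 1)).1.B →+* (seq n).1.B)
        = maximalIdeal (seq (n + 1)).1.B ^ (n + 1) := fun n =>
    (LevelDatum.exists_next h𝒟 hspan (seq n).1 (seq n).2 (U (n + 1))
      (hU (n + 1))).choose_spec.choose_spec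
  choose π h1 h2 h3 using hspec
  exact ⟨{ D := fun n => (seq n).1, surj := fun n => (seq n).2.1, min := fun n => (seq n).2.2,
           π := π, π_surj := h1, π_r := h2, ker_π := h3 }⟩

end Fermat.Agent.S53lib
end
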