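import Mathlib

/-! The abstract limit lemma.  OWNER: helper10 -/

set_option autoImplicit false

namespace Fermat.Agent.S53lib

variable {Λ : Type*} [CommRing Λ]

theorem exists_limit_of_succ (𝔫 : Ideal Λ) [IsPrecomplete 𝔫 Λ] (f : ℕ → Λ) (a : ℕ)
    (hf : ∀ i, f i - f (i + 1) ∈ 𝔫 ^ (i + a)) : ∃ y, ∀ i, f i - y ∈ 𝔫 ^ (i + a) := by
  have h1 : ∀ m n, m ≤ n → f m - f n ∈ 𝔫 ^ (m + a) := by
    intro m n hmn
    induction n, hmn using Nat.le_induction with
    | base => simp
    | succ n hmn ih =>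
      have h2 : f m - f (n + 1) = (f m - f n) + (f n - f (n + 1)) := by ring
      rw [h2]
      exact Ideal.add_mem _ ih (Ideal.pow_le_pow_right (by omega) (hf n))
  obtain ⟨L, hL⟩ := IsPrecomplete.prec ‹IsPrecomplete 𝔫 Λ› (f := f) (by
    intro m n hmn
    rw [SModEq.sub_mem, smul_eq_mul, Ideal.mul_top]
    exact Ideal.pow_le_pow_right (by omega) (h1 m n hmn))
  refine ⟨L, fun i => ?_⟩
  have h3 := hL (i + a)
  rw [SModEq.sub_mem, smul_eq_mul, Ideal.mul_top] at h3
  have h4 : f i - L = (f i - f (i + a)) + (f (i + a) - L) := by ring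
  rw [h4]
  exact Ideal.add_mem _ (h1 i (i + a) (by omega)) h3

/-- abstract limit lemma -/
theorem lim_lemma' (𝔫 : Ideal Λ) [IsAdicComplete 𝔫 Λ]
    (K : ℕ → Ideal Λ) (h1 : ∀ j, 𝔫 ^ (j + 1) ≤ K j) (h2 : ∀ j, K (j + 1) ≤ K j)
    (h3 : ∀ j, K j ≤ K (j + 1) ⊔ 𝔫 ^ (j + 1)) :
    (∀ x : ℕ → Λ, (∀ j, x (j + 1) - x j ∈ K j) → ∃ y, ∀ j, y - x j ∈ K j) ∧
    (∀ j, K j ≤ (⨅ i, K i) ⊔ 𝔫 ^ (j + 1)) := by
  have hstep : ∀ i, ∀ z, z ∈ K i → ∃ z', z' ∈ K (i + 1) ∧ z - z' ∈ 𝔫 ^ (i + 1) := by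
    intro i z hz
    obtain ⟨z', hz', ν, hν, rfl⟩ := Submodule.mem_sup.1 (h3 i hz)
    exact ⟨z', hz', by simpa using hν⟩
  choose! g hg1 hg2 using hstep
  have hmono : ∀ i j, i ≤ j → K j ≤ K i := by
    intro i j hij
    induction j, hij using Nat.le_induction with
    | base => exact le_rfl
    | succ j _ ih => exact (h2 j).trans ih
  constructor
  · intro x hx
    -- error terms `d j = x' j - x j ∈ K j`
    let d : ℕ → Λ := fun j => Nat.rec (motive := fun _ => Λ) 0
      (fun j dj => - g j (x (j + 1) - x j - dj)) j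
    have hd0 : d 0 = 0 := rfl
    have hds : ∀ j, d (j + 1) = - g j (x (j + 1) - x j - d j) := fun _ => rfl
    have hdK : ∀ j, d j ∈ K j := by
      intro j
      induction j with
      | zero => rw [hd0]; exact Ideal.zero_mem _
      | succ j ih =>
        rw [hds]
        exact Ideal.neg_mem_iff _ |>.2 (hg1 j _ (Ideal.sub_mem _ (hx j) ih))
    obtain ⟨y, hy⟩ := exists_limit_of_succ 𝔫 (fun j => x j + d j) 1 (by
      intro j
      have h4 := hg2 j _ (Ideal.sub_mem _ (hx j) (hdK j))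
      have h5 : x j + d j - (x (j + 1) + d (j + 1)) =
          -(x (j + 1) - x j - d j - g j (x (j + 1) - x j - d j)) := by
        rw [hds]; ring
      show x j + d j - (x (j + 1) + d (j + 1)) ∈ 𝔫 ^ (j + 1)
      rw [h5]
      exact Ideal.neg_mem_iff _ |>.2 h4)
    refine ⟨y, fun j => ?_⟩
    have h6 : y - x j = -(x j + d j - y) + d j := by ring
    rw [h6]
    exact Ideal.add_mem _ (Ideal.neg_mem_iff _ |>.2 (h1 j (hy j))) (hdK j)
  · intro j κ hκ
    let c : ℕ → Λ := fun i => Nat.rec (motive := fun _ => Λ) κ (fun i ci => g (j + i) ci) i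
    have hc0 : c 0 = κ := rfl
    have hcs : ∀ i, c (i + 1) = g (j + i) (c i) := fun _ => rfl
    have hcK : ∀ i, c i ∈ K (j + i) := by
      intro i
      induction i with
      | zero => exact hκ
      | succ i ih => rw [hcs]; exact hg1 (j + i) _ ih
    obtain ⟨y, hy⟩ := exists_limit_of_succ 𝔫 c (j + 1) (by
      intro i
      rw [hcs]
      have := hg2 (j + i) _ (hcK i)
      have h7 : i + (j + 1) = j + i + 1 := by omega
      rw [h7]; exact this)
    have hyK : ∀ i, y ∈ K (j + i) := by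
      intro i
      have h8 : y = c i - (c i - y) := by ring
      rw [h8]
      refine Ideal.sub_mem _ (hcK i) (h1 (j + i) ?_)
      have h7 : i + (j + 1) = j + i + 1 := by omega
      rw [← h7]; exact hy i
    have h9 : κ = y + (κ - y) := by ring
    rw [h9]
    refine Submodule.add_mem_sup ?_ ?_
    · rw [Submodule.mem_iInf]
      intro i
      exact hmono i (j + i) (by omega) (hyK i)
    · have := hy 0
      rwa [hc0, Nat.zero_add] at this

end Fermat.Agent.S53lib
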