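import Mathlib
import Fermat.Agent.S53lib.PSComplete

/-! Evaluation of power series in rings with a nilpotent ideal.  OWNER: helper11 -/

set_option autoImplicit false
set_option linter.unusedSectionVars false
set_option linter.style.haveILetI false
set_option linter.unusedSimpArgs false

noncomputable section

namespace Fermat.Agent.S53lib

open IsLocalRing

section Eval

variable {𝒪 : Type} [CommRing 𝒪] {d : ℕ} {B : Type} [CommRing B] [Algebra 𝒪 B]

theorem aeval_mem_pow_of_mem_idealOfVars_pow (a : Fin d → B) (I : Ideal B) (ha : ∀ i, a i ∈ I)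
    (N : ℕ) (p : MvPolynomial (Fin d) 𝒪) (hp : p ∈ MvPolynomial.idealOfVars (Fin d) 𝒪 ^ N) :
    MvPolynomial.aeval a p ∈ I ^ N := by
  have h1 : (MvPolynomial.idealOfVars (Fin d) 𝒪).map
      (MvPolynomial.aeval a : MvPolynomial (Fin d) 𝒪 →ₐ[𝒪] B).toRingHom ≤ I := by
    rw [Ideal.map_span, Ideal.span_le]
    rintro _ ⟨_, ⟨i, rfl⟩, rfl⟩
    simpa using ha i
  have h2 := Ideal.mem_map_of_mem
    (MvPolynomial.aeval a : MvPolynomial (Fin d) 𝒪 →ₐ[𝒪] B).toRingHom hp
  rw [Ideal.map_pow] at h2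
  exact Ideal.pow_right_mono h1 N h2

/-- evaluation of power series at elements of an ideal `I` with `I ^ N = ⊥` -/
def evPS (a : Fin d → B) (N : ℕ)
    (h : ∀ p ∈ MvPolynomial.idealOfVars (Fin d) 𝒪 ^ N, MvPolynomial.aeval a p = 0) :
    MvPowerSeries (Fin d) 𝒪 →ₐ[𝒪] B :=
  (Ideal.Quotient.liftₐ _ (MvPolynomial.aeval a) h).comp
    ((MvPowerSeries.truncTotalAlgHom (Fin d) 𝒪 N).restrictScalars 𝒪)

theorem evPS_apply (a : Fin d → B) (N : ℕ)
    (h : ∀ p ∈ MvPolynomial.idealOfVars (Fin d) 𝒪 ^ N, MvPolynomial.aeval a p = 0)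
    (f : MvPowerSeries (Fin d) 𝒪) :
    evPS a N h f = MvPolynomial.aeval a (MvPowerSeries.truncTotal N f) := rfl

theorem evPS_coe (a : Fin d → B) (N : ℕ)
    (h : ∀ p ∈ MvPolynomial.idealOfVars (Fin d) 𝒪 ^ N, MvPolynomial.aeval a p = 0)
    (p : MvPolynomial (Fin d) 𝒪) :
    evPS a N h (p : MvPowerSeries (Fin d) 𝒪) = MvPolynomial.aeval a p := by
  rw [evPS_apply, ← sub_eq_zero, ← map_sub]
  apply h
  rw [MvPolynomial.mem_pow_idealOfVars_iff']
  intro x hx
  rw [MvPolynomial.coeff_sub, sub_eq_zero, MvPowerSeries.coeff_truncTotal _ hx,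
    MvPolynomial.coeff_coe]

theorem evPS_X (a : Fin d → B) (N : ℕ)
    (h : ∀ p ∈ MvPolynomial.idealOfVars (Fin d) 𝒪 ^ N, MvPolynomial.aeval a p = 0) (i : Fin d) :
    evPS a N h (MvPowerSeries.X i) = a i := by
  rw [← MvPolynomial.coe_X, evPS_coe, MvPolynomial.aeval_X]

end Eval

end Fermat.Agent.S53lib

end
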