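import Mathlib
import Fermat.Prelude.Thm_IsLocalRing_isAdicComplete_of_module_finite
import Fermat.Agent.S53lib.Defs
import Fermat.Agent.S53lib.Iface
import Fermat.Agent.S53lib.TestAlg
import Fermat.Agent.S53lib.Rep
import Fermat.Agent.S53lib.Level
import Fermat.Agent.S53lib.LimLemma
import Fermat.Agent.S53lib.LimEval

/-! The limit ring of a tower.  OWNER: helper11 -/

set_option autoImplicit false
set_option linter.unusedSectionVars false
set_option linter.style.haveILetI false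
set_option linter.unusedSimpArgs false

noncomputable section

namespace Fermat.Agent.S53lib

open IsLocalRing Matrix GaloisRep

namespace Tower

variable {𝒪 : Type} [CommRing 𝒪] [IsLocalRing 𝒪]
  {rbar : Gal →* M2 (ResidueField 𝒪)}
  {𝒟 : ∀ ⦃A : Type⦄ [CommRing A] [IsLocalRing A] [Algebra 𝒪 A], GaloisRepAdic A → Prop}
  (T : Tower 𝒪 rbar 𝒟)

/-- the trace map at level `n` -/
def τ (n : ℕ) : MvPolynomial Gal 𝒪 →ₐ[𝒪] (T.D n).B := traceHom (𝒪 := 𝒪) (T.D n).r

theorem τ_surj (n : ℕ) : Function.Surjective (T.τ n) := T.surj n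

theorem hB (n : ℕ) : IsTestAlg 𝒪 (T.D n).B := toTest (T.D n).test

theorem trace_map {A B : Type} [CommRing A] [CommRing B] (φ : A →+* B) (x : M2 A) :
    (x.map φ).trace = φ x.trace := by
  simp [Matrix.trace_fin_two]

theorem π_τ (n : ℕ) (f : MvPolynomial Gal 𝒪) : T.π n (T.τ (n + 1) f) = T.τ n f := by
  have : (T.π n).comp (T.τ (n + 1)) = T.τ n := by
    apply MvPolynomial.algHom_ext
    intro σ
    simp only [τ, AlgHom.comp_apply, traceHom_X]
    rw [← T.π_r n, mapRep_apply, trace_map]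
    rfl
  exact congrArg (fun g => g f) this

/-- the augmentation of the polynomial ring -/
def χ : MvPolynomial Gal 𝒪 →ₐ[𝒪] ResidueField 𝒪 := MvPolynomial.aeval (fun σ => (rbar σ).trace)

theorem resk_τ (n : ℕ) (f : MvPolynomial Gal 𝒪) : resk (T.hB n) (T.τ n f) = χ (rbar := rbar) f := by
  have : (resk (T.hB n)).comp (T.τ n) = χ (rbar := rbar) := by
    apply MvPolynomial.algHom_ext
    intro σ
    simp only [τ, χ, AlgHom.comp_apply, traceHom_X, MvPolynomial.aeval_X]
    rw [← (T.D n).lift σ]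
    exact (trace_map (resk (T.hB n) : (T.D n).B →+* ResidueField 𝒪) _).symm
  exact congrArg (fun g => g f) this

theorem τ_mem_iff (n : ℕ) (f : MvPolynomial Gal 𝒪) :
    T.τ n f ∈ maximalIdeal (T.D n).B ↔ χ (rbar := rbar) f = 0 := by
  rw [← resk_eq_zero_iff (T.hB n), resk_τ]

/-- the maximal ideal of the polynomial ring -/
def mF : Ideal (MvPolynomial Gal 𝒪) :=
  RingHom.ker (χ (rbar := rbar) : MvPolynomial Gal 𝒪 →+* ResidueField 𝒪)

theorem map_mF (n : ℕ) :
    (mF (rbar := rbar)).map (T.τ n) = maximalIdeal (T.D n).B := by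
  have : mF (rbar := rbar) = (maximalIdeal (T.D n).B).comap (T.τ n) := by
    ext f
    rw [Ideal.mem_comap]
    exact (T.τ_mem_iff n f).symm
  rw [this, Ideal.map_comap_of_surjective _ (T.τ_surj n)]

/-- kernel of the trace map -/
def K (n : ℕ) : Ideal (MvPolynomial Gal 𝒪) := RingHom.ker (T.τ n)

theorem K_le_succ (j : ℕ) : T.K j ≤ T.K (j + 1) ⊔ mF (rbar := rbar) ^ (j + 1) := by
  intro x hx
  have h1 : T.τ (j + 1) x ∈ maximalIdeal (T.D (j + 1)).B ^ (j + 1) := by
    rw [← T.ker_π j, RingHom.mem_ker]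
    exact (T.π_τ j x).trans hx
  rw [← T.map_mF (j + 1), ← Ideal.map_pow,
    Ideal.mem_map_iff_of_surjective _ (T.τ_surj (j + 1))] at h1
  obtain ⟨y, hy, hyx⟩ := h1
  have : x = (x - y) + y := by ring
  rw [this]
  refine Submodule.add_mem_sup ?_ hy
  show (T.τ (j + 1)) (x - y) = 0
  rw [map_sub, sub_eq_zero]
  exact hyx.symm

theorem K_one_le (n : ℕ) : T.K 1 ≤ T.K (n + 1) ⊔ mF (rbar := rbar) ^ 2 := by
  induction n with
  | zero => exact le_sup_left
  | succ n ih =>
    refine ih.trans (sup_le ?_ le_sup_right)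
    refine (T.K_le_succ (n + 1)).trans (sup_le le_sup_left ?_)
    exact le_sup_of_le_right (Ideal.pow_le_pow_right (by omega))


section Gens

variable [Finite (ResidueField 𝒪)]

theorem finite_B (n : ℕ) : Finite (T.D n).B := finite_of_artinianTest (T.D n).test

/-- number of variables -/
def d : ℕ := Nat.card (maximalIdeal (T.D 1).B)

/-- enumeration of the maximal ideal of the first level -/
def e : Fin T.d ≃ maximalIdeal (T.D 1).B :=
  haveI := T.finite_B 1
  (Finite.equivFin _).symm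

/-- polynomials hitting every element of the maximal ideal of the first level -/
def t (i : Fin T.d) : MvPolynomial Gal 𝒪 := (T.τ_surj 1 (T.e i : (T.D 1).B)).choose

theorem τ_one_t (i : Fin T.d) : T.τ 1 (T.t i) = T.e i := (T.τ_surj 1 _).choose_spec

theorem χ_t (i : Fin T.d) : χ (rbar := rbar) (T.t i) = 0 := by
  rw [← T.τ_mem_iff 1, τ_one_t]; exact (T.e i).2

/-- the generators at level `n` -/
def a (n : ℕ) (i : Fin T.d) : (T.D n).B := T.τ n (T.t i)

theorem a_mem (n : ℕ) (i : Fin T.d) : T.a n i ∈ maximalIdeal (T.D n).B :=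
  (T.τ_mem_iff n _).2 (T.χ_t i)

theorem π_a (n : ℕ) (i : Fin T.d) : T.π n (T.a (n + 1) i) = T.a n i := T.π_τ n _

theorem maximalIdeal_le (n : ℕ) : maximalIdeal (T.D n).B ≤ Ideal.span (Set.range (T.a n)) := by
  cases n with
  | zero =>
    have := (T.D 0).nil
    rw [zero_add, pow_one] at this
    rw [this]; exact bot_le
  | succ n =>
    haveI := (T.D (n + 1)).test.isArtinian
    apply Submodule.le_of_le_smul_of_le_jacobson_bot (I := maximalIdeal (T.D (n + 1)).B)
      (IsNoetherian.noetherian _) (maximalIdeal_le_jacobson _)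
    intro μ hμ
    obtain ⟨f, rfl⟩ := T.τ_surj (n + 1) μ
    have hχ : χ (rbar := rbar) f = 0 := (T.τ_mem_iff (n + 1) f).1 hμ
    have h1 : T.τ 1 f ∈ maximalIdeal (T.D 1).B := (T.τ_mem_iff 1 f).2 hχ
    set i := T.e.symm ⟨T.τ 1 f, h1⟩ with hi
    have h2 : T.τ 1 (T.t i) = T.τ 1 f := by
      rw [τ_one_t, hi, Equiv.apply_symm_apply]
    have h3 : f - T.t i ∈ T.K 1 := by
      show T.τ 1 (f - T.t i) = 0
      rw [map_sub, h2, sub_self]
    obtain ⟨κ, hκ, ν, hν, hsum⟩ := Submodule.mem_sup.1 (T.K_one_le n h3)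
    have h4 : T.τ (n + 1) f = T.a (n + 1) i + T.τ (n + 1) ν := by
      have h5 : f = T.t i + (κ + ν) := by rw [hsum]; ring
      have h6 : T.τ (n + 1) κ = 0 := hκ
      conv_lhs => rw [h5]
      rw [map_add, map_add, h6, zero_add]
      rfl
    rw [h4]
    refine Submodule.add_mem_sup (Ideal.subset_span ⟨i, rfl⟩) ?_
    have h7 := Ideal.mem_map_of_mem (T.τ (n + 1)) hν
    rw [Ideal.map_pow, T.map_mF, pow_two] at h7
    exact h7

/-- the evaluation map from the power series ring -/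
def ev (n : ℕ) : MvPowerSeries (Fin T.d) 𝒪 →ₐ[𝒪] (T.D n).B :=
  evPS (T.a n) (n + 1) (fun p hp => by
    have := aeval_mem_pow_of_mem_idealOfVars_pow (T.a n) _ (T.a_mem n) (n + 1) p hp
    rwa [(T.D n).nil, Ideal.mem_bot] at this)

theorem ev_X (n : ℕ) (i : Fin T.d) : T.ev n (MvPowerSeries.X i) = T.a n i := evPS_X _ _ _ _

theorem π_ev (n : ℕ) (f : MvPowerSeries (Fin T.d) 𝒪) : T.π n (T.ev (n + 1) f) = T.ev n f := by
  have h1 : ∀ p : MvPolynomial (Fin T.d) 𝒪,
      T.π n (MvPolynomial.aeval (T.a (n + 1)) p) = MvPolynomial.aeval (T.a n) p := by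
    intro p
    have : (T.π n).comp (MvPolynomial.aeval (T.a (n + 1))) = MvPolynomial.aeval (T.a n) := by
      apply MvPolynomial.algHom_ext
      intro i
      simp [π_a]
    exact congrArg (fun g => g p) this
  rw [ev, ev, evPS_apply, evPS_apply, h1, ← sub_eq_zero, ← map_sub]
  have := aeval_mem_pow_of_mem_idealOfVars_pow (T.a n) _ (T.a_mem n) (n + 1) _
    (MvPowerSeries.truncTotal_sub_truncTotal_mem_pow_idealOfVars (l := n + 1) (m := n + 1 + 1)
      (n := n + 1) (by omega) le_rfl f)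
  rwa [(T.D n).nil, Ideal.mem_bot] at this

end Gens


section Surj

variable [Finite (ResidueField 𝒪)]

theorem map_maximalIdeal_ev (n : ℕ) :
    (maximalIdeal (MvPowerSeries (Fin T.d) 𝒪)).map (T.ev n) = maximalIdeal (T.D n).B := by
  apply le_antisymm
  · rw [maximalIdeal_mvPowerSeries_eq, mvExtIdeal, Ideal.map_sup, sup_le_iff]
    constructor
    · rw [Ideal.map_le_iff_le_comap, Ideal.map_le_iff_le_comap]
      intro c hc
      rw [Ideal.mem_comap, Ideal.mem_comap]
      have h1 : T.ev n (MvPowerSeries.C c) = algebraMap 𝒪 _ c := (T.ev n).commutes c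
      rw [h1]
      haveI := (T.hB n).isLocalHom
      exact map_nonunit (algebraMap 𝒪 (T.D n).B) c hc
    · rw [Ideal.map_span, Ideal.span_le]
      rintro _ ⟨_, ⟨i, rfl⟩, rfl⟩
      rw [ev_X]
      exact T.a_mem n i
  · refine (T.maximalIdeal_le n).trans ?_
    rw [Ideal.span_le]
    rintro _ ⟨i, rfl⟩
    rw [← ev_X]
    apply Ideal.mem_map_of_mem
    rw [maximalIdeal_mvPowerSeries_eq, mvExtIdeal]
    exact Ideal.mem_sup_right (Ideal.subset_span ⟨i, rfl⟩)

variable [IsAdicComplete (maximalIdeal 𝒪) 𝒪]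

theorem ev_surj (n : ℕ) : Function.Surjective (T.ev n) := by
  haveI := isAdicComplete_mvPowerSeries (A := 𝒪) T.d
  haveI := (T.D n).test.isArtinian
  have hmap : (maximalIdeal (MvPowerSeries (Fin T.d) 𝒪)).map
      (T.ev n : MvPowerSeries (Fin T.d) 𝒪 →+* (T.D n).B) = maximalIdeal (T.D n).B :=
    T.map_maximalIdeal_ev n
  haveI : IsHausdorff ((maximalIdeal (MvPowerSeries (Fin T.d) 𝒪)).map
      (T.ev n : MvPowerSeries (Fin T.d) 𝒪 →+* (T.D n).B)) (T.D n).B := by
    rw [hmap]; infer_instance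
  apply surjective_of_mk_map_comp_surjective (I := maximalIdeal (MvPowerSeries (Fin T.d) 𝒪))
    (T.ev n : MvPowerSeries (Fin T.d) 𝒪 →+* (T.D n).B)
  intro y
  obtain ⟨b, rfl⟩ := Ideal.Quotient.mk_surjective y
  obtain ⟨c, hc⟩ := exists_sub_mem (T.hB n) b
  refine ⟨MvPowerSeries.C c, ?_⟩
  rw [RingHom.comp_apply, Ideal.Quotient.eq, hmap]
  have h1 : T.ev n (MvPowerSeries.C c) = algebraMap 𝒪 _ c := (T.ev n).commutes c
  have h2 : (T.ev n : MvPowerSeries (Fin T.d) 𝒪 →+* (T.D n).B) (MvPowerSeries.C c) - b =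
      -(b - algebraMap 𝒪 _ c) := by
    rw [RingHom.coe_coe, h1]; ring
  rw [h2]
  exact neg_mem hc

/-- the kernel ideals in the power series ring -/
def I (n : ℕ) : Ideal (MvPowerSeries (Fin T.d) 𝒪) := RingHom.ker (T.ev n)

theorem pow_le_I (j : ℕ) : maximalIdeal (MvPowerSeries (Fin T.d) 𝒪) ^ (j + 1) ≤ T.I j := by
  intro x hx
  have h1 := Ideal.mem_map_of_mem (T.ev j) hx
  rw [Ideal.map_pow, T.map_maximalIdeal_ev, (T.D j).nil] at h1
  exact h1

theorem I_succ_le (j : ℕ) : T.I (j + 1) ≤ T.I j := by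
  intro x hx
  show T.ev j x = 0
  have h1 : T.ev (j + 1) x = 0 := hx
  rw [← π_ev, h1, map_zero]

theorem I_le_succ (j : ℕ) :
    T.I j ≤ T.I (j + 1) ⊔ maximalIdeal (MvPowerSeries (Fin T.d) 𝒪) ^ (j + 1) := by
  intro x hx
  have h1 : T.ev (j + 1) x ∈ maximalIdeal (T.D (j + 1)).B ^ (j + 1) := by
    rw [← T.ker_π j, RingHom.mem_ker]
    exact (T.π_ev j x).trans hx
  rw [← T.map_maximalIdeal_ev (j + 1), ← Ideal.map_pow,
    Ideal.mem_map_iff_of_surjective _ (T.ev_surj (j + 1))] at h1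
  obtain ⟨y, hy, hyx⟩ := h1
  have : x = (x - y) + y := by ring
  rw [this]
  refine Submodule.add_mem_sup ?_ hy
  show (T.ev (j + 1)) (x - y) = 0
  rw [map_sub, sub_eq_zero]
  exact hyx.symm

/-- the kernel of the limit -/
def J : Ideal (MvPowerSeries (Fin T.d) 𝒪) := ⨅ n, T.I n

theorem J_le (n : ℕ) : T.J ≤ T.I n := iInf_le _ n

theorem exists_lim (x : ℕ → MvPowerSeries (Fin T.d) 𝒪) (hx : ∀ j, x (j + 1) - x j ∈ T.I j) :
    ∃ y, ∀ j, y - x j ∈ T.I j := by
  haveI := isAdicComplete_mvPowerSeries (A := 𝒪) T.d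
  exact (lim_lemma' (maximalIdeal (MvPowerSeries (Fin T.d) 𝒪)) T.I T.pow_le_I T.I_succ_le
    T.I_le_succ).1 x hx

theorem I_le_J_sup (j : ℕ) :
    T.I j ≤ T.J ⊔ maximalIdeal (MvPowerSeries (Fin T.d) 𝒪) ^ (j + 1) := by
  haveI := isAdicComplete_mvPowerSeries (A := 𝒪) T.d
  exact (lim_lemma' (maximalIdeal (MvPowerSeries (Fin T.d) 𝒪)) T.I T.pow_le_I T.I_succ_le
    T.I_le_succ).2 j

theorem J_ne_top : T.J ≠ ⊤ := by
  intro h
  have h1 : (1 : MvPowerSeries (Fin T.d) 𝒪) ∈ T.I 0 := T.J_le 0 (h ▸ Submodule.mem_top)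
  have h2 : T.ev 0 1 = 0 := h1
  rw [map_one] at h2
  exact one_ne_zero h2

end Surj


section Ring

variable [Finite (ResidueField 𝒪)] [IsAdicComplete (maximalIdeal 𝒪) 𝒪]

theorem isTestAlg_mvPowerSeries (d : ℕ) : IsTestAlg 𝒪 (MvPowerSeries (Fin d) 𝒪) where
  isLocalHom := by
    constructor
    intro c hc
    have h1 : algebraMap 𝒪 (MvPowerSeries (Fin d) 𝒪) c = MvPowerSeries.C c := rfl
    rw [h1, MvPowerSeries.isUnit_iff_constantCoeff, MvPowerSeries.constantCoeff_C] at hc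
    exact hc
  residue_surjective := by
    intro y
    obtain ⟨f, rfl⟩ := residue_surjective y
    refine ⟨MvPowerSeries.constantCoeff f, ?_⟩
    rw [Function.comp_apply]
    have h1 : algebraMap 𝒪 (MvPowerSeries (Fin d) 𝒪) (MvPowerSeries.constantCoeff f) =
      MvPowerSeries.C (MvPowerSeries.constantCoeff f) := rfl
    rw [h1, ← sub_eq_zero, ← map_sub, residue_eq_zero_iff, mem_maximalIdeal, mem_nonunits_iff,
      MvPowerSeries.isUnit_iff_constantCoeff, map_sub, MvPowerSeries.constantCoeff_C, sub_self]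
    exact not_isUnit_zero

/-- the limit ring -/
abbrev R : Type := MvPowerSeries (Fin T.d) 𝒪 ⧸ T.J

instance instIsLocalRingR : IsLocalRing T.R := isLocalRing_quotient _ T.J_ne_top

theorem hR : IsTestAlg 𝒪 T.R :=
  isTestAlg_of_surjective (isTestAlg_mvPowerSeries T.d) (Ideal.Quotient.mkₐ 𝒪 T.J)
    (Ideal.Quotient.mkₐ_surjective 𝒪 _)

theorem isAdicComplete_R [IsNoetherianRing 𝒪] : IsAdicComplete (maximalIdeal T.R) T.R := by
  haveI := isAdicComplete_mvPowerSeries (A := 𝒪) T.d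
  haveI : IsLocalHom (algebraMap (MvPowerSeries (Fin T.d) 𝒪) T.R) :=
    IsLocalHom.of_surjective _ Ideal.Quotient.mk_surjective
  exact IsLocalRing.isAdicComplete_of_module_finite (𝒪 := MvPowerSeries (Fin T.d) 𝒪)

/-- the projections -/
def p (n : ℕ) : T.R →ₐ[𝒪] (T.D n).B :=
  Ideal.Quotient.liftₐ T.J (T.ev n) (fun _ hx => T.J_le n hx)

theorem p_mk (n : ℕ) (x : MvPowerSeries (Fin T.d) 𝒪) :
    T.p n (Ideal.Quotient.mk T.J x) = T.ev n x := rfl

theorem p_surj (n : ℕ) : Function.Surjective (T.p n) := by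
  intro y
  obtain ⟨x, rfl⟩ := T.ev_surj n y
  exact ⟨Ideal.Quotient.mk T.J x, rfl⟩

theorem π_p (n : ℕ) (x : T.R) : T.π n (T.p (n + 1) x) = T.p n x := by
  obtain ⟨x, rfl⟩ := Ideal.Quotient.mk_surjective x
  exact T.π_ev n x

theorem eq_zero_of_p (x : T.R) (h : ∀ n, T.p n x = 0) : x = 0 := by
  obtain ⟨x, rfl⟩ := Ideal.Quotient.mk_surjective x
  rw [Ideal.Quotient.eq_zero_iff_mem, J, Ideal.mem_iInf]
  exact h

theorem eq_of_p {x y : T.R} (h : ∀ n, T.p n x = T.p n y) : x = y := by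
  rw [← sub_eq_zero]
  apply T.eq_zero_of_p
  intro n
  rw [map_sub, h n, sub_self]

theorem exists_p_eq (x : ∀ n, (T.D n).B) (hx : ∀ n, T.π n (x (n + 1)) = x n) :
    ∃ y : T.R, ∀ n, T.p n y = x n := by
  choose z hz using fun n => T.ev_surj n (x n)
  obtain ⟨y, hy⟩ := T.exists_lim z (fun j => by
    show T.ev j (z (j + 1) - z j) = 0
    rw [map_sub, ← π_ev, hz, hz, hx, sub_self])
  refine ⟨Ideal.Quotient.mk T.J y, fun n => ?_⟩
  rw [p_mk, ← hz n, ← sub_eq_zero, ← map_sub]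
  exact hy n

theorem isLocalHom_p (n : ℕ) : IsLocalHom (T.p n : T.R →+* (T.D n).B) :=
  IsLocalHom.of_surjective _ (T.p_surj n)

theorem ker_p (n : ℕ) : RingHom.ker (T.p n) = maximalIdeal T.R ^ (n + 1) := by
  apply le_antisymm
  · intro x hx
    obtain ⟨x, rfl⟩ := Ideal.Quotient.mk_surjective x
    have h1 : x ∈ T.I n := hx
    obtain ⟨u, hu, v, hv, rfl⟩ := Submodule.mem_sup.1 (T.I_le_J_sup n h1)
    rw [map_add, Ideal.Quotient.eq_zero_iff_mem.2 hu, zero_add]
    have h2 := Ideal.mem_map_of_mem (Ideal.Quotient.mk T.J) hv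
    rwa [Ideal.map_pow, IsLocalRing.map_maximalIdeal_of_surjective _
      Ideal.Quotient.mk_surjective] at h2
  · intro x hx
    have h1 := Ideal.mem_map_of_mem (T.p n) hx
    rw [Ideal.map_pow] at h1
    have h2 : (maximalIdeal T.R).map (T.p n) = maximalIdeal (T.D n).B :=
      IsLocalRing.map_maximalIdeal_of_surjective (T.p n : T.R →+* (T.D n).B) (T.p_surj n)
    rw [h2, (T.D n).nil] at h1
    exact h1

end Ring


section Rep

variable [Finite (ResidueField 𝒪)] [IsAdicComplete (maximalIdeal 𝒪) 𝒪]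

theorem ofMat_congr {A : Type} [CommRing A] [IsLocalRing A] {r r' : Gal →* M2 A} (h : r = r')
    (c : IsCts r) (c' : IsCts r') : ofMat r c = ofMat r' c' := by
  subst h; rfl

theorem exists_r_entry (σ : Gal) (i j : Fin 2) : ∃ y : T.R, ∀ n, T.p n y = (T.D n).r σ i j :=
  T.exists_p_eq (fun n => (T.D n).r σ i j) (fun n =>
    congrFun (congrFun (congrArg (fun r => r σ) (T.π_r n)) i) j)

/-- the matrices of the limit representation -/
def rMat (σ : Gal) : M2 T.R := Matrix.of fun i j => (T.exists_r_entry σ i j).choose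

theorem p_rMat (n : ℕ) (σ : Gal) : (T.rMat σ).map (T.p n) = (T.D n).r σ := by
  ext i j
  exact (T.exists_r_entry σ i j).choose_spec n

theorem mat_ext_p {x y : M2 T.R} (h : ∀ n, x.map (T.p n) = y.map (T.p n)) : x = y := by
  ext i j
  apply T.eq_of_p
  intro n
  exact congrFun (congrFun (h n) i) j

/-- the limit representation -/
def r : Gal →* M2 T.R where
  toFun := T.rMat
  map_one' := by
    apply T.mat_ext_p
    intro n
    rw [p_rMat, map_one]
    exact (map_one (T.p n : T.R →+* (T.D n).B).mapMatrix).symm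
  map_mul' σ τ := by
    apply T.mat_ext_p
    intro n
    rw [p_rMat, map_mul]
    have := map_mul (T.p n : T.R →+* (T.D n).B).mapMatrix (T.rMat σ) (T.rMat τ)
    refine Eq.trans ?_ this.symm
    show _ = (T.rMat σ).map (T.p n) * (T.rMat τ).map (T.p n)
    rw [p_rMat, p_rMat]

theorem mapRep_p (n : ℕ) : mapRep (T.p n : T.R →+* (T.D n).B) T.r = (T.D n).r := by
  ext σ : 1
  exact T.p_rMat n σ

theorem p_r_apply (n : ℕ) (σ : Gal) (i j : Fin 2) : T.p n (T.r σ i j) = (T.D n).r σ i j :=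
  congrFun (congrFun (T.p_rMat n σ) i) j

theorem cts_r : IsCts T.r := by
  intro n
  obtain ⟨L, hL, h⟩ := (T.D n).cts (n + 1)
  refine ⟨L, hL, fun σ hσ i j => ?_⟩
  have h1 := h σ hσ i j
  rw [(T.D n).nil, Ideal.mem_bot] at h1
  apply Ideal.pow_le_pow_right (Nat.le_succ n)
  rw [← T.ker_p n, RingHom.mem_ker, Matrix.sub_apply, map_sub, p_r_apply]
  rw [Matrix.sub_apply] at h1
  rw [← h1]
  congr 1
  by_cases hij : i = j
  · subst hij; simp
  · simp [Matrix.one_apply_ne hij]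

theorem lift_r : IsLift T.hR rbar T.r := by
  intro σ
  rw [← (T.D 0).lift σ]
  ext i j
  show resk T.hR (T.r σ i j) = resk (T.hB 0) ((T.D 0).r σ i j)
  rw [← p_r_apply]
  exact (resk_algHom T.hR (T.hB 0) (T.p 0) (T.isLocalHom_p 0) _).symm

theorem trace_r (n : ℕ) (σ : Gal) : T.p n (T.r σ).trace = ((T.D n).r σ).trace := by
  rw [← T.mapRep_p n, mapRep_apply, trace_map]
  rfl

theorem type_r [IsNoetherianRing 𝒪] (h𝒟 : IsDeformationCondition 𝒪 𝒟) :
    𝒟 (ofMat T.r T.cts_r) := by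
  haveI := T.isAdicComplete_R
  rw [h𝒟.iff_forall_surjective T.hR.isLocalHom T.hR.residue_surjective]
  intro B _ _ _ hB q hq hqs
  obtain ⟨n, hn⟩ := isNilpotent_maximalIdeal_of_artinianTest hB
  have hker : RingHom.ker (T.p n).toRingHom ≤ RingHom.ker q.toRingHom := by
    intro x hx
    have h1 : x ∈ maximalIdeal T.R ^ (n + 1) := by rw [← T.ker_p n]; exact hx
    have h2 := Ideal.mem_map_of_mem (q : T.R →+* B) (Ideal.pow_le_pow_right (Nat.le_succ n) h1)
    rw [Ideal.map_pow, IsLocalRing.map_maximalIdeal_of_surjective (q : T.R →+* B) hqs, hn] at h2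
    exact h2
  set q' := AlgHom.liftOfSurjective (T.p n) (T.p_surj n) q hker with hq'def
  have hq' : IsLocalHom (q' : (T.D n).B →+* B) :=
    isLocalHom_of_isNilpotent (isNilpotent_maximalIdeal_of_artinianTest (T.D n).test) _
  have h1 : 𝒟 ((ofMat (T.D n).r (T.D n).cts).baseChangeAlong (q' : (T.D n).B →+* B) hq') :=
    h𝒟.baseChangeAlong (T.D n).test hB q' hq' (T.D n).type
  have e1 := ofMat_baseChangeAlong (q' : (T.D n).B →+* B) hq' (T.D n).r (T.D n).cts
  have e2 := ofMat_baseChangeAlong (q : T.R →+* B) hq T.r T.cts_r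
  have h2 : mapRep (q' : (T.D n).B →+* B) (T.D n).r = mapRep (q : T.R →+* B) T.r := by
    ext σ i j
    show q' ((T.D n).r σ i j) = q (T.r σ i j)
    rw [← p_r_apply, hq'def, AlgHom.liftOfSurjective_apply]
  have h3 := h𝒟.of_isEquiv hB e1 h1
  rw [ofMat_congr h2 _ (T.cts_r.map _ hq)] at h3
  exact h𝒟.of_isEquiv hB (isEquiv_symm e2) h3

end Rep

end Tower

end Fermat.Agent.S53lib

end
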