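import Mathlib
import Fermat.Agent.S53lib.LimTower

/-! The universal property of the limit ring of a tower.  OWNER: helper11 -/

set_option autoImplicit false
set_option linter.unusedSectionVars false
set_option linter.style.haveILetI false
set_option linter.unusedSimpArgs false

noncomputable section

namespace Fermat.Agent.S53lib

open IsLocalRing Matrix GaloisRep

theorem eq_of_forall_mk_eq {A : Type*} [CommRing A] (I : Ideal A) [IsHausdorff I A] {a b : A}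
    (h : ∀ n, Ideal.Quotient.mk (I ^ n) a = Ideal.Quotient.mk (I ^ n) b) : a = b := by
  rw [← sub_eq_zero]
  apply IsHausdorff.haus ‹IsHausdorff I A›
  intro n
  rw [SModEq.zero, smul_eq_mul, Ideal.mul_top]
  exact Ideal.Quotient.eq.1 (h n)

section General

variable {𝒪 : Type} [CommRing 𝒪] [IsLocalRing 𝒪]
  {rbar : Gal →* M2 (ResidueField 𝒪)}
  {𝒟 : ∀ ⦃A : Type⦄ [CommRing A] [IsLocalRing A] [Algebra 𝒪 A], GaloisRepAdic A → Prop}

theorem resk_traceHom {A : Type} [CommRing A] [IsLocalRing A] [Algebra 𝒪 A] (hA : IsTestAlg 𝒪 A)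
    (r : Gal →* M2 A) (hl : IsLift hA rbar r) (g : MvPolynomial Gal 𝒪) :
    resk hA (traceHom (𝒪 := 𝒪) r g) = Tower.χ (rbar := rbar) g := by
  have : (resk hA).comp (traceHom (𝒪 := 𝒪) r) = Tower.χ (rbar := rbar) := by
    apply MvPolynomial.algHom_ext
    intro σ
    simp only [Tower.χ, AlgHom.comp_apply, traceHom_X, MvPolynomial.aeval_X]
    rw [← hl σ]
    exact (Tower.trace_map (resk hA : A →+* ResidueField 𝒪) _).symm
  exact congrArg (fun f => f g) this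

theorem traceHom_mapRep_apply {A B : Type} [CommRing A] [IsLocalRing A] [Algebra 𝒪 A] [CommRing B]
    [IsLocalRing B] [Algebra 𝒪 B] (φ : A →ₐ[𝒪] B) (r : Gal →* M2 A) (g : MvPolynomial Gal 𝒪) :
    traceHom (𝒪 := 𝒪) (mapRep (φ : A →+* B) r) g = φ (traceHom (𝒪 := 𝒪) r g) := by
  have : traceHom (𝒪 := 𝒪) (mapRep (φ : A →+* B) r) = φ.comp (traceHom (𝒪 := 𝒪) r) := by
    apply MvPolynomial.algHom_ext
    intro σ
    rw [AlgHom.comp_apply, traceHom_X, traceHom_X, mapRep_apply]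
    exact Tower.trace_map (φ : A →+* B) _
  exact congrArg (fun f => f g) this

theorem type_of_isEquiv_complete (h𝒟 : IsDeformationCondition 𝒪 𝒟)
    {A : Type} [CommRing A] [IsLocalRing A] [IsNoetherianRing A]
    [IsAdicComplete (maximalIdeal A) A] [Algebra 𝒪 A] (hA : IsTestAlg 𝒪 A)
    {ρ ρ' : GaloisRepAdic A} (e : ρ.IsEquiv ρ') (h : 𝒟 ρ) : 𝒟 ρ' := by
  rw [h𝒟.iff_forall_surjective hA.isLocalHom hA.residue_surjective] at h ⊢
  intro B _ _ _ hB q hq hqs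
  exact h𝒟.of_isEquiv hB (isEquiv_baseChangeAlong _ hq e) (h hB q hq hqs)

end General


section Quot

variable {𝒪 : Type} [CommRing 𝒪] [IsLocalRing 𝒪]
  {rbar : Gal →* M2 (ResidueField 𝒪)}
  {𝒟 : ∀ ⦃A : Type⦄ [CommRing A] [IsLocalRing A] [Algebra 𝒪 A], GaloisRepAdic A → Prop}
  {A : Type} [CommRing A] [IsLocalRing A] [IsNoetherianRing A]
  [IsAdicComplete (maximalIdeal A) A] [Algebra 𝒪 A]

instance instIsLocalRingQuotPow (n : ℕ) : IsLocalRing (A ⧸ maximalIdeal A ^ (n + 1)) :=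
  isLocalRing_quotient _ (fun h => by
    have h1 : maximalIdeal A ^ (n + 1) ≤ maximalIdeal A := Ideal.pow_le_self (Nat.succ_ne_zero n)
    rw [h, top_le_iff] at h1
    exact (Ideal.IsPrime.ne_top inferInstance) h1)

/-- the level datum obtained by reducing a deformation to a complete ring -/
def quotDatum (h𝒟 : IsDeformationCondition 𝒪 𝒟) (hA : IsTestAlg 𝒪 A) (rA : Gal →* M2 A)
    (cA : IsCts rA) (lA : IsLift hA rbar rA) (tA : 𝒟 (ofMat rA cA)) (n : ℕ) :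
    LevelDatum 𝒪 rbar 𝒟 n where
  B := A ⧸ maximalIdeal A ^ (n + 1)
  test := artinianTest_quotient_pow hA n
  nil := maximalIdeal_quotient_pow n
  r := mapRep ((Ideal.Quotient.mkₐ 𝒪 (maximalIdeal A ^ (n + 1)) :
    A →ₐ[𝒪] A ⧸ maximalIdeal A ^ (n + 1)) : A →+* A ⧸ maximalIdeal A ^ (n + 1)) rA
  cts := cA.map _ (isLocalHom_of_surjective _ (Ideal.Quotient.mkₐ_surjective 𝒪 _))
  lift := lA.map hA _ (Ideal.Quotient.mkₐ 𝒪 (maximalIdeal A ^ (n + 1)))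
    (isLocalHom_of_surjective _ (Ideal.Quotient.mkₐ_surjective 𝒪 _))
  type := by
    have h1 := (h𝒟.iff_forall_surjective hA.isLocalHom hA.residue_surjective (ofMat rA cA)).mp tA
      (artinianTest_quotient_pow hA n) (Ideal.Quotient.mkₐ 𝒪 (maximalIdeal A ^ (n + 1)))
      (isLocalHom_of_surjective _ (Ideal.Quotient.mkₐ_surjective 𝒪 _))
      (Ideal.Quotient.mkₐ_surjective 𝒪 _)
    exact h𝒟.of_isEquiv (artinianTest_quotient_pow hA n) (ofMat_baseChangeAlong _ _ rA cA) h1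

end Quot


namespace Tower

section Univ

variable {𝒪 : Type} [CommRing 𝒪] [IsLocalRing 𝒪]
  {rbar : Gal →* M2 (ResidueField 𝒪)}
  {𝒟 : ∀ ⦃A : Type⦄ [CommRing A] [IsLocalRing A] [Algebra 𝒪 A], GaloisRepAdic A → Prop}
  (T : Tower 𝒪 rbar 𝒟)
  {A : Type} [CommRing A] [IsLocalRing A] [IsNoetherianRing A]
  [IsAdicComplete (maximalIdeal A) A] [Algebra 𝒪 A]
  (h𝒟 : IsDeformationCondition 𝒪 𝒟) (hA : IsTestAlg 𝒪 A) (rA : Gal →* M2 A)
  (cA : IsCts rA) (lA : IsLift hA rbar rA) (tA : 𝒟 (ofMat rA cA))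

include h𝒟 hA cA lA tA in
theorem ker_τ_le (n : ℕ) (g : MvPolynomial Gal 𝒪) (hg : T.τ n g = 0) :
    traceHom (𝒪 := 𝒪) rA g ∈ maximalIdeal A ^ (n + 1) := by
  have h1 : g ∈ (quotDatum h𝒟 hA rA cA lA tA n).ker := T.min n _ hg
  have h2 : traceHom (𝒪 := 𝒪) (mapRep ((Ideal.Quotient.mkₐ 𝒪 (maximalIdeal A ^ (n + 1)) :
    A →ₐ[𝒪] A ⧸ maximalIdeal A ^ (n + 1)) : A →+* A ⧸ maximalIdeal A ^ (n + 1)) rA) g = 0 := h1
  rw [traceHom_mapRep_apply] at h2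
  exact Ideal.Quotient.eq_zero_iff_mem.1 h2

include h𝒟 hA cA lA tA in
theorem ker_τ_le' (n : ℕ) : RingHom.ker (T.τ n).toRingHom ≤ RingHom.ker
    ((Ideal.Quotient.mkₐ 𝒪 (maximalIdeal A ^ (n + 1))).comp
      (traceHom (𝒪 := 𝒪) rA)).toRingHom := by
  intro g hg
  rw [RingHom.mem_ker]
  exact Ideal.Quotient.eq_zero_iff_mem.2 (T.ker_τ_le h𝒟 hA rA cA lA tA n g hg)

/-- the map from level `n` of the tower to `A / 𝔪 ^ (n + 1)` -/
def uMap (n : ℕ) : (T.D n).B →ₐ[𝒪] A ⧸ maximalIdeal A ^ (n + 1) :=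
  AlgHom.liftOfSurjective (T.τ n) (T.τ_surj n)
    ((Ideal.Quotient.mkₐ 𝒪 (maximalIdeal A ^ (n + 1))).comp (traceHom (𝒪 := 𝒪) rA))
    (T.ker_τ_le' h𝒟 hA rA cA lA tA n)

theorem uMap_τ (n : ℕ) (g : MvPolynomial Gal 𝒪) :
    T.uMap h𝒟 hA rA cA lA tA n (T.τ n g) =
      Ideal.Quotient.mk (maximalIdeal A ^ (n + 1)) (traceHom (𝒪 := 𝒪) rA g) := by
  rw [uMap, AlgHom.liftOfSurjective_apply]
  rfl

variable [Finite (ResidueField 𝒪)] [IsAdicComplete (maximalIdeal 𝒪) 𝒪]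

theorem compat_le {m n : ℕ} (hle : m ≤ n) (g : MvPolynomial Gal 𝒪) (x : T.R)
    (h : T.τ n g = T.p n x) : T.τ m g = T.p m x := by
  induction n, hle using Nat.le_induction with
  | base => exact h
  | succ n _ ih =>
    apply ih
    rw [← π_τ, ← π_p, h]

/-- the maps `R → A / 𝔪 ^ n` -/
def fMap (n : ℕ) : T.R →ₐ[𝒪] A ⧸ maximalIdeal A ^ n :=
  (Ideal.Quotient.factorₐ 𝒪 (Ideal.pow_le_pow_right (Nat.le_succ n))).comp
    ((T.uMap h𝒟 hA rA cA lA tA n).comp (T.p n))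

theorem fMap_apply (n : ℕ) (x : T.R) (g : MvPolynomial Gal 𝒪) (h : T.τ n g = T.p n x) :
    T.fMap h𝒟 hA rA cA lA tA n x =
      Ideal.Quotient.mk (maximalIdeal A ^ n) (traceHom (𝒪 := 𝒪) rA g) := by
  rw [fMap, AlgHom.comp_apply, AlgHom.comp_apply, ← h, uMap_τ]
  rfl

theorem fMap_compat {m n : ℕ} (hle : m ≤ n) :
    (Ideal.Quotient.factorₐ 𝒪 (Ideal.pow_le_pow_right hle)).comp (T.fMap h𝒟 hA rA cA lA tA n) =
      T.fMap h𝒟 hA rA cA lA tA m := by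
  ext x
  obtain ⟨g, hg⟩ := T.τ_surj n (T.p n x)
  rw [AlgHom.comp_apply, T.fMap_apply h𝒟 hA rA cA lA tA n x g hg,
    T.fMap_apply h𝒟 hA rA cA lA tA m x g (T.compat_le hle g x hg)]
  rfl

/-- the universal map -/
def φ : T.R →ₐ[𝒪] A :=
  IsAdicComplete.liftAlgHom (maximalIdeal A) (T.fMap h𝒟 hA rA cA lA tA)
    (fun hle => T.fMap_compat h𝒟 hA rA cA lA tA hle)

theorem mk_φ (n : ℕ) (x : T.R) :
    Ideal.Quotient.mk (maximalIdeal A ^ n) (T.φ h𝒟 hA rA cA lA tA x) =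
      T.fMap h𝒟 hA rA cA lA tA n x :=
  IsAdicComplete.mk_liftAlgHom _ _ _ n x

theorem τ_eq_p_traceHom (n : ℕ) (g : MvPolynomial Gal 𝒪) :
    T.τ n g = T.p n (traceHom (𝒪 := 𝒪) T.r g) := by
  rw [← traceHom_mapRep_apply, T.mapRep_p n]
  rfl

theorem φ_traceHom (g : MvPolynomial Gal 𝒪) :
    T.φ h𝒟 hA rA cA lA tA (traceHom (𝒪 := 𝒪) T.r g) = traceHom (𝒪 := 𝒪) rA g := by
  apply eq_of_forall_mk_eq (maximalIdeal A)
  intro n
  rw [mk_φ, T.fMap_apply h𝒟 hA rA cA lA tA n _ g (T.τ_eq_p_traceHom n g)]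

theorem φ_trace (σ : Gal) : T.φ h𝒟 hA rA cA lA tA (T.r σ).trace = (rA σ).trace := by
  rw [← traceHom_X (𝒪 := 𝒪) T.r σ, φ_traceHom, traceHom_X]

theorem isLocalHom_φ : IsLocalHom (T.φ h𝒟 hA rA cA lA tA : T.R →+* A) := by
  constructor
  intro x hx
  by_contra hx'
  have hxm : x ∈ maximalIdeal T.R := (mem_maximalIdeal x).2 hx'
  obtain ⟨g, hg⟩ := T.τ_surj 1 (T.p 1 x)
  have h1 : T.p 1 x ∈ maximalIdeal (T.D 1).B := by
    haveI := T.isLocalHom_p 1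
    exact map_nonunit (T.p 1 : T.R →+* (T.D 1).B) x hxm
  rw [← hg, T.τ_mem_iff, ← resk_traceHom hA rA lA, resk_eq_zero_iff] at h1
  have h2 := (T.mk_φ h𝒟 hA rA cA lA tA 1 x).trans (T.fMap_apply h𝒟 hA rA cA lA tA 1 x g hg)
  rw [Ideal.Quotient.eq, pow_one] at h2
  have h3 : T.φ h𝒟 hA rA cA lA tA x ∈ maximalIdeal A := by
    have := (maximalIdeal A).add_mem h2 h1
    simpa using this
  exact (mem_maximalIdeal _).1 h3 hx


theorem isEquiv_φ (hspan : Submodule.span (ResidueField 𝒪) (Set.range rbar) = ⊤) :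
    ((ofMat T.r T.cts_r).baseChangeAlong (T.φ h𝒟 hA rA cA lA tA : T.R →+* A)
      (T.isLocalHom_φ h𝒟 hA rA cA lA tA)).IsEquiv (ofMat rA cA) := by
  have hφ := T.isLocalHom_φ h𝒟 hA rA cA lA tA
  have e1 := ofMat_baseChangeAlong (T.φ h𝒟 hA rA cA lA tA : T.R →+* A) hφ T.r T.cts_r
  have l1 : IsLift hA rbar (mapRep (T.φ h𝒟 hA rA cA lA tA : T.R →+* A) T.r) :=
    T.lift_r.map T.hR hA _ hφ
  obtain ⟨Q, Q', hQ, -, hr⟩ := conj_of_trace_eq hspan hA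
    (mapRep (T.φ h𝒟 hA rA cA lA tA : T.R →+* A) T.r) rA l1 lA (fun σ => by
      rw [mapRep_apply, trace_map]
      exact T.φ_trace h𝒟 hA rA cA lA tA σ)
  have e2 := ofMat_conj Q Q' hQ (mapRep (T.φ h𝒟 hA rA cA lA tA : T.R →+* A) T.r)
    (T.cts_r.map _ hφ)
  rw [ofMat_congr hr.symm _ cA] at e2
  exact isEquiv_trans e1 e2

omit [IsNoetherianRing A] in
theorem algHom_ext_of_trace (φ₁ φ₂ : T.R →ₐ[𝒪] A) (h₁ : IsLocalHom (φ₁ : T.R →+* A))
    (h₂ : IsLocalHom (φ₂ : T.R →+* A)) (h : ∀ σ, φ₁ (T.r σ).trace = φ₂ (T.r σ).trace) :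
    φ₁ = φ₂ := by
  have hc : ∀ g, φ₁ (traceHom (𝒪 := 𝒪) T.r g) = φ₂ (traceHom (𝒪 := 𝒪) T.r g) := by
    intro g
    have : φ₁.comp (traceHom (𝒪 := 𝒪) T.r) = φ₂.comp (traceHom (𝒪 := 𝒪) T.r) := by
      apply MvPolynomial.algHom_ext
      intro σ
      rw [AlgHom.comp_apply, AlgHom.comp_apply, traceHom_X]
      exact h σ
    exact congrArg (fun f => f g) this
  have hmem : ∀ (ψ : T.R →ₐ[𝒪] A), IsLocalHom (ψ : T.R →+* A) → ∀ (n : ℕ) (y : T.R),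
      y ∈ maximalIdeal T.R ^ n → ψ y ∈ maximalIdeal A ^ n := by
    intro ψ hψ n y hy
    have h1 := Ideal.mem_map_of_mem (ψ : T.R →+* A) hy
    rw [Ideal.map_pow] at h1
    exact Ideal.pow_right_mono (map_maximalIdeal_le _) n h1
  ext x
  apply eq_of_forall_mk_eq (maximalIdeal A)
  intro n
  obtain ⟨g, hg⟩ := T.τ_surj n (T.p n x)
  have hx : x - traceHom (𝒪 := 𝒪) T.r g ∈ maximalIdeal T.R ^ (n + 1) := by
    rw [← T.ker_p n, RingHom.mem_ker, map_sub, ← τ_eq_p_traceHom, hg, sub_self]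
  rw [Ideal.Quotient.eq]
  apply Ideal.pow_le_pow_right (Nat.le_succ n)
  have h3 : φ₁ x - φ₂ x = φ₁ (x - traceHom (𝒪 := 𝒪) T.r g) - φ₂ (x - traceHom (𝒪 := 𝒪) T.r g) := by
    rw [map_sub, map_sub, hc g]; ring
  rw [h3]
  exact Ideal.sub_mem _ (hmem φ₁ h₁ _ _ hx) (hmem φ₂ h₂ _ _ hx)

theorem φ_unique (ψ : T.R →ₐ[𝒪] A) (hψ : IsLocalHom (ψ : T.R →+* A))
    (e : ((ofMat T.r T.cts_r).baseChangeAlong (ψ : T.R →+* A) hψ).IsEquiv (ofMat rA cA)) :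
    ψ = T.φ h𝒟 hA rA cA lA tA := by
  apply T.algHom_ext_of_trace ψ _ hψ (T.isLocalHom_φ h𝒟 hA rA cA lA tA)
  intro σ
  rw [φ_trace]
  have e1 := ofMat_baseChangeAlong (ψ : T.R →+* A) hψ T.r T.cts_r
  have h1 := trace_eq_of_isEquiv (isEquiv_trans (isEquiv_symm e1) e) σ
  rw [mapRep_apply, trace_map] at h1
  exact h1

end Univ

end Tower

end Fermat.Agent.S53lib

end
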