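import Mathlib
import Fermat.Prelude.Thm_IsAdicComplete_of_module_finite
import Fermat.Agent.S53lib.Defs
import Fermat.Agent.S53lib.Iface
import Fermat.Agent.S53lib.TestAlg
import Fermat.Agent.S53lib.Rep
import Fermat.Agent.S53lib.Level
import Fermat.Agent.S53lib.LimLemma
import Fermat.Agent.S53lib.LimTower
import Fermat.Agent.S53lib.LimUniv

/-! The limit ring and the final assembly.  OWNER: helper11 -/

set_option autoImplicit false
set_option linter.unusedSectionVars false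
set_option linter.style.haveILetI false
set_option linter.unusedSimpArgs false

noncomputable section

namespace Fermat.Agent.S53lib

open IsLocalRing Matrix GaloisRep

/-- abstract limit lemma -/
theorem lim_lemma {Λ : Type*} [CommRing Λ] (𝔫 : Ideal Λ) [IsAdicComplete 𝔫 Λ]
    (K : ℕ → Ideal Λ) (h1 : ∀ j, 𝔫 ^ (j + 1) ≤ K j) (h2 : ∀ j, K (j + 1) ≤ K j)
    (h3 : ∀ j, K j ≤ K (j + 1) ⊔ 𝔫 ^ (j + 1)) :
    (∀ x : ℕ → Λ, (∀ j, x (j + 1) - x j ∈ K j) → ∃ y, ∀ j, y - x j ∈ K j) ∧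
    (∀ j, K j ≤ (⨅ i, K i) ⊔ 𝔫 ^ (j + 1)) :=
  lim_lemma' 𝔫 K h1 h2 h3

theorem deformationRingData_of_tower
    (𝒪 : Type) [CommRing 𝒪] [IsDomain 𝒪] [IsDiscreteValuationRing 𝒪]
    [IsAdicComplete (IsLocalRing.maximalIdeal 𝒪) 𝒪] [Finite (IsLocalRing.ResidueField 𝒪)]
    (ρbar : ResidualGaloisRep (IsLocalRing.ResidueField 𝒪))
    (b : Module.Basis (Fin 2) (ResidueField 𝒪) ρbar.V)
    (𝒟 : ∀ ⦃A : Type⦄ [CommRing A] [IsLocalRing A] [Algebra 𝒪 A], GaloisRepAdic A → Prop)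
    (habs : ρbar.IsAbsolutelyIrreducible)
    (h𝒟 : GaloisRep.IsDeformationCondition 𝒪 𝒟)
    (T : Tower 𝒪 (rbarOf ρbar b) 𝒟) :
    Nonempty (GaloisRep.DeformationRingData 𝒪 ρbar 𝒟) := by
  haveI := T.isAdicComplete_R
  haveI := T.hR.isLocalHom
  have hspan := span_rbarOf_eq_top ρbar habs b
  refine ⟨{
    R := T.R
    residue_surjective := T.hR.residue_surjective
    absIrr := habs
    ρ := ofMat T.r T.cts_r
    isOfType := T.type_r h𝒟
    residual_isEquiv := residual_isEquiv_of_isLift ρbar b T.hR T.cts_r T.lift_r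
    universal := ?_ }⟩
  intro A _ _ _ _ _ _ hsurj ρA hD hres
  have hA : IsTestAlg 𝒪 A := ⟨inferInstance, hsurj⟩
  obtain ⟨rA, cA, eA, lA⟩ := exists_isLift_of_residual_isEquiv ρbar b hA ρA hres
  have tA : 𝒟 (ofMat rA cA) := type_of_isEquiv_complete h𝒟 hA eA hD
  refine ⟨T.φ h𝒟 hA rA cA lA tA, ⟨T.isLocalHom_φ h𝒟 hA rA cA lA tA, ?_⟩, ?_⟩
  · exact isEquiv_trans (T.isEquiv_φ h𝒟 hA rA cA lA tA hspan) (isEquiv_symm eA)
  · rintro ψ ⟨hψ, e⟩
    exact T.φ_unique h𝒟 hA rA cA lA tA ψ hψ (isEquiv_trans e eA)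

end Fermat.Agent.S53lib

end
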