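import Mathlib
import Fermat.Agent.S53lib.Defs
import Fermat.Agent.S53lib.Iface
import Fermat.Agent.S53lib.TestAlg
import Fermat.Agent.S53lib.Rep
import Fermat.Agent.S53lib.Level
import Fermat.Agent.S53lib.LimLemma

/-! The representation half of the final assembly.  OWNER: helper29 -/

set_option autoImplicit false
set_option linter.unusedSectionVars false
set_option linter.style.haveILetI false
set_option linter.unusedSimpArgs false

noncomputable section

namespace Fermat.Agent.S53lib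

open IsLocalRing Matrix GaloisRep

section Abstract

theorem eq_zero_of_forall_mem_pow {A : Type*} [CommRing A] (J : Ideal A) [IsHausdorff J A] {x : A}
    (h : ∀ n, x ∈ J ^ (n + 1)) : x = 0 := by
  apply IsHausdorff.haus ‹IsHausdorff J A›
  intro n
  rw [SModEq.zero, smul_eq_mul, Ideal.mul_top]
  exact Ideal.pow_le_pow_right (Nat.le_succ n) (h n)

theorem eq_of_forall_sub_mem_pow {A : Type*} [CommRing A] (J : Ideal A) [IsHausdorff J A] {x y : A}
    (h : ∀ n, x - y ∈ J ^ (n + 1)) : x = y :=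
  sub_eq_zero.mp (eq_zero_of_forall_mem_pow J h)

/-- extension by continuity of an algebra hom defined on a dense subalgebra -/
theorem exists_algHom_of_dense {𝒪 P R A : Type*} [CommRing 𝒪] [CommRing P] [CommRing R]
    [CommRing A] [Algebra 𝒪 P] [Algebra 𝒪 R] [Algebra 𝒪 A] (I : Ideal R) (J : Ideal A)
    [IsAdicComplete J A] (f : P →ₐ[𝒪] R) (g : P →ₐ[𝒪] A)
    (hdense : ∀ (n : ℕ) (x : R), ∃ F : P, x - f F ∈ I ^ (n + 1))
    (hK : ∀ (n : ℕ) (F : P), f F ∈ I ^ (n + 1) → g F ∈ J ^ (n + 1)) :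
    ∃ φ : R →ₐ[𝒪] A, (∀ F, φ (f F) = g F) ∧ ∀ (n : ℕ) (x : R), x ∈ I ^ (n + 1) →
      φ x ∈ J ^ (n + 1) := by
  -- pointwise construction
  have hpt : ∀ x : R, ∃ y : A, ∀ (n : ℕ) (F : P), x - f F ∈ I ^ (n + 1) →
      y - g F ∈ J ^ (n + 1) := by
    intro x
    choose F hF using fun n => hdense n x
    have hstep : ∀ i, g (F i) - g (F (i + 1)) ∈ J ^ (i + 1) := by
      intro i
      rw [← map_sub]
      apply hK
      have h1 : f (F i - F (i + 1)) = (x - f (F (i + 1))) - (x - f (F i)) := by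
        rw [map_sub]; ring
      rw [h1]
      exact Ideal.sub_mem _ (Ideal.pow_le_pow_right (Nat.le_succ _) (hF (i + 1))) (hF i)
    obtain ⟨y, hy⟩ := exists_limit_of_succ J (fun i => g (F i)) 1 hstep
    refine ⟨y, fun n G hG => ?_⟩
    have h2 : g (F n) - g G ∈ J ^ (n + 1) := by
      rw [← map_sub]
      apply hK
      have h1 : f (F n - G) = (x - f G) - (x - f (F n)) := by rw [map_sub]; ring
      rw [h1]
      exact Ideal.sub_mem _ hG (hF n)
    have h3 : y - g G = (g (F n) - g G) - (g (F n) - y) := by ring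
    rw [h3]
    exact Ideal.sub_mem _ h2 (hy n)
  choose φ hφ using hpt
  have hfg : ∀ F, φ (f F) = g F := fun F =>
    eq_of_forall_sub_mem_pow J fun n => hφ (f F) n F (by rw [sub_self]; exact Ideal.zero_mem _)
  have hadd : ∀ x y, φ (x + y) = φ x + φ y := by
    intro x y
    apply eq_of_forall_sub_mem_pow J
    intro n
    obtain ⟨F, hF⟩ := hdense n x
    obtain ⟨G, hG⟩ := hdense n y
    have h1 : x + y - f (F + G) ∈ I ^ (n + 1) := by
      have : x + y - f (F + G) = (x - f F) + (y - f G) := by rw [map_add]; ring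
      rw [this]; exact Ideal.add_mem _ hF hG
    have h2 := hφ _ n _ h1
    have h3 := hφ _ n _ hF
    have h4 := hφ _ n _ hG
    have : φ (x + y) - (φ x + φ y) = (φ (x + y) - g (F + G)) - (φ x - g F) - (φ y - g G) := by
      rw [map_add]; ring
    rw [this]
    exact Ideal.sub_mem _ (Ideal.sub_mem _ h2 h3) h4
  have hmul : ∀ x y, φ (x * y) = φ x * φ y := by
    intro x y
    apply eq_of_forall_sub_mem_pow J
    intro n
    obtain ⟨F, hF⟩ := hdense n x
    obtain ⟨G, hG⟩ := hdense n y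
    have h1 : x * y - f (F * G) ∈ I ^ (n + 1) := by
      have : x * y - f (F * G) = x * (y - f G) + (x - f F) * f G := by rw [map_mul]; ring
      rw [this]
      exact Ideal.add_mem _ (Ideal.mul_mem_left _ _ hG) (Ideal.mul_mem_right _ _ hF)
    have h2 := hφ _ n _ h1
    have h3 := hφ _ n _ hF
    have h4 := hφ _ n _ hG
    have : φ (x * y) - (φ x * φ y) =
        (φ (x * y) - g (F * G)) - (φ x * (φ y - g G) + (φ x - g F) * g G) := by
      rw [map_mul]; ring
    rw [this]
    exact Ideal.sub_mem _ h2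
      (Ideal.add_mem _ (Ideal.mul_mem_left _ _ h4) (Ideal.mul_mem_right _ _ h3))
  have halg : ∀ c : 𝒪, φ (algebraMap 𝒪 R c) = algebraMap 𝒪 A c := by
    intro c
    rw [← f.commutes c, hfg, g.commutes]
  refine ⟨{ toFun := φ
            map_one' := by rw [← map_one f, hfg, map_one]
            map_mul' := hmul
            map_zero' := by rw [← map_zero f, hfg, map_zero]
            map_add' := hadd
            commutes' := halg }, hfg, fun n x hx => ?_⟩
  have h1 := hφ x n 0 (by rw [map_zero, sub_zero]; exact hx)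
  rw [map_zero, sub_zero] at h1
  exact h1

end Abstract

section Main

variable {𝒪 : Type} [CommRing 𝒪] [IsLocalRing 𝒪]
  {rbar : Gal →* M2 (ResidueField 𝒪)}
  {𝒟 : ∀ ⦃A : Type⦄ [CommRing A] [IsLocalRing A] [Algebra 𝒪 A], GaloisRepAdic A → Prop}
  (T : Tower 𝒪 rbar 𝒟)
  {R : Type} [CommRing R] [IsLocalRing R] [IsAdicComplete (maximalIdeal R) R] [Algebra 𝒪 R]
  (p : ∀ n, R →ₐ[𝒪] (T.D n).B)
  (hp : ∀ n, Function.Surjective (p n))
  (hker : ∀ n, RingHom.ker (p n : R →+* (T.D n).B) = maximalIdeal R ^ (n + 1))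
  (hcomp : ∀ n, (T.π n).comp (p (n + 1)) = p n)

include hker in
theorem lim_ext {x y : R} (h : ∀ n, p n x = p n y) : x = y := by
  apply eq_of_forall_sub_mem_pow (maximalIdeal R)
  intro n
  rw [← hker n, RingHom.mem_ker]
  change p n (x - y) = 0
  rw [map_sub, h n, sub_self]

include hp hker hcomp in
theorem lim_exists (c : ∀ n, (T.D n).B) (hc : ∀ n, T.π n (c (n + 1)) = c n) :
    ∃ y : R, ∀ n, p n y = c n := by
  choose x hx using fun n => hp n (c n)
  have hstep : ∀ i, x i - x (i + 1) ∈ maximalIdeal R ^ (i + 1) := by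
    intro i
    rw [← hker i, RingHom.mem_ker]
    change p i (x i - x (i + 1)) = 0
    rw [map_sub, hx i, ← hcomp i, AlgHom.comp_apply, hx (i + 1), hc i, sub_self]
  obtain ⟨y, hy⟩ := exists_limit_of_succ (maximalIdeal R) x 1 hstep
  refine ⟨y, fun n => ?_⟩
  have h1 := hy n
  rw [← hker n, RingHom.mem_ker] at h1
  change p n (x n - y) = 0 at h1
  rw [map_sub, hx n, sub_eq_zero] at h1
  exact h1.symm

include hp hker hcomp in
/-- the limit representation -/
theorem exists_limRep : ∃ r : Gal →* M2 R, ∀ n, mapRep (p n : R →+* (T.D n).B) r = (T.D n).r := by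
  have hc : ∀ (σ : Gal) (i j : Fin 2) (n : ℕ),
      T.π n ((T.D (n + 1)).r σ i j) = (T.D n).r σ i j := by
    intro σ i j n
    rw [← T.π_r n]
    rfl
  choose e he using fun (σ : Gal) (i j : Fin 2) =>
    lim_exists T p hp hker hcomp (fun n => (T.D n).r σ i j) (hc σ i j)
  have hmap : ∀ σ n, (Matrix.of (e σ) : M2 R).map (p n) = (T.D n).r σ := by
    intro σ n
    ext i j
    exact he σ i j n
  have hext : ∀ M M' : M2 R, (∀ n, M.map (p n) = M'.map (p n)) → M = M' := by
    intro M M' h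
    ext i j
    exact lim_ext T p hker fun n => congrFun (congrFun (h n) i) j
  refine ⟨{ toFun := fun σ => Matrix.of (e σ), map_one' := ?_, map_mul' := ?_ }, ?_⟩
  · apply hext
    intro n
    rw [hmap, map_one]
    exact (RingHom.map_one (RingHom.mapMatrix (p n : R →+* (T.D n).B))).symm
  · intro σ τ
    apply hext
    intro n
    rw [hmap, map_mul, ← hmap σ n, ← hmap τ n]
    exact (RingHom.map_mul (RingHom.mapMatrix (p n : R →+* (T.D n).B)) _ _).symm
  · intro n
    ext σ : 1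
    exact hmap σ n

variable (r : Gal →* M2 R) (hr : ∀ n, mapRep (p n : R →+* (T.D n).B) r = (T.D n).r)

include hker hr in
theorem limRep_isCts : IsCts r := by
  intro n
  obtain ⟨L, hL, h1⟩ := (isCts_iff_of_nilpotent
    (isNilpotent_maximalIdeal_of_artinianTest (T.D n).test) (T.D n).r).mp (T.D n).cts
  refine ⟨L, hL, fun σ hσ i j => ?_⟩
  apply Ideal.pow_le_pow_right (Nat.le_succ n)
  rw [← hker n, RingHom.mem_ker]
  change p n ((r σ - 1) i j) = 0
  have h2 : (r σ).map (p n) = 1 := by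
    rw [← h1 σ hσ, ← hr n]; rfl
  have h3 : p n (r σ i j) = (1 : M2 (T.D n).B) i j := by
    rw [← h2]; rfl
  rw [Matrix.sub_apply, map_sub, h3, Matrix.one_apply, Matrix.one_apply]
  split_ifs <;> simp

include hp hr in
theorem limRep_isLift (hR : IsTestAlg 𝒪 R) : IsLift hR rbar r := by
  intro σ
  rw [← (T.D 0).lift σ, ← hr 0]
  ext i j
  exact (resk_algHom hR (toTest (T.D 0).test) (p 0)
    (isLocalHom_of_surjective _ (hp 0)) _).symm

include hp hr in
theorem limRep_dense (n : ℕ) (x : R) :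
    ∃ F : MvPolynomial Gal 𝒪, p n (x - traceHom (𝒪 := 𝒪) r F) = 0 := by
  obtain ⟨F, hF⟩ := T.surj n (p n x)
  refine ⟨F, ?_⟩
  rw [map_sub, ← hF, ← hr n, traceHom_mapRep, AlgHom.comp_apply, sub_self]

include hp hker hr in
theorem limRep_type (h𝒟 : IsDeformationCondition 𝒪 𝒟) [IsNoetherianRing R]
    (hR : IsTestAlg 𝒪 R) (hcts : IsCts r) : 𝒟 (ofMat r hcts) := by
  rw [h𝒟.iff_forall_surjective hR.isLocalHom hR.residue_surjective]
  intro B _ _ _ hB q hq hqs
  obtain ⟨N, hN⟩ := isNilpotent_maximalIdeal_of_artinianTest hB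
  -- `q` kills `ker (p N)`
  have hle : RingHom.ker (p N).toRingHom ≤ RingHom.ker q.toRingHom := by
    intro x hx
    have hx' : x ∈ maximalIdeal R ^ (N + 1) := by rw [← hker N]; exact hx
    have h1 := map_maximalIdeal_pow_le (q : R →+* B) hq (N + 1) (Ideal.mem_map_of_mem _ hx')
    rw [pow_succ, hN, Ideal.zero_eq_bot, Ideal.bot_mul] at h1
    exact h1
  let q' : (T.D N).B →ₐ[𝒪] B := AlgHom.liftOfSurjective (p N) (hp N) q hle
  have hq' : q'.comp (p N) = q := AlgHom.liftOfSurjective_comp _ _ _ _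
  have hq'loc : IsLocalHom (q' : (T.D N).B →+* B) :=
    isLocalHom_of_isNilpotent (isNilpotent_maximalIdeal_of_artinianTest (T.D N).test) _
  have h2 := type_map h𝒟 (T.D N).test hB q' hq'loc (T.D N).type
  have h3 : mapRep (q' : (T.D N).B →+* B) (T.D N).r = mapRep (q : R →+* B) r := by
    rw [← hr N, ← hq']
    ext σ i j
    rfl
  exact h𝒟.of_isEquiv hB (isEquiv_symm (ofMat_baseChangeAlong (q : R →+* B) hq r hcts))
    (type_congr h3 h2)

include hp hker hr in
theorem limRep_exists_hom (h𝒟 : IsDeformationCondition 𝒪 𝒟)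
    (A : Type) [CommRing A] [IsLocalRing A] [IsNoetherianRing A]
    [IsAdicComplete (maximalIdeal A) A] [Algebra 𝒪 A] (hA : IsTestAlg 𝒪 A)
    (rA : Gal →* M2 A) (hctsA : IsCts rA) (hliftA : IsLift hA rbar rA)
    (htypeA : 𝒟 (ofMat rA hctsA)) :
    ∃ φ : R →ₐ[𝒪] A, IsLocalHom (φ : R →+* A) ∧ ∀ σ, φ ((r σ).trace) = (rA σ).trace := by
  obtain ⟨φ, hφ1, hφ2⟩ := exists_algHom_of_dense (𝒪 := 𝒪) (maximalIdeal R) (maximalIdeal A)
    (traceHom (𝒪 := 𝒪) r) (traceHom (𝒪 := 𝒪) rA)
    (by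
      intro n x
      obtain ⟨F, hF⟩ := limRep_dense T p hp r hr n x
      exact ⟨F, by rw [← hker n]; exact hF⟩)
    (by
      intro n F hF
      have hne : maximalIdeal A ^ (n + 1) ≠ ⊤ := by
        intro h
        have h1 : maximalIdeal A ^ (n + 1) ≤ maximalIdeal A := Ideal.pow_le_self (Nat.succ_ne_zero n)
        rw [h, top_le_iff] at h1
        exact Ideal.IsPrime.ne_top inferInstance h1
      haveI : IsLocalRing (A ⧸ maximalIdeal A ^ (n + 1)) := isLocalRing_quotient _ hne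
      let q : A →ₐ[𝒪] A ⧸ maximalIdeal A ^ (n + 1) := Ideal.Quotient.mkₐ 𝒪 _
      have hqs : Function.Surjective q := Ideal.Quotient.mkₐ_surjective 𝒪 _
      have hq : IsLocalHom (q : A →+* A ⧸ maximalIdeal A ^ (n + 1)) :=
        isLocalHom_of_surjective _ hqs
      have htest := artinianTest_quotient_pow hA n
      let D' : LevelDatum 𝒪 rbar 𝒟 n :=
        { B := A ⧸ maximalIdeal A ^ (n + 1)
          test := htest
          nil := maximalIdeal_quotient_pow n
          r := mapRep (q : A →+* A ⧸ maximalIdeal A ^ (n + 1)) rA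
          cts := hctsA.map _ hq
          lift := hliftA.map hA (toTest htest) q hq
          type := h𝒟.of_isEquiv htest (ofMat_baseChangeAlong _ hq rA hctsA)
            ((h𝒟.iff_forall_surjective hA.isLocalHom hA.residue_surjective
              (ofMat rA hctsA)).mp htypeA htest q hq hqs) }
      have h1 : F ∈ (T.D n).ker := by
        change traceHom (𝒪 := 𝒪) (T.D n).r F = 0
        rw [← hr n, traceHom_mapRep, AlgHom.comp_apply]
        have : traceHom (𝒪 := 𝒪) r F ∈ RingHom.ker (p n : R →+* (T.D n).B) := by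
          rw [hker n]; exact hF
        exact this
      have h2 : F ∈ D'.ker := T.min n D' h1
      change traceHom (𝒪 := 𝒪) (mapRep (q : A →+* A ⧸ maximalIdeal A ^ (n + 1)) rA) F = 0 at h2
      rw [traceHom_mapRep, AlgHom.comp_apply] at h2
      exact Ideal.Quotient.eq_zero_iff_mem.mp h2)
  refine ⟨φ, ⟨fun a ha => ?_⟩, fun σ => ?_⟩
  · by_contra hna
    have h1 : a ∈ maximalIdeal R ^ (0 + 1) := by rw [zero_add, pow_one]; exact hna
    have h2 := hφ2 0 a h1
    rw [zero_add, pow_one] at h2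
    exact h2 ha
  · rw [← traceHom_X (𝒪 := 𝒪) r σ, hφ1, traceHom_X]

include hp hker hr in
theorem limRep_hom_unique
    (A : Type) [CommRing A] [IsLocalRing A] [IsHausdorff (maximalIdeal A) A] [Algebra 𝒪 A]
    (φ φ' : R →ₐ[𝒪] A) (hφ : IsLocalHom (φ : R →+* A)) (hφ' : IsLocalHom (φ' : R →+* A))
    (h : ∀ σ, φ ((r σ).trace) = φ' ((r σ).trace)) : φ = φ' := by
  have h1 : φ.comp (traceHom (𝒪 := 𝒪) r) = φ'.comp (traceHom (𝒪 := 𝒪) r) := by
    apply MvPolynomial.algHom_ext
    intro σ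
    rw [AlgHom.comp_apply, AlgHom.comp_apply, traceHom_X, h σ]
  ext x
  apply eq_of_forall_sub_mem_pow (maximalIdeal A)
  intro n
  obtain ⟨F, hF⟩ := limRep_dense T p hp r hr n x
  have hF' : x - traceHom (𝒪 := 𝒪) r F ∈ maximalIdeal R ^ (n + 1) := by
    rw [← hker n]; exact hF
  have h2 := map_maximalIdeal_pow_le (φ : R →+* A) hφ (n + 1) (Ideal.mem_map_of_mem _ hF')
  have h3 := map_maximalIdeal_pow_le (φ' : R →+* A) hφ' (n + 1) (Ideal.mem_map_of_mem _ hF')
  have h4 : φ (traceHom (𝒪 := 𝒪) r F) = φ' (traceHom (𝒪 := 𝒪) r F) := DFunLike.congr_fun h1 F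
  have h5 : φ x - φ' x = φ (x - traceHom (𝒪 := 𝒪) r F) - φ' (x - traceHom (𝒪 := 𝒪) r F) := by
    rw [map_sub, map_sub, h4]; ring
  rw [h5]
  exact Ideal.sub_mem _ h2 h3

end Main

theorem type_of_isEquiv_complete {𝒪 : Type} [CommRing 𝒪] [IsLocalRing 𝒪]
    {𝒟 : ∀ ⦃A : Type⦄ [CommRing A] [IsLocalRing A] [Algebra 𝒪 A], GaloisRepAdic A → Prop}
    (h𝒟 : GaloisRep.IsDeformationCondition 𝒪 𝒟)
    {A : Type} [CommRing A] [IsLocalRing A] [IsNoetherianRing A]
    [IsAdicComplete (maximalIdeal A) A] [Algebra 𝒪 A] (hA : IsTestAlg 𝒪 A)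
    {ρ ρ' : GaloisRepAdic A} (e : ρ.IsEquiv ρ') (h : 𝒟 ρ) : 𝒟 ρ' := by
  rw [h𝒟.iff_forall_surjective hA.isLocalHom hA.residue_surjective] at h ⊢
  intro B _ _ _ hB q hq hqs
  exact h𝒟.of_isEquiv hB (isEquiv_baseChangeAlong _ hq e) (h hB q hq hqs)

theorem deformationRingData_of_limRing
    (𝒪 : Type) [CommRing 𝒪] [IsDomain 𝒪] [IsDiscreteValuationRing 𝒪]
    [IsAdicComplete (IsLocalRing.maximalIdeal 𝒪) 𝒪]
    (ρbar : ResidualGaloisRep (IsLocalRing.ResidueField 𝒪))
    (b : Module.Basis (Fin 2) (ResidueField 𝒪) ρbar.V)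
    (𝒟 : ∀ ⦃A : Type⦄ [CommRing A] [IsLocalRing A] [Algebra 𝒪 A], GaloisRepAdic A → Prop)
    (habs : ρbar.IsAbsolutelyIrreducible)
    (h𝒟 : GaloisRep.IsDeformationCondition 𝒪 𝒟)
    (T : Tower 𝒪 (rbarOf ρbar b) 𝒟)
    (R : Type) [CommRing R] [IsLocalRing R] [IsNoetherianRing R]
    [IsAdicComplete (maximalIdeal R) R] [Algebra 𝒪 R] [IsLocalHom (algebraMap 𝒪 R)]
    (hres : Function.Surjective (IsLocalRing.residue R ∘ algebraMap 𝒪 R))
    (p : ∀ n, R →ₐ[𝒪] (T.D n).B)
    (hp : ∀ n, Function.Surjective (p n))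
    (hker : ∀ n, RingHom.ker (p n : R →+* (T.D n).B) = maximalIdeal R ^ (n + 1))
    (hcomp : ∀ n, (T.π n).comp (p (n + 1)) = p n) :
    Nonempty (GaloisRep.DeformationRingData 𝒪 ρbar 𝒟) := by
  have hspan := span_rbarOf_eq_top ρbar habs b
  have hR : IsTestAlg 𝒪 R := ⟨inferInstance, hres⟩
  obtain ⟨r, hr⟩ := exists_limRep T p hp hker hcomp
  have hcts : IsCts r := limRep_isCts T p hker r hr
  have hlift : IsLift hR (rbarOf ρbar b) r := limRep_isLift T p hp r hr hR
  refine ⟨{ R := R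
            residue_surjective := hres
            absIrr := habs
            ρ := ofMat r hcts
            isOfType := limRep_type T p hp hker r hr h𝒟 hR hcts
            residual_isEquiv := residual_isEquiv_of_isLift ρbar b hR hcts hlift
            universal := ?_ }⟩
  intro A _ _ _ _ _ _ hresA ρA htypeA hresidA
  have hA : IsTestAlg 𝒪 A := ⟨inferInstance, hresA⟩
  obtain ⟨rA, hctsA, heA, hliftA⟩ := exists_isLift_of_residual_isEquiv ρbar b hA ρA hresidA
  have htypeA' : 𝒟 (ofMat rA hctsA) := type_of_isEquiv_complete h𝒟 hA heA htypeA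
  obtain ⟨φ, hφloc, hφtr⟩ := limRep_exists_hom T p hp hker r hr h𝒟 A hA rA hctsA hliftA htypeA'
  refine ⟨φ, ⟨hφloc, ?_⟩, ?_⟩
  · obtain ⟨Q, Q', hQ, -, hconj⟩ := conj_of_trace_eq hspan hA (mapRep (φ : R →+* A) r) rA
      (hlift.map hR hA φ hφloc) hliftA (fun σ => by rw [trace_mapRep]; exact hφtr σ)
    refine isEquiv_trans (ofMat_baseChangeAlong (φ : R →+* A) hφloc r hcts) ?_
    refine isEquiv_trans (ofMat_conj Q Q' hQ _ (hcts.map _ hφloc)) ?_
    exact isEquiv_trans (ofMat_congr hconj.symm _ hctsA) (isEquiv_symm heA)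
  · rintro φ' ⟨hφ', he'⟩
    apply limRep_hom_unique T p hp hker r hr A φ' φ hφ' hφloc
    intro σ
    have h1 : (ofMat (mapRep (φ' : R →+* A) r) (hcts.map _ hφ')).IsEquiv (ofMat rA hctsA) :=
      isEquiv_trans (isEquiv_symm (ofMat_baseChangeAlong (φ' : R →+* A) hφ' r hcts))
        (isEquiv_trans he' heA)
    have h2 := trace_eq_of_isEquiv h1 σ
    rw [trace_mapRep] at h2
    rw [hφtr σ]
    exact h2

end Fermat.Agent.S53lib

end
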