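import Mathlib
import Fermat.Agent.S53lib.Defs
import Fermat.Agent.S53lib.Level

/-! Interface between the ring-theoretic limit construction and the final assembly. -/

set_option autoImplicit false
set_option linter.unusedSectionVars false
set_option linter.style.haveILetI false
set_option linter.unusedSimpArgs false

noncomputable section

namespace Fermat.Agent.S53lib

open IsLocalRing Matrix GaloisRep

/-- The limit ring of a tower: a complete Noetherian local test algebra `R` with compatible
surjections `p n : R → B n` with kernel `𝔪 ^ (n+1)`, such that compatible sequences lift. -/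
structure LimitRing {𝒪 : Type} [CommRing 𝒪] [IsLocalRing 𝒪]
    {rbar : Gal →* M2 (ResidueField 𝒪)}
    {𝒟 : ∀ ⦃A : Type⦄ [CommRing A] [IsLocalRing A] [Algebra 𝒪 A], GaloisRepAdic A → Prop}
    (T : Tower 𝒪 rbar 𝒟) : Type 1 where
  R : Type
  [commRing : CommRing R]
  [isLocalRing : IsLocalRing R]
  [isNoetherianRing : IsNoetherianRing R]
  [isAdicComplete : IsAdicComplete (maximalIdeal R) R]
  [algebra : Algebra 𝒪 R]
  test : IsTestAlg 𝒪 R
  p : ∀ n, R →ₐ[𝒪] (T.D n).B
  p_surj : ∀ n, Function.Surjective (p n)
  p_comp : ∀ n, (T.π n).comp (p (n + 1)) = p n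
  ker_p : ∀ n, RingHom.ker (p n : R →+* (T.D n).B) = maximalIdeal R ^ (n + 1)
  lift_seq : ∀ x : ∀ n, (T.D n).B, (∀ n, T.π n (x (n + 1)) = x n) → ∃ y : R, ∀ n, p n y = x n

attribute [instance] LimitRing.commRing LimitRing.isLocalRing LimitRing.isNoetherianRing
  LimitRing.isAdicComplete LimitRing.algebra

end Fermat.Agent.S53lib

end
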