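import Mathlib
import Fermat.Agent.S53lib.Defs
import Fermat.Agent.S53lib.Iface
import Fermat.Agent.S53lib.TestAlg
import Fermat.Agent.S53lib.Rep
import Fermat.Agent.S53lib.Level
import Fermat.Agent.S53lib.LimDefs

/-! From the limit ring to the deformation ring data.  OWNER: helper25 -/

set_option autoImplicit false
set_option linter.unusedSectionVars false
set_option linter.style.haveILetI false
set_option linter.unusedSimpArgs false

noncomputable section

namespace Fermat.Agent.S53lib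

open IsLocalRing Matrix GaloisRep

section

variable {𝒪 : Type} [CommRing 𝒪] [IsLocalRing 𝒪]
variable {rbar : Gal →* M2 (ResidueField 𝒪)}
variable {𝒟 : ∀ ⦃A : Type⦄ [CommRing A] [IsLocalRing A] [Algebra 𝒪 A], GaloisRepAdic A → Prop}
variable {T : Tower 𝒪 rbar 𝒟} (L : LimitRing T)

theorem LimitRing.ext_p {y y' : L.R} (h : ∀ n, L.p n y = L.p n y') : y = y' := by
  rw [← sub_eq_zero]
  have h1 : ∀ n, y - y' ∈ maximalIdeal L.R ^ n := by
    intro n
    have : y - y' ∈ RingHom.ker (L.p n : L.R →+* (T.D n).B) := by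
      rw [RingHom.mem_ker]
      show L.p n (y - y') = 0
      rw [map_sub, h n, sub_self]
    rw [L.ker_p] at this
    exact Ideal.pow_le_pow_right (Nat.le_succ n) this
  have h2 : y - y' ∈ (⨅ n, maximalIdeal L.R ^ n : Ideal L.R) := by
    rw [Ideal.mem_iInf]; exact h1
  rw [Ideal.iInf_pow_eq_bot_of_isLocalRing _ (Ideal.IsPrime.ne_top inferInstance)] at h2
  exact h2

theorem Tower.π_entry (T : Tower 𝒪 rbar 𝒟) (n : ℕ) (σ : Gal) (i j : Fin 2) :
    T.π n ((T.D (n + 1)).r σ i j) = (T.D n).r σ i j := by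
  have := congrFun (congrFun (congrArg (fun r => r σ) (T.π_r n)) i) j
  exact this

theorem LimitRing.exists_entry (σ : Gal) (i j : Fin 2) :
    ∃ y : L.R, ∀ n, L.p n y = (T.D n).r σ i j :=
  L.lift_seq (fun n => (T.D n).r σ i j) (fun n => T.π_entry n σ i j)

/-- the universal representation in matrix form -/
def LimitRing.rep : Gal →* M2 L.R where
  toFun σ := Matrix.of fun i j => (L.exists_entry σ i j).choose
  map_one' := by
    ext i j
    apply L.ext_p
    intro n
    rw [Matrix.of_apply, (L.exists_entry 1 i j).choose_spec n, map_one]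
    fin_cases i <;> fin_cases j <;> simp
  map_mul' σ τ := by
    ext i j
    apply L.ext_p
    intro n
    rw [Matrix.of_apply, (L.exists_entry (σ * τ) i j).choose_spec n, map_mul, Matrix.mul_apply,
      Matrix.mul_apply, map_sum]
    refine Finset.sum_congr rfl fun l _ => ?_
    rw [map_mul, Matrix.of_apply, Matrix.of_apply, (L.exists_entry σ i l).choose_spec n,
      (L.exists_entry τ l j).choose_spec n]

theorem LimitRing.p_rep (n : ℕ) :
    mapRep (L.p n : L.R →+* (T.D n).B) L.rep = (T.D n).r := by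
  ext σ i j
  exact (L.exists_entry σ i j).choose_spec n

theorem LimitRing.p_isLocalHom (n : ℕ) : IsLocalHom (L.p n : L.R →+* (T.D n).B) :=
  isLocalHom_of_surjective _ (L.p_surj n)

theorem LimitRing.rep_cts : IsCts L.rep := by
  intro N
  obtain ⟨F, hF, h1⟩ := (isCts_iff_of_nilpotent
    (isNilpotent_maximalIdeal_of_artinianTest (T.D N).test) (T.D N).r).mp (T.D N).cts
  refine ⟨F, hF, fun σ hσ i j => ?_⟩
  have h2 := h1 σ hσ
  have h3 : (L.rep σ - 1) i j ∈ RingHom.ker (L.p N : L.R →+* (T.D N).B) := by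
    rw [RingHom.mem_ker]
    have h4 : (L.p N : L.R →+* (T.D N).B) (L.rep σ i j) = (T.D N).r σ i j :=
      congrFun (congrFun (congrArg (fun r => r σ) (L.p_rep N)) i) j
    rw [Matrix.sub_apply, map_sub, h4, h2]
    fin_cases i <;> fin_cases j <;> simp
  rw [L.ker_p] at h3
  exact Ideal.pow_le_pow_right (Nat.le_succ N) h3

theorem LimitRing.rep_lift : IsLift L.test rbar L.rep := by
  intro σ
  rw [← (T.D 0).lift σ, ← L.p_rep 0]
  ext i j
  simp only [Matrix.map_apply, mapRep_apply]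
  exact (resk_algHom L.test (toTest (T.D 0).test) (L.p 0) (L.p_isLocalHom 0) _).symm

theorem mapRep_comp {A B C : Type} [CommRing A] [IsLocalRing A] [CommRing B] [IsLocalRing B]
    [CommRing C] (φ : A →+* B) (ψ : B →+* C) (r : Gal →* M2 A) :
    mapRep ψ (mapRep φ r) = mapRep (ψ.comp φ) r := by
  ext σ i j; rfl

theorem LimitRing.rep_type (h𝒟 : IsDeformationCondition 𝒪 𝒟) : 𝒟 (ofMat L.rep L.rep_cts) := by
  rw [h𝒟.iff_forall_surjective L.test.isLocalHom L.test.residue_surjective]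
  intro B _ _ _ hB q hq hqs
  obtain ⟨n, hn⟩ := isNilpotent_maximalIdeal_of_artinianTest hB
  have hker : RingHom.ker (L.p n).toRingHom ≤ RingHom.ker q.toRingHom := by
    have h0 : RingHom.ker (L.p n).toRingHom = maximalIdeal L.R ^ (n + 1) := L.ker_p n
    rw [h0]
    have h1 : (maximalIdeal L.R).map (q : L.R →+* B) = maximalIdeal B :=
      map_maximalIdeal_of_surjective _ hqs
    have h2 : (maximalIdeal L.R ^ (n + 1)).map (q : L.R →+* B) = ⊥ := by
      rw [Ideal.map_pow, h1, pow_succ, hn]; simp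
    exact (Ideal.map_eq_bot_iff_le_ker _).mp h2
  set q' : (T.D n).B →ₐ[𝒪] B := AlgHom.liftOfSurjective (L.p n) (L.p_surj n) q hker with hq'
  have hq'c : q'.comp (L.p n) = q := AlgHom.liftOfSurjective_comp _ _ _ _
  have hq'loc : IsLocalHom (q' : (T.D n).B →+* B) :=
    isLocalHom_of_isNilpotent (isNilpotent_maximalIdeal_of_artinianTest (T.D n).test) _
  apply h𝒟.of_isEquiv hB (isEquiv_symm (ofMat_baseChangeAlong _ hq L.rep L.rep_cts))
  have h3 : mapRep (q' : (T.D n).B →+* B) (T.D n).r = mapRep (q : L.R →+* B) L.rep := by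
    rw [← L.p_rep n, mapRep_comp]
    congr 1
    exact congrArg (fun f : L.R →ₐ[𝒪] B => (f : L.R →+* B)) hq'c
  exact type_congr h3 (type_map h𝒟 (T.D n).test hB q' hq'loc (T.D n).type)

end

section Univ

variable {𝒪 : Type} [CommRing 𝒪] [IsLocalRing 𝒪]
variable {rbar : Gal →* M2 (ResidueField 𝒪)}
variable {𝒟 : ∀ ⦃A : Type⦄ [CommRing A] [IsLocalRing A] [Algebra 𝒪 A], GaloisRepAdic A → Prop}
variable {T : Tower 𝒪 rbar 𝒟} (L : LimitRing T)

theorem Tower.π_traceHom (T : Tower 𝒪 rbar 𝒟) (n : ℕ) (x : MvPolynomial Gal 𝒪) :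
    T.π n (traceHom (T.D (n + 1)).r x) = traceHom (T.D n).r x := by
  have := traceHom_mapRep (𝒪 := 𝒪) (T.π n) (T.D (n + 1)).r
  rw [T.π_r] at this
  rw [this]; rfl

theorem LimitRing.p_traceHom (n : ℕ) (x : MvPolynomial Gal 𝒪) :
    L.p n (traceHom L.rep x) = traceHom (T.D n).r x := by
  have := traceHom_mapRep (𝒪 := 𝒪) (L.p n) L.rep
  rw [L.p_rep] at this
  rw [this]; rfl

/-- every element of `R` is a polynomial in traces modulo `𝔪 ^ (n+1)` -/
theorem LimitRing.exists_traceHom_sub_mem (n : ℕ) (y : L.R) :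
    ∃ x : MvPolynomial Gal 𝒪, y - traceHom L.rep x ∈ maximalIdeal L.R ^ (n + 1) := by
  obtain ⟨x, hx⟩ := T.surj n (L.p n y)
  refine ⟨x, ?_⟩
  rw [← L.ker_p n, RingHom.mem_ker]
  show L.p n (y - traceHom L.rep x) = 0
  rw [map_sub, L.p_traceHom, hx, sub_self]

variable {A : Type} [CommRing A] [IsLocalRing A] [Algebra 𝒪 A]

theorem map_pow_mem_of_isLocalHom {R : Type} [CommRing R] [IsLocalRing R] (φ : R →+* A)
    (hφ : IsLocalHom φ) (n : ℕ) {z : R} (hz : z ∈ maximalIdeal R ^ n) :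
    φ z ∈ maximalIdeal A ^ n := by
  have h1 : (maximalIdeal R).map φ ≤ maximalIdeal A := by
    rw [Ideal.map_le_iff_le_comap]
    intro a ha
    exact map_nonunit φ a ha
  have h2 : (maximalIdeal R ^ n).map φ ≤ maximalIdeal A ^ n := by
    rw [Ideal.map_pow]; exact Ideal.pow_right_mono h1 n
  exact h2 (Ideal.mem_map_of_mem φ hz)

/-- two local algebra homs out of `R` agreeing on traces are equal -/
theorem LimitRing.algHom_ext [IsNoetherianRing A] (φ φ' : L.R →ₐ[𝒪] A)
    (hφ : IsLocalHom (φ : L.R →+* A)) (hφ' : IsLocalHom (φ' : L.R →+* A))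
    (h : ∀ σ, φ (L.rep σ).trace = φ' (L.rep σ).trace) : φ = φ' := by
  have hF : φ.comp (traceHom L.rep) = φ'.comp (traceHom L.rep) := by
    apply MvPolynomial.algHom_ext
    intro σ
    simp only [AlgHom.comp_apply, traceHom_X, h]
  ext y
  rw [← sub_eq_zero]
  have h1 : ∀ n, φ y - φ' y ∈ maximalIdeal A ^ n := by
    intro n
    obtain ⟨x, hx⟩ := L.exists_traceHom_sub_mem n y
    have e1 := map_pow_mem_of_isLocalHom (φ : L.R →+* A) hφ _ hx
    have e2 := map_pow_mem_of_isLocalHom (φ' : L.R →+* A) hφ' _ hx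
    have e3 : φ (traceHom L.rep x) = φ' (traceHom L.rep x) := congrArg (fun f => f x) hF
    have e4 : φ y - φ' y = (φ : L.R →+* A) (y - traceHom L.rep x)
        - (φ' : L.R →+* A) (y - traceHom L.rep x) := by
      simp only [map_sub, RingHom.coe_coe, e3]; ring
    rw [e4]
    exact Ideal.pow_le_pow_right (Nat.le_succ n) (Ideal.sub_mem _ e1 e2)
  have h2 : φ y - φ' y ∈ (⨅ n, maximalIdeal A ^ n : Ideal A) := by
    rw [Ideal.mem_iInf]; exact h1
  rw [Ideal.iInf_pow_eq_bot_of_isLocalRing _ (Ideal.IsPrime.ne_top inferInstance)] at h2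
  exact h2

theorem resk_traceHom (hA : IsTestAlg 𝒪 A) {r : Gal →* M2 A} (hr : IsLift hA rbar r)
    (x : MvPolynomial Gal 𝒪) : resk hA (traceHom r x) = traceHom (𝒪 := 𝒪) rbar x := by
  have : (resk hA).comp (traceHom r) = traceHom (𝒪 := 𝒪) rbar := by
    apply MvPolynomial.algHom_ext
    intro σ
    rw [AlgHom.comp_apply, traceHom_X, traceHom_X, ← hr σ, Matrix.trace_fin_two,
      Matrix.trace_fin_two, map_add]
    rfl
  exact congrArg (fun f => f x) this

/-- existence of the classifying map -/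
theorem LimitRing.exists_algHom (_h𝒟 : IsDeformationCondition 𝒪 𝒟) [IsNoetherianRing A]
    [IsAdicComplete (maximalIdeal A) A] (hA : IsTestAlg 𝒪 A)
    (r : Gal →* M2 A) (hcts : IsCts r) (hr : IsLift hA rbar r)
    (htype : ∀ (n : ℕ) [IsLocalRing (A ⧸ maximalIdeal A ^ (n + 1))]
      (hq : IsLocalHom ((Ideal.Quotient.mkₐ 𝒪 (maximalIdeal A ^ (n + 1)) :
        A →ₐ[𝒪] A ⧸ maximalIdeal A ^ (n + 1)) : A →+* A ⧸ maximalIdeal A ^ (n + 1))),
      𝒟 (ofMat (mapRep _ r) (hcts.map _ hq))) :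
    ∃ φ : L.R →ₐ[𝒪] A, IsLocalHom (φ : L.R →+* A) ∧ ∀ σ, φ (L.rep σ).trace = (r σ).trace := by
  have hne : ∀ n, maximalIdeal A ^ (n + 1) ≠ ⊤ := by
    intro n h
    have : maximalIdeal A ^ (n + 1) ≤ maximalIdeal A := Ideal.pow_le_self (by omega)
    rw [h, top_le_iff] at this
    exact Ideal.IsPrime.ne_top inferInstance this
  haveI : ∀ n, IsLocalRing (A ⧸ maximalIdeal A ^ (n + 1)) := fun n => isLocalRing_quotient _ (hne n)
  let q : ∀ n, A →ₐ[𝒪] A ⧸ maximalIdeal A ^ (n + 1) := fun n => Ideal.Quotient.mkₐ 𝒪 _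
  have hqs : ∀ n, Function.Surjective (q n) := fun n => Ideal.Quotient.mkₐ_surjective 𝒪 _
  have hql : ∀ n, IsLocalHom (q n : A →+* A ⧸ maximalIdeal A ^ (n + 1)) :=
    fun n => isLocalHom_of_surjective _ (hqs n)
  have hT : ∀ n, IsArtinianTestAlgebra 𝒪 (A ⧸ maximalIdeal A ^ (n + 1)) :=
    fun n => artinianTest_quotient_pow hA n
  let D' : ∀ n, LevelDatum 𝒪 rbar 𝒟 n := fun n =>
    { B := A ⧸ maximalIdeal A ^ (n + 1), test := hT n, nil := maximalIdeal_quotient_pow n,
      r := mapRep (q n : A →+* A ⧸ maximalIdeal A ^ (n + 1)) r,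
      cts := hcts.map _ (hql n), lift := hr.map hA (toTest (hT n)) (q n) (hql n),
      type := htype n (hql n) }
  have hD'tr : ∀ n (x : MvPolynomial Gal 𝒪),
      traceHom (𝒪 := 𝒪) (D' n).r x = q n (traceHom r x) := by
    intro n x
    show traceHom (𝒪 := 𝒪) (mapRep (q n : A →+* A ⧸ maximalIdeal A ^ (n + 1)) r) x = _
    rw [traceHom_mapRep]; rfl
  let ψ : ∀ n, (T.D n).B →ₐ[𝒪] A ⧸ maximalIdeal A ^ (n + 1) := fun n =>
    AlgHom.liftOfSurjective (traceHom (T.D n).r) (T.surj n) (traceHom (D' n).r) (T.min n (D' n))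
  have hψ : ∀ n (x : MvPolynomial Gal 𝒪), ψ n (traceHom (T.D n).r x) = q n (traceHom r x) := by
    intro n x
    rw [← hD'tr]
    exact AlgHom.liftOfSurjective_apply _ _ _ _ _
  let f : ∀ n, L.R →ₐ[𝒪] A ⧸ maximalIdeal A ^ n := fun n =>
    (Ideal.Quotient.factorₐ 𝒪 (Ideal.pow_le_pow_right (Nat.le_succ n))).comp ((ψ n).comp (L.p n))
  -- key formula
  have hp : ∀ m n, m ≤ n → ∀ (y : L.R) (x : MvPolynomial Gal 𝒪),
      L.p n y = traceHom (T.D n).r x → L.p m y = traceHom (T.D m).r x := by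
    intro m n hmn
    induction n, hmn using Nat.le_induction with
    | base => intro y x h; exact h
    | succ n _ ih =>
      intro y x h
      apply ih
      rw [← L.p_comp n, AlgHom.comp_apply, h, T.π_traceHom]
  have hf : ∀ n (y : L.R) (x : MvPolynomial Gal 𝒪), L.p n y = traceHom (T.D n).r x →
      f n y = Ideal.Quotient.mk _ (traceHom r x) := by
    intro n y x h
    show Ideal.Quotient.factorₐ 𝒪 (Ideal.pow_le_pow_right (Nat.le_succ n)) (ψ n (L.p n y)) = _
    rw [h, hψ]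
    rfl
  have hcompat : ∀ {m n : ℕ} (hle : m ≤ n),
      (Ideal.Quotient.factorₐ 𝒪 (Ideal.pow_le_pow_right hle)).comp (f n) = f m := by
    intro m n hle
    ext y
    obtain ⟨x, hx⟩ := T.surj n (L.p n y)
    rw [AlgHom.comp_apply, hf n y x hx.symm, hf m y x (hp m n hle y x hx.symm)]
    rfl
  let φ : L.R →ₐ[𝒪] A := IsAdicComplete.liftAlgHom (maximalIdeal A) f hcompat
  have hφ : ∀ n y, Ideal.Quotient.mk (maximalIdeal A ^ n) (φ y) = f n y :=
    fun n y => IsAdicComplete.mk_liftAlgHom (maximalIdeal A) f hcompat n y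
  have hφF : ∀ x : MvPolynomial Gal 𝒪, φ (traceHom L.rep x) = traceHom r x := by
    intro x
    rw [← sub_eq_zero]
    have h1 : ∀ n, φ (traceHom L.rep x) - traceHom r x ∈ maximalIdeal A ^ n := by
      intro n
      rw [← Ideal.Quotient.eq, hφ, hf n _ x (L.p_traceHom n x)]
    have h2 : φ (traceHom L.rep x) - traceHom r x ∈ (⨅ n, maximalIdeal A ^ n : Ideal A) := by
      rw [Ideal.mem_iInf]; exact h1
    rw [Ideal.iInf_pow_eq_bot_of_isLocalRing _ (Ideal.IsPrime.ne_top inferInstance)] at h2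
    exact h2
  have hres : ∀ y, resk hA (φ y) = resk L.test y := by
    intro y
    obtain ⟨x, hx⟩ := T.surj 1 (L.p 1 y)
    have h1 : φ y - traceHom r x ∈ maximalIdeal A := by
      have : φ y - traceHom r x ∈ maximalIdeal A ^ 1 := by
        rw [← Ideal.Quotient.eq, hφ, hf 1 y x hx.symm]
      simpa using this
    have h2 : resk hA (φ y) = resk hA (traceHom r x) := by
      rw [← sub_eq_zero, ← map_sub, resk_eq_zero_iff]; exact h1
    have h3 : resk L.test y = resk (toTest (T.D 1).test) (L.p 1 y) :=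
      (resk_algHom L.test (toTest (T.D 1).test) (L.p 1) (L.p_isLocalHom 1) y).symm
    rw [h2, h3, ← hx, resk_traceHom hA hr, resk_traceHom _ (T.D 1).lift]
  refine ⟨φ, ⟨fun y hy => ?_⟩, fun σ => ?_⟩
  · rw [isUnit_iff_resk_ne_zero L.test, ← hres]
    exact (isUnit_iff_resk_ne_zero hA _).mp hy
  · rw [← traceHom_X (𝒪 := 𝒪) L.rep σ, hφF, traceHom_X]

end Univ

theorem isEquiv_of_eq {A : Type} [CommRing A] [IsLocalRing A] {r r' : Gal →* M2 A} (e : r = r')
    (h : IsCts r) (h' : IsCts r') : (ofMat r h).IsEquiv (ofMat r' h') := by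
  subst e; exact isEquiv_refl _

theorem deformationRingData_of_limitRing
    (𝒪 : Type) [CommRing 𝒪] [IsDomain 𝒪] [IsDiscreteValuationRing 𝒪]
    [IsAdicComplete (IsLocalRing.maximalIdeal 𝒪) 𝒪]
    (ρbar : ResidualGaloisRep (IsLocalRing.ResidueField 𝒪))
    (b : Module.Basis (Fin 2) (ResidueField 𝒪) ρbar.V)
    (𝒟 : ∀ ⦃A : Type⦄ [CommRing A] [IsLocalRing A] [Algebra 𝒪 A], GaloisRepAdic A → Prop)
    (habs : ρbar.IsAbsolutelyIrreducible)
    (h𝒟 : GaloisRep.IsDeformationCondition 𝒪 𝒟)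
    (T : Tower 𝒪 (rbarOf ρbar b) 𝒟) (L : LimitRing T) :
    Nonempty (GaloisRep.DeformationRingData 𝒪 ρbar 𝒟) := by
  have hspan := span_rbarOf_eq_top ρbar habs b
  haveI := L.test.isLocalHom
  refine ⟨{ R := L.R, residue_surjective := L.test.residue_surjective, absIrr := habs,
            ρ := ofMat L.rep L.rep_cts, isOfType := L.rep_type h𝒟,
            residual_isEquiv := residual_isEquiv_of_isLift ρbar b L.test L.rep_cts L.rep_lift,
            universal := ?_ }⟩
  intro A _ _ _ _ _ hloc hsurj ρA hρA hres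
  have hA : IsTestAlg 𝒪 A := ⟨hloc, hsurj⟩
  obtain ⟨r, hcts, he, hl⟩ := exists_isLift_of_residual_isEquiv ρbar b hA ρA hres
  have htype : ∀ (n : ℕ) [IsLocalRing (A ⧸ maximalIdeal A ^ (n + 1))]
      (hq : IsLocalHom ((Ideal.Quotient.mkₐ 𝒪 (maximalIdeal A ^ (n + 1)) :
        A →ₐ[𝒪] A ⧸ maximalIdeal A ^ (n + 1)) : A →+* A ⧸ maximalIdeal A ^ (n + 1))),
      𝒟 (ofMat (mapRep _ r) (hcts.map _ hq)) := by
    intro n _ hq
    have hT := artinianTest_quotient_pow hA n
    have h1 := (h𝒟.iff_forall_surjective hloc hsurj ρA).mp hρA hT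
      (Ideal.Quotient.mkₐ 𝒪 (maximalIdeal A ^ (n + 1))) hq (Ideal.Quotient.mkₐ_surjective 𝒪 _)
    exact h𝒟.of_isEquiv hT (isEquiv_trans (isEquiv_baseChangeAlong _ hq he)
      (ofMat_baseChangeAlong _ hq r hcts)) h1
  obtain ⟨φ, hφ, htr⟩ := L.exists_algHom h𝒟 hA r hcts hl htype
  refine ⟨φ, ⟨hφ, ?_⟩, ?_⟩
  · have hl' : IsLift hA (rbarOf ρbar b) (mapRep (φ : L.R →+* A) L.rep) :=
      L.rep_lift.map L.test hA φ hφ
    obtain ⟨Q, Q', hQ, -, hconj⟩ := conj_of_trace_eq hspan hA _ r hl' hl (fun σ => by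
      rw [trace_mapRep]; exact htr σ)
    refine isEquiv_trans (ofMat_baseChangeAlong _ hφ L.rep L.rep_cts) ?_
    refine isEquiv_trans (ofMat_conj Q Q' hQ _ _) ?_
    exact isEquiv_trans (isEquiv_of_eq hconj.symm _ hcts) (isEquiv_symm he)
  · rintro φ' ⟨hφ', he'⟩
    apply L.algHom_ext φ' φ hφ' hφ
    intro σ
    rw [htr σ]
    have h2 : (ofMat (mapRep (φ' : L.R →+* A) L.rep) (L.rep_cts.map _ hφ')).IsEquiv
        (ofMat r hcts) :=
      isEquiv_trans (isEquiv_symm (ofMat_baseChangeAlong _ hφ' L.rep L.rep_cts))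
        (isEquiv_trans he' he)
    have h3 := trace_eq_of_isEquiv h2 σ
    rw [trace_mapRep] at h3
    exact h3

end Fermat.Agent.S53lib
end
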