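import Mathlib
import Fermat.Prelude.Thm_IsLocalRing_isAdicComplete_of_module_finite
import Fermat.Agent.S53lib.Defs
import Fermat.Agent.S53lib.TestAlg
import Fermat.Agent.S53lib.Level
import Fermat.Agent.S53lib.LimLemma
import Fermat.Agent.S53lib.LimDefs
import Fermat.Agent.S53lib.PSComplete

set_option autoImplicit false
set_option linter.unusedSectionVars false
set_option linter.style.haveILetI false
set_option linter.unusedSimpArgs false

noncomputable section

namespace Fermat.Agent.S53lib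

open IsLocalRing Matrix GaloisRep

section EvPS

variable {𝒪 : Type} [CommRing 𝒪] {d : ℕ} {B : Type} [CommRing B] [Algebra 𝒪 B]

theorem idealOfVars_pow_le_ker (a : Fin d → B) (N : ℕ) (I : Ideal B) (ha : ∀ i, a i ∈ I)
    (hI : I ^ N = ⊥) :
    MvPolynomial.idealOfVars (Fin d) 𝒪 ^ N ≤
      RingHom.ker ((MvPolynomial.aeval a : MvPolynomial (Fin d) 𝒪 →ₐ[𝒪] B) :
        MvPolynomial (Fin d) 𝒪 →+* B) := by
  rw [← Ideal.map_eq_bot_iff_le_ker, Ideal.map_pow, eq_bot_iff, ← hI]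
  apply Ideal.pow_right_mono
  rw [Ideal.map_span, Ideal.span_le]
  rintro _ ⟨_, ⟨i, rfl⟩, rfl⟩
  simpa using ha i

/-- evaluation of power series at a nilpotent tuple, as a ring hom -/
def evPSRing (a : Fin d → B) (N : ℕ)
    (h : MvPolynomial.idealOfVars (Fin d) 𝒪 ^ N ≤
      RingHom.ker ((MvPolynomial.aeval a : MvPolynomial (Fin d) 𝒪 →ₐ[𝒪] B) :
        MvPolynomial (Fin d) 𝒪 →+* B)) :
    MvPowerSeries (Fin d) 𝒪 →+* B :=
  (Ideal.Quotient.lift (MvPolynomial.idealOfVars (Fin d) 𝒪 ^ N)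
      ((MvPolynomial.aeval a : MvPolynomial (Fin d) 𝒪 →ₐ[𝒪] B) : MvPolynomial (Fin d) 𝒪 →+* B)
      (fun _ hp => h hp)).comp
      (MvPowerSeries.truncTotalAlgHom (Fin d) 𝒪 N).toRingHom

theorem evPSRing_apply (a : Fin d → B) (N : ℕ) (h) (f : MvPowerSeries (Fin d) 𝒪) :
    evPSRing a N h f = MvPolynomial.aeval a (MvPowerSeries.truncTotal N f) := rfl

theorem evPSRing_coe (a : Fin d → B) (N : ℕ) (h) (p : MvPolynomial (Fin d) 𝒪) :
    evPSRing a N h (p : MvPowerSeries (Fin d) 𝒪) = MvPolynomial.aeval a p := by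
  have h1 : MvPowerSeries.truncTotalAlgHom (Fin d) 𝒪 N (p : MvPowerSeries (Fin d) 𝒪) =
      Ideal.Quotient.mk _ p :=
    (MvPowerSeries.truncTotalAlgHom (Fin d) 𝒪 N).commutes p
  have h2 : evPSRing a N h (p : MvPowerSeries (Fin d) 𝒪) =
      (Ideal.Quotient.lift (MvPolynomial.idealOfVars (Fin d) 𝒪 ^ N)
      ((MvPolynomial.aeval a : MvPolynomial (Fin d) 𝒪 →ₐ[𝒪] B) : MvPolynomial (Fin d) 𝒪 →+* B)
      (fun _ hp => h hp))
        (MvPowerSeries.truncTotalAlgHom (Fin d) 𝒪 N (p : MvPowerSeries (Fin d) 𝒪)) := rfl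
  rw [h2, h1, Ideal.Quotient.lift_mk]
  rfl

/-- evaluation of power series at a nilpotent tuple -/
def evPS (a : Fin d → B) (N : ℕ)
    (h : MvPolynomial.idealOfVars (Fin d) 𝒪 ^ N ≤
      RingHom.ker ((MvPolynomial.aeval a : MvPolynomial (Fin d) 𝒪 →ₐ[𝒪] B) :
        MvPolynomial (Fin d) 𝒪 →+* B)) :
    MvPowerSeries (Fin d) 𝒪 →ₐ[𝒪] B :=
  { evPSRing a N h with
    commutes' := fun c => by
      have h1 : algebraMap 𝒪 (MvPowerSeries (Fin d) 𝒪) c =
          ((MvPolynomial.C c : MvPolynomial (Fin d) 𝒪) : MvPowerSeries (Fin d) 𝒪) :=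
        (MvPolynomial.coe_C c).symm
      show evPSRing a N h (algebraMap 𝒪 (MvPowerSeries (Fin d) 𝒪) c) = _
      rw [h1, evPSRing_coe]
      simp }

theorem evPS_apply (a : Fin d → B) (N : ℕ) (h) (f : MvPowerSeries (Fin d) 𝒪) :
    evPS a N h f = MvPolynomial.aeval a (MvPowerSeries.truncTotal N f) := rfl

theorem evPS_coe (a : Fin d → B) (N : ℕ) (h) (p : MvPolynomial (Fin d) 𝒪) :
    evPS a N h (p : MvPowerSeries (Fin d) 𝒪) = MvPolynomial.aeval a p :=
  evPSRing_coe a N h p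

theorem evPS_X (a : Fin d → B) (N : ℕ) (h) (i : Fin d) :
    evPS (𝒪 := 𝒪) a N h (MvPowerSeries.X i) = a i := by
  rw [← MvPolynomial.coe_X, evPS_coe, MvPolynomial.aeval_X]

theorem evPS_eq_of_le (a : Fin d → B) (N M : ℕ) (h) (hNM : N ≤ M) (f : MvPowerSeries (Fin d) 𝒪) :
    evPS a N h f = MvPolynomial.aeval a (MvPowerSeries.truncTotal M f) := by
  rw [evPS_apply, ← sub_eq_zero, ← map_sub]
  exact h (MvPowerSeries.truncTotal_sub_truncTotal_mem_pow_idealOfVars le_rfl hNM f)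

end EvPS

section Quot

theorem isAdicComplete_quotient' {P : Type} [CommRing P] [IsLocalRing P] [IsNoetherianRing P]
    [IsAdicComplete (maximalIdeal P) P] (K : Ideal P) [IsLocalRing (P ⧸ K)] :
    IsAdicComplete (maximalIdeal (P ⧸ K)) (P ⧸ K) := by
  haveI : IsLocalHom (algebraMap P (P ⧸ K)) :=
    IsLocalHom.of_surjective _ Ideal.Quotient.mk_surjective
  exact IsLocalRing.isAdicComplete_of_module_finite (𝒪 := P)

end Quot

section Surj

variable {𝒪 : Type} [CommRing 𝒪] [IsLocalRing 𝒪] {d : ℕ}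
  {B : Type} [CommRing B] [IsLocalRing B] [Algebra 𝒪 B]

theorem surjective_of_X_generate [Finite B] (hB : IsTestAlg 𝒪 B)
    (φ : MvPowerSeries (Fin d) 𝒪 →ₐ[𝒪] B)
    (hgen : maximalIdeal B ≤ Ideal.span (Set.range fun i => φ (MvPowerSeries.X i))) :
    Function.Surjective φ := by
  classical
  letI : Algebra (MvPowerSeries (Fin d) 𝒪) B := (φ : MvPowerSeries (Fin d) 𝒪 →+* B).toAlgebra
  have hsmul : ∀ (p : MvPowerSeries (Fin d) 𝒪) (b : B), p • b = φ p * b := fun p b => rfl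
  haveI : Module.Finite (MvPowerSeries (Fin d) 𝒪) B := Module.Finite.of_finite
  set N : Submodule (MvPowerSeries (Fin d) 𝒪) B := Submodule.span _ {1} with hN
  have hX : ∀ i, (MvPowerSeries.X i : MvPowerSeries (Fin d) 𝒪) ∈
      maximalIdeal (MvPowerSeries (Fin d) 𝒪) := by
    intro i
    rw [mem_maximalIdeal, mem_nonunits_iff, MvPowerSeries.isUnit_iff_constantCoeff]
    simp
  have h0 : (⊤ : Submodule (MvPowerSeries (Fin d) 𝒪) B) ≤
      N ⊔ maximalIdeal (MvPowerSeries (Fin d) 𝒪) • ⊤ := by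
    intro b _
    obtain ⟨a, ha⟩ := exists_sub_mem hB b
    have h1 : b = (MvPowerSeries.C a : MvPowerSeries (Fin d) 𝒪) • (1 : B) +
        (b - algebraMap 𝒪 B a) := by
      rw [hsmul]
      have : φ (MvPowerSeries.C a) = algebraMap 𝒪 B a := φ.commutes a
      rw [this]; ring
    rw [h1]
    refine Submodule.add_mem_sup (Submodule.smul_mem _ _ (Submodule.mem_span_singleton_self 1)) ?_
    obtain ⟨c, hc⟩ := (Ideal.mem_span_range_iff_exists_fun).mp (hgen ha)
    rw [← hc]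
    refine Submodule.sum_mem _ fun i _ => ?_
    have : c i * φ (MvPowerSeries.X i) = (MvPowerSeries.X i : MvPowerSeries (Fin d) 𝒪) • c i := by
      rw [hsmul, mul_comm]
    rw [this]
    exact Submodule.smul_mem_smul (hX i) Submodule.mem_top
  have h2 : (⊤ : Submodule (MvPowerSeries (Fin d) 𝒪) B) ≤ N :=
    Submodule.le_of_le_smul_of_le_jacobson_bot (Module.Finite.fg_top)
      (by rw [IsLocalRing.jacobson_eq_maximalIdeal ⊥ bot_ne_top]) h0
  intro b
  obtain ⟨p, rfl⟩ := Submodule.mem_span_singleton.mp (h2 (Submodule.mem_top (x := b)))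
  exact ⟨p, by rw [hsmul, mul_one]⟩

end Surj

section Abs

variable {𝒪 : Type} [CommRing 𝒪] [IsLocalRing 𝒪]
  {B : ℕ → Type} [∀ n, CommRing (B n)] [∀ n, IsLocalRing (B n)] [∀ n, Algebra 𝒪 (B n)]

theorem exists_generators_tower
    (test : ∀ n, IsTestAlg 𝒪 (B n)) (fin : ∀ n, Finite (B n))
    (nil : ∀ n, maximalIdeal (B n) ^ (n + 1) = ⊥)
    (π : ∀ n, B (n + 1) →ₐ[𝒪] B n)
    (ker_π : ∀ n, RingHom.ker (π n : B (n + 1) →+* B n) = maximalIdeal (B (n + 1)) ^ (n + 1))
    {F : Type} [CommRing F] [Algebra 𝒪 F] (τ : ∀ n, F →ₐ[𝒪] B n)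
    (τ_surj : ∀ n, Function.Surjective (τ n))
    (τ_comp : ∀ n, (π n).comp (τ (n + 1)) = τ n) :
    ∃ (d : ℕ) (t : Fin d → F), ∀ n, (∀ i, τ n (t i) ∈ maximalIdeal (B n)) ∧
      maximalIdeal (B n) ≤ Ideal.span (Set.range fun i => τ n (t i)) := by
  classical
  have τ_comp' : ∀ n x, π n (τ (n + 1) x) = τ n x := fun n x => by
    rw [← τ_comp n]; rfl
  have π_surj : ∀ n, Function.Surjective (π n) := fun n b => by
    obtain ⟨x, rfl⟩ := τ_surj n b
    exact ⟨τ (n + 1) x, τ_comp' n x⟩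
  have hres : ∀ n x, resk (test n) (τ n x) = resk (test 0) (τ 0 x) := by
    intro n x
    induction n with
    | zero => rfl
    | succ n ih =>
      rw [← ih, ← τ_comp' n x]
      exact (resk_algHom (test (n + 1)) (test n) (π n)
        (IsLocalHom.of_surjective _ (π_surj n)) (τ (n + 1) x)).symm
  have hfg : (maximalIdeal (B 1)).FG := by
    haveI := fin 1
    exact IsNoetherian.noetherian _
  obtain ⟨d, s, hs⟩ := Submodule.fg_iff_exists_fin_generating_family.mp hfg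
  choose t ht using fun i => τ_surj 1 (s i)
  have hmem : ∀ n i, τ n (t i) ∈ maximalIdeal (B n) := by
    intro n i
    rw [← resk_eq_zero_iff (test n), hres n, ← hres 1, resk_eq_zero_iff, ht, ← hs]
    exact Submodule.subset_span ⟨i, rfl⟩
  have hgen : ∀ n, maximalIdeal (B (n + 1)) ≤ Ideal.span (Set.range fun i => τ (n + 1) (t i)) := by
    intro n
    induction n with
    | zero =>
      have : (fun i => τ (0 + 1) (t i)) = s := funext ht
      rw [this]
      exact hs.ge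
    | succ n ih =>
      haveI := fin (n + 1 + 1)
      refine Submodule.le_of_le_smul_of_le_jacobson_bot (I := maximalIdeal (B (n + 1 + 1)))
        (IsNoetherian.noetherian _)
        (by rw [IsLocalRing.jacobson_eq_maximalIdeal ⊥ bot_ne_top]) ?_
      intro x hx
      haveI : IsLocalHom (π (n + 1) : B (n + 1 + 1) →+* B (n + 1)) :=
        IsLocalHom.of_surjective _ (π_surj (n + 1))
      have h1 : π (n + 1) x ∈ maximalIdeal (B (n + 1)) :=
        map_nonunit (π (n + 1) : B (n + 1 + 1) →+* B (n + 1)) _ hx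
      have h2 : Ideal.span (Set.range fun i => τ (n + 1) (t i)) =
          (Ideal.span (Set.range fun i => τ (n + 1 + 1) (t i))).map
            (π (n + 1) : B (n + 1 + 1) →+* B (n + 1)) := by
        rw [Ideal.map_span, ← Set.range_comp]
        congr 2
        funext i
        exact (τ_comp' (n + 1) (t i)).symm
      have h3 := ih h1
      rw [h2] at h3
      obtain ⟨y, hy, hyx⟩ := (Ideal.mem_map_iff_of_surjective
        (π (n + 1) : B (n + 1 + 1) →+* B (n + 1)) (π_surj (n + 1))).mp h3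
      have h4 : x - y ∈ RingHom.ker (π (n + 1) : B (n + 1 + 1) →+* B (n + 1)) := by
        rw [RingHom.mem_ker, map_sub, sub_eq_zero]
        exact hyx.symm
      rw [ker_π] at h4
      have h5 : maximalIdeal (B (n + 1 + 1)) ^ (n + 1 + 1) ≤
          maximalIdeal (B (n + 1 + 1)) • maximalIdeal (B (n + 1 + 1)) := by
        rw [smul_eq_mul, ← pow_two]
        exact Ideal.pow_le_pow_right (by omega)
      have : x = y + (x - y) := by ring
      rw [this]
      exact Submodule.add_mem_sup hy (h5 h4)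
  refine ⟨d, t, fun n => ⟨hmem n, ?_⟩⟩
  cases n with
  | zero =>
    have := nil 0
    rw [zero_add, pow_one] at this
    rw [this]
    exact bot_le
  | succ n => exact hgen n

theorem isTestAlg_mvPowerSeries (d : ℕ) : IsTestAlg 𝒪 (MvPowerSeries (Fin d) 𝒪) where
  isLocalHom := by
    constructor
    intro c hc
    have h1 : algebraMap 𝒪 (MvPowerSeries (Fin d) 𝒪) c = MvPowerSeries.C c := rfl
    rw [h1, MvPowerSeries.isUnit_iff_constantCoeff, MvPowerSeries.constantCoeff_C] at hc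
    exact hc
  residue_surjective := by
    intro x
    obtain ⟨f, rfl⟩ := residue_surjective x
    refine ⟨MvPowerSeries.constantCoeff f, ?_⟩
    have h1 : algebraMap 𝒪 (MvPowerSeries (Fin d) 𝒪) (MvPowerSeries.constantCoeff f) =
      MvPowerSeries.C (MvPowerSeries.constantCoeff f) := rfl
    rw [Function.comp_apply, h1, ← sub_eq_zero, ← map_sub, residue_eq_zero_iff, mem_maximalIdeal,
      mem_nonunits_iff, MvPowerSeries.isUnit_iff_constantCoeff]
    simp

theorem exists_limitRing_abs [IsNoetherianRing 𝒪] [IsAdicComplete (maximalIdeal 𝒪) 𝒪]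
    (test : ∀ n, IsTestAlg 𝒪 (B n)) (fin : ∀ n, Finite (B n))
    (nil : ∀ n, maximalIdeal (B n) ^ (n + 1) = ⊥)
    (π : ∀ n, B (n + 1) →ₐ[𝒪] B n)
    (ker_π : ∀ n, RingHom.ker (π n : B (n + 1) →+* B n) = maximalIdeal (B (n + 1)) ^ (n + 1))
    {F : Type} [CommRing F] [Algebra 𝒪 F] (τ : ∀ n, F →ₐ[𝒪] B n)
    (τ_surj : ∀ n, Function.Surjective (τ n))
    (τ_comp : ∀ n, (π n).comp (τ (n + 1)) = τ n) :
    ∃ (R : Type) (_ : CommRing R) (_ : IsLocalRing R) (_ : IsNoetherianRing R)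
      (_ : IsAdicComplete (maximalIdeal R) R) (_ : Algebra 𝒪 R) (p : ∀ n, R →ₐ[𝒪] B n),
      IsTestAlg 𝒪 R ∧ (∀ n, Function.Surjective (p n)) ∧ (∀ n, (π n).comp (p (n + 1)) = p n) ∧
      (∀ n, RingHom.ker (p n : R →+* B n) = maximalIdeal R ^ (n + 1)) ∧
      (∀ x : ∀ n, B n, (∀ n, π n (x (n + 1)) = x n) → ∃ y : R, ∀ n, p n y = x n) := by
  classical
  obtain ⟨d, t, ht⟩ := exists_generators_tower test fin nil π ker_π τ τ_surj τ_comp
  have τ_comp' : ∀ n x, π n (τ (n + 1) x) = τ n x := fun n x => by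
    rw [← τ_comp n]; rfl
  haveI : IsAdicComplete (maximalIdeal (MvPowerSeries (Fin d) 𝒪)) (MvPowerSeries (Fin d) 𝒪) :=
    isAdicComplete_mvPowerSeries d
  let a : ∀ n, Fin d → B n := fun n i => τ n (t i)
  have hker : ∀ n, MvPolynomial.idealOfVars (Fin d) 𝒪 ^ (n + 1) ≤
      RingHom.ker ((MvPolynomial.aeval (a n) : MvPolynomial (Fin d) 𝒪 →ₐ[𝒪] B n) :
        MvPolynomial (Fin d) 𝒪 →+* B n) :=
    fun n => idealOfVars_pow_le_ker (a n) (n + 1) (maximalIdeal (B n)) (ht n).1 (nil n)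
  let ev : ∀ n, MvPowerSeries (Fin d) 𝒪 →ₐ[𝒪] B n := fun n => evPS (a n) (n + 1) (hker n)
  have ev_X : ∀ n i, ev n (MvPowerSeries.X i) = a n i := fun n i => evPS_X _ _ _ _
  have ev_surj : ∀ n, Function.Surjective (ev n) := fun n => by
    haveI := fin n
    apply surjective_of_X_generate (test n)
    simp_rw [ev_X]
    exact (ht n).2
  have haeval : ∀ n, (π n).comp (MvPolynomial.aeval (a (n + 1))) =
      (MvPolynomial.aeval (a n) : MvPolynomial (Fin d) 𝒪 →ₐ[𝒪] B n) := by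
    intro n
    apply MvPolynomial.algHom_ext
    intro i
    simp [a, τ_comp']
  have ev_comp : ∀ n f, π n (ev (n + 1) f) = ev n f := by
    intro n f
    have h1 : ev n f = MvPolynomial.aeval (a n) (MvPowerSeries.truncTotal (n + 1 + 1) f) :=
      evPS_eq_of_le (a n) (n + 1) (n + 1 + 1) (hker n) (by omega) f
    rw [h1, ← haeval n]
    rfl
  let K : ℕ → Ideal (MvPowerSeries (Fin d) 𝒪) :=
    fun n => RingHom.ker (ev n : MvPowerSeries (Fin d) 𝒪 →+* B n)
  have hmap : ∀ n, (maximalIdeal (MvPowerSeries (Fin d) 𝒪)).map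
      (ev n : MvPowerSeries (Fin d) 𝒪 →+* B n) = maximalIdeal (B n) :=
    fun n => IsLocalRing.map_maximalIdeal_of_surjective _ (ev_surj n)
  have h1 : ∀ j, maximalIdeal (MvPowerSeries (Fin d) 𝒪) ^ (j + 1) ≤ K j := by
    intro j
    rw [← Ideal.map_eq_bot_iff_le_ker, Ideal.map_pow, hmap, nil]
  have h2 : ∀ j, K (j + 1) ≤ K j := by
    intro j x hx
    have hx' : ev (j + 1) x = 0 := hx
    show ev j x = 0
    rw [← ev_comp, hx', map_zero]
  have h3 : ∀ j, K j ≤ K (j + 1) ⊔ maximalIdeal (MvPowerSeries (Fin d) 𝒪) ^ (j + 1) := by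
    intro j x hx
    have hx' : ev j x = 0 := hx
    have h4 : ev (j + 1) x ∈ RingHom.ker (π j : B (j + 1) →+* B j) := by
      show π j (ev (j + 1) x) = 0
      rw [ev_comp, hx']
    rw [ker_π, ← hmap, ← Ideal.map_pow] at h4
    obtain ⟨y, hy, hyx⟩ := (Ideal.mem_map_iff_of_surjective
      (ev (j + 1) : MvPowerSeries (Fin d) 𝒪 →+* B (j + 1)) (ev_surj (j + 1))).mp h4
    have h5 : x - y ∈ K (j + 1) := by
      show ev (j + 1) (x - y) = 0
      rw [map_sub, sub_eq_zero]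
      exact hyx.symm
    have : x = (x - y) + y := by ring
    rw [this]
    exact Submodule.add_mem_sup h5 hy
  obtain ⟨hlift, hK⟩ := lim_lemma' (maximalIdeal (MvPowerSeries (Fin d) 𝒪)) K h1 h2 h3
  set Kinf : Ideal (MvPowerSeries (Fin d) 𝒪) := ⨅ i, K i with hKinf
  have hne : Kinf ≠ ⊤ := by
    intro h
    have h4 : K 0 = ⊤ := top_le_iff.mp (h ▸ iInf_le K 0)
    exact RingHom.ker_ne_top _ h4
  haveI : IsLocalRing (MvPowerSeries (Fin d) 𝒪 ⧸ Kinf) := isLocalRing_quotient Kinf hne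
  haveI : IsAdicComplete (maximalIdeal (MvPowerSeries (Fin d) 𝒪 ⧸ Kinf))
    (MvPowerSeries (Fin d) 𝒪 ⧸ Kinf) := isAdicComplete_quotient' Kinf
  let p : ∀ n, (MvPowerSeries (Fin d) 𝒪 ⧸ Kinf) →ₐ[𝒪] B n := fun n =>
    Ideal.Quotient.liftₐ Kinf (ev n) (fun x hx => (iInf_le K n) hx)
  have p_mk : ∀ n f, p n (Ideal.Quotient.mk Kinf f) = ev n f := fun n f => rfl
  have hmR : maximalIdeal (MvPowerSeries (Fin d) 𝒪 ⧸ Kinf) =
      (maximalIdeal (MvPowerSeries (Fin d) 𝒪)).map (Ideal.Quotient.mk Kinf) :=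
    (IsLocalRing.map_maximalIdeal_of_surjective _ Ideal.Quotient.mk_surjective).symm
  refine ⟨MvPowerSeries (Fin d) 𝒪 ⧸ Kinf, inferInstance, inferInstance, inferInstance,
    inferInstance, inferInstance, p, ?_, ?_, ?_, ?_, ?_⟩
  · exact isTestAlg_of_surjective (isTestAlg_mvPowerSeries d) (Ideal.Quotient.mkₐ 𝒪 Kinf)
      (Ideal.Quotient.mkₐ_surjective 𝒪 _)
  · intro n b
    obtain ⟨f, rfl⟩ := ev_surj n b
    exact ⟨Ideal.Quotient.mk Kinf f, p_mk n f⟩
  · intro n
    ext x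
    obtain ⟨f, rfl⟩ := Ideal.Quotient.mk_surjective x
    show π n (p (n + 1) (Ideal.Quotient.mk Kinf f)) = p n (Ideal.Quotient.mk Kinf f)
    rw [p_mk, p_mk, ev_comp]
  · intro n
    rw [hmR, ← Ideal.map_pow]
    ext x
    obtain ⟨f, rfl⟩ := Ideal.Quotient.mk_surjective x
    constructor
    · intro hx
      have hx' : f ∈ K n := hx
      obtain ⟨u, hu, v, hv, rfl⟩ := Submodule.mem_sup.mp (hK n hx')
      rw [map_add, Ideal.Quotient.eq_zero_iff_mem.mpr hu, zero_add]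
      exact Ideal.mem_map_of_mem _ hv
    · intro hx
      obtain ⟨v, hv, hvx⟩ := (Ideal.mem_map_iff_of_surjective
        (Ideal.Quotient.mk Kinf) Ideal.Quotient.mk_surjective).mp hx
      rw [← hvx]
      exact h1 n hv
  · intro x hx
    choose f hf using fun n => ev_surj n (x n)
    obtain ⟨y, hy⟩ := hlift f (fun j => by
      show ev j (f (j + 1) - f j) = 0
      rw [map_sub, ← ev_comp, hf, hf, hx, sub_self])
    refine ⟨Ideal.Quotient.mk Kinf y, fun n => ?_⟩
    have h4 : ev n (y - f n) = 0 := hy n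
    rw [map_sub, sub_eq_zero, hf] at h4
    rw [p_mk, h4]

end Abs

theorem exists_limitRing
    (𝒪 : Type) [CommRing 𝒪] [IsDomain 𝒪] [IsDiscreteValuationRing 𝒪]
    [IsAdicComplete (IsLocalRing.maximalIdeal 𝒪) 𝒪] [Finite (IsLocalRing.ResidueField 𝒪)]
    (rbar : Gal →* M2 (ResidueField 𝒪))
    (𝒟 : ∀ ⦃A : Type⦄ [CommRing A] [IsLocalRing A] [Algebra 𝒪 A], GaloisRepAdic A → Prop)
    (T : Tower 𝒪 rbar 𝒟) : Nonempty (LimitRing T) := by
  have τ_comp : ∀ n, (T.π n).comp (traceHom (𝒪 := 𝒪) (T.D (n + 1)).r) =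
      traceHom (𝒪 := 𝒪) (T.D n).r := by
    intro n
    apply MvPolynomial.algHom_ext
    intro σ
    rw [AlgHom.comp_apply, traceHom_X, traceHom_X, ← T.π_r n, mapRep_apply]
    simp [Matrix.trace, Matrix.map_apply]
  obtain ⟨R, i1, i2, i3, i4, i5, p, h1, h2, h3, h4, h5⟩ :=
    exists_limitRing_abs (𝒪 := 𝒪) (B := fun n => (T.D n).B)
      (fun n => toTest (T.D n).test) (fun n => finite_of_artinianTest (T.D n).test)
      (fun n => (T.D n).nil) T.π T.ker_π (fun n => traceHom (𝒪 := 𝒪) (T.D n).r) T.surj τ_comp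
  exact ⟨{ R := R, test := h1, p := p, p_surj := h2, p_comp := h3, ker_p := h4, lift_seq := h5 }⟩

end Fermat.Agent.S53lib

end
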