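import Mathlib
import Fermat.Agent.S53lib.Defs
import Fermat.Agent.S53lib.Iface
import Fermat.Agent.S53lib.TestAlg

set_option autoImplicit false
set_option linter.unusedSectionVars false
set_option linter.style.haveILetI false
set_option linter.unusedSimpArgs false

noncomputable section

namespace Fermat.Agent.S53lib

open IsLocalRing Matrix GaloisRep

section Alg

variable (𝒪 : Type) [CommRing 𝒪] [IsLocalRing 𝒪]

/-- the `𝒪`-algebra structure on the dual numbers used in `TangentFinite` -/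
@[reducible] def dualAlg : Algebra 𝒪 (DualNumber (ResidueField 𝒪)) :=
  ((algebraMap (ResidueField 𝒪) (DualNumber (ResidueField 𝒪))).comp
      (algebraMap 𝒪 (ResidueField 𝒪))).toAlgebra

/-- the algebra structure on the residue field of the dual numbers used in `TangentFinite` -/
@[reducible] def dualResAlg :
    Algebra (ResidueField 𝒪) (ResidueField (DualNumber (ResidueField 𝒪))) :=
  ((IsLocalRing.residue (DualNumber (ResidueField 𝒪))).comp
      (algebraMap (ResidueField 𝒪) (DualNumber (ResidueField 𝒪)))).toAlgebra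

end Alg

section MkHom

variable {𝒪 : Type} [CommRing 𝒪] [IsLocalRing 𝒪]
variable {B : Type} [CommRing B] [IsLocalRing B] [Algebra 𝒪 B]

theorem leibniz_of_functional (hB : IsTestAlg 𝒪 B) (ℓ : B →ₗ[𝒪] ResidueField 𝒪) (h1 : ℓ 1 = 0)
    (h2 : ∀ x ∈ maximalIdeal B, ∀ y ∈ maximalIdeal B, ℓ (x * y) = 0) (x y : B) :
    ℓ (x * y) = resk hB x * ℓ y + resk hB y * ℓ x := by
  obtain ⟨a, ha⟩ := exists_sub_mem hB x
  obtain ⟨a', ha'⟩ := exists_sub_mem hB y
  set u := x - algebraMap 𝒪 B a with hu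
  set u' := y - algebraMap 𝒪 B a' with hu'
  have hx : x = a • (1 : B) + u := by rw [hu, Algebra.smul_def, mul_one]; ring
  have hy : y = a' • (1 : B) + u' := by rw [hu', Algebra.smul_def, mul_one]; ring
  have hrx : resk hB x = residue 𝒪 a := by
    rw [hx, map_add, (resk_eq_zero_iff hB u).mpr ha, add_zero, map_smul, map_one,
      Algebra.smul_def, mul_one]; rfl
  have hry : resk hB y = residue 𝒪 a' := by
    rw [hy, map_add, (resk_eq_zero_iff hB u').mpr ha', add_zero, map_smul, map_one,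
      Algebra.smul_def, mul_one]; rfl
  have hxy : x * y = (a * a') • (1 : B) + a • u' + a' • u + u * u' := by
    rw [hx, hy]
    simp only [Algebra.smul_def, mul_one, map_mul]
    ring
  have hlx : ℓ x = ℓ u := by rw [hx, map_add, map_smul, h1, smul_zero, zero_add]
  have hly : ℓ y = ℓ u' := by rw [hy, map_add, map_smul, h1, smul_zero, zero_add]
  rw [hxy, map_add, map_add, map_add, map_smul, map_smul, map_smul, h1, smul_zero, zero_add,
    h2 u ha u' ha', add_zero, hrx, hry, hlx, hly, Algebra.smul_def, Algebra.smul_def]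
  rfl

/-- the algebra hom to the dual numbers attached to a functional killing `1` and `𝔪²` -/
def mkHom (hB : IsTestAlg 𝒪 B) (ℓ : B →ₗ[𝒪] ResidueField 𝒪) (h1 : ℓ 1 = 0)
    (h2 : ∀ x ∈ maximalIdeal B, ∀ y ∈ maximalIdeal B, ℓ (x * y) = 0) :
    letI := dualAlg 𝒪
    B →ₐ[𝒪] DualNumber (ResidueField 𝒪) :=
  letI := dualAlg 𝒪
  { toFun := fun b => TrivSqZeroExt.inl (resk hB b) + TrivSqZeroExt.inr (ℓ b)
    map_one' := by rw [map_one, h1]; simp
    map_mul' := fun x y => by
      rw [leibniz_of_functional hB ℓ h1 h2 x y, map_mul]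
      ext <;> simp [mul_comm]
    map_zero' := by simp
    map_add' := fun x y => by
      rw [map_add, map_add]
      ext <;> simp
    commutes' := fun c => by
      have : ℓ (algebraMap 𝒪 B c) = 0 := by
        rw [Algebra.algebraMap_eq_smul_one, map_smul, h1, smul_zero]
      rw [this, (resk hB).commutes]
      simp
      rfl }

theorem snd_mkHom (hB : IsTestAlg 𝒪 B) (ℓ : B →ₗ[𝒪] ResidueField 𝒪) (h1 : ℓ 1 = 0)
    (h2 : ∀ x ∈ maximalIdeal B, ∀ y ∈ maximalIdeal B, ℓ (x * y) = 0) (x : B) :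
    TrivSqZeroExt.snd (mkHom hB ℓ h1 h2 x) = ℓ x := by
  show TrivSqZeroExt.snd (TrivSqZeroExt.inl (resk hB x) + TrivSqZeroExt.inr (ℓ x)) = ℓ x
  simp

end MkHom

section Gen

variable {𝒪 : Type} [CommRing 𝒪] [IsLocalRing 𝒪]
variable {B : Type} [CommRing B] [IsLocalRing B] [Algebra 𝒪 B]

/-- the `𝒪`-submodule `𝒪·1 + 𝔪² + 𝔪_𝒪 B` -/
def tanSub (𝒪 : Type) [CommRing 𝒪] [IsLocalRing 𝒪] (B : Type) [CommRing B] [IsLocalRing B]
    [Algebra 𝒪 B] : Submodule 𝒪 B :=
  Submodule.span 𝒪 {1} ⊔ ((maximalIdeal B) ^ 2).restrictScalars 𝒪 ⊔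
    (maximalIdeal 𝒪) • (⊤ : Submodule 𝒪 B)

theorem one_mem_tanSub : (1 : B) ∈ tanSub 𝒪 B :=
  Submodule.mem_sup_left (Submodule.mem_sup_left (Submodule.mem_span_singleton_self 1))

theorem mul_mem_tanSub {x y : B} (hx : x ∈ maximalIdeal B) (hy : y ∈ maximalIdeal B) :
    x * y ∈ tanSub 𝒪 B := by
  refine Submodule.mem_sup_left (Submodule.mem_sup_right ?_)
  rw [Submodule.restrictScalars_mem, pow_two]
  exact Ideal.mul_mem_mul hx hy

theorem isTorsionBySet_tan :
    Module.IsTorsionBySet 𝒪 (B ⧸ tanSub 𝒪 B) (maximalIdeal 𝒪 : Set 𝒪) := by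
  intro v a
  obtain ⟨b, rfl⟩ := Submodule.Quotient.mk_surjective _ v
  rw [← Submodule.Quotient.mk_smul, Submodule.Quotient.mk_eq_zero]
  exact Submodule.mem_sup_right (Submodule.smul_mem_smul a.2 Submodule.mem_top)

/-- the vector space structure on the (reduced) tangent quotient -/
@[reducible] def tanModule : Module (ResidueField 𝒪) (B ⧸ tanSub 𝒪 B) :=
  (isTorsionBySet_tan (𝒪 := 𝒪) (B := B)).module

theorem residue_smul_tan (a : 𝒪) (v : B ⧸ tanSub 𝒪 B) :
    letI := tanModule (𝒪 := 𝒪) (B := B)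
    (residue 𝒪 a) • v = a • v := rfl

theorem smul_top_le_map :
    ((maximalIdeal 𝒪) • (⊤ : Submodule 𝒪 B)) ≤
      ((maximalIdeal 𝒪).map (algebraMap 𝒪 B)).restrictScalars 𝒪 := by
  rw [Submodule.smul_le]
  intro a ha b _
  rw [Submodule.restrictScalars_mem, Algebra.smul_def]
  exact Ideal.mul_mem_right _ _ (Ideal.mem_map_of_mem _ ha)

set_option maxHeartbeats 1000000 in
theorem exists_generators (hB : IsTestAlg 𝒪 B) [Finite B] (c : ℕ)
    (hc : letI := dualAlg 𝒪
      ∀ (e : ℕ) (f : Fin e → (B →ₐ[𝒪] DualNumber (ResidueField 𝒪))),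
        Function.Injective f → e ≤ c) :
    ∃ t : Fin c → B, (∀ i, t i ∈ maximalIdeal B) ∧
      maximalIdeal B = Ideal.span (Set.range t) ⊔ (maximalIdeal 𝒪).map (algebraMap 𝒪 B) := by
  classical
  letI := dualAlg 𝒪
  letI := tanModule (𝒪 := 𝒪) (B := B)
  haveI : IsScalarTower 𝒪 (ResidueField 𝒪) (B ⧸ tanSub 𝒪 B) :=
    ⟨fun a x v => by
      obtain ⟨x, rfl⟩ := residue_surjective x
      show (a • residue 𝒪 x) • v = a • (residue 𝒪 x • v)
      rw [Algebra.smul_def]
      show (residue 𝒪 a * residue 𝒪 x) • v = _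
      rw [← map_mul, residue_smul_tan, residue_smul_tan, mul_smul]⟩
  haveI : Finite (B ⧸ tanSub 𝒪 B) :=
    Finite.of_surjective _ (Submodule.Quotient.mk_surjective (tanSub 𝒪 B))
  haveI : Module.Finite (ResidueField 𝒪) (B ⧸ tanSub 𝒪 B) := Module.Finite.of_finite
  haveI := hB.isLocalHom
  set e := Module.finrank (ResidueField 𝒪) (B ⧸ tanSub 𝒪 B) with he
  let bV := Module.finBasis (ResidueField 𝒪) (B ⧸ tanSub 𝒪 B)
  let ℓ : Fin e → (B →ₗ[𝒪] ResidueField 𝒪) := fun i =>
    ((bV.coord i).restrictScalars 𝒪).comp (tanSub 𝒪 B).mkQ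
  have hℓ : ∀ i x, ℓ i x = bV.coord i (Submodule.Quotient.mk x) := fun i x => rfl
  have h1 : ∀ i, ℓ i 1 = 0 := fun i => by
    rw [hℓ, (Submodule.Quotient.mk_eq_zero _).mpr one_mem_tanSub, map_zero]
  have h2 : ∀ i, ∀ x ∈ maximalIdeal B, ∀ y ∈ maximalIdeal B, ℓ i (x * y) = 0 :=
    fun i x hx y hy => by
      rw [hℓ, (Submodule.Quotient.mk_eq_zero _).mpr (mul_mem_tanSub hx hy), map_zero]
  have hec : e ≤ c := by
    refine hc e (fun i => mkHom hB (ℓ i) (h1 i) (h2 i)) ?_
    intro i j hij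
    obtain ⟨x, hx⟩ := Submodule.Quotient.mk_surjective _ (bV i)
    have := congrArg (fun f => TrivSqZeroExt.snd (f x)) hij
    simp only [snd_mkHom, hℓ, hx, Module.Basis.coord_apply, Module.Basis.repr_self] at this
    by_contra hne
    simp [Finsupp.single_apply, hne] at this
  -- lifts of the basis in the maximal ideal
  have hlift : ∀ i : Fin e, ∃ s ∈ maximalIdeal B, (Submodule.Quotient.mk s : B ⧸ tanSub 𝒪 B) = bV i := by
    intro i
    obtain ⟨x, hx⟩ := Submodule.Quotient.mk_surjective _ (bV i)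
    obtain ⟨a, ha⟩ := exists_sub_mem hB x
    refine ⟨_, ha, ?_⟩
    rw [Submodule.Quotient.mk_sub, hx, Algebra.algebraMap_eq_smul_one, Submodule.Quotient.mk_smul,
      (Submodule.Quotient.mk_eq_zero _).mpr one_mem_tanSub, smul_zero, sub_zero]
  choose s hsm hs using hlift
  let t : Fin c → B := fun i => if h : (i : ℕ) < e then s ⟨i, h⟩ else 0
  have hts : ∀ i : Fin e, s i ∈ Ideal.span (Set.range t) := by
    intro i
    apply Ideal.subset_span
    refine ⟨⟨i, lt_of_lt_of_le i.2 hec⟩, ?_⟩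
    simp [t]
  have htm : ∀ i, t i ∈ maximalIdeal B := by
    intro i
    simp only [t]
    split_ifs with h
    · exact hsm _
    · exact zero_mem _
  refine ⟨t, htm, ?_⟩
  set N := Ideal.span (Set.range t) ⊔ (maximalIdeal 𝒪).map (algebraMap 𝒪 B) with hN
  have hNle : N ≤ maximalIdeal B := by
    refine sup_le (Ideal.span_le.mpr ?_) ?_
    · rintro _ ⟨i, rfl⟩; exact htm i
    · exact ((local_hom_TFAE (algebraMap 𝒪 B)).out 0 2).mp hB.isLocalHom
  refine le_antisymm ?_ hNle
  haveI : IsNoetherianRing B := inferInstance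
  refine Submodule.le_of_le_smul_of_le_jacobson_bot (I := maximalIdeal B)
    (IsNoetherian.noetherian _) (IsLocalRing.maximalIdeal_le_jacobson _) ?_
  intro u hu
  -- expand the class of `u` in the basis
  have hrepr := bV.sum_repr (Submodule.Quotient.mk u : B ⧸ tanSub 𝒪 B)
  choose a ha using fun i => residue_surjective (bV.repr (Submodule.Quotient.mk u) i)
  have hmem : u - ∑ i, a i • s i ∈ tanSub 𝒪 B := by
    rw [← Submodule.Quotient.mk_eq_zero, Submodule.Quotient.mk_sub, sub_eq_zero]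
    conv_lhs => rw [← hrepr]
    rw [← Submodule.mkQ_apply (tanSub 𝒪 B) (∑ i, a i • s i), map_sum]
    refine Finset.sum_congr rfl fun i _ => ?_
    rw [map_smul, Submodule.mkQ_apply, hs, ← ha i, residue_smul_tan]
  obtain ⟨y, hy, z, hz, hyz⟩ := Submodule.mem_sup.mp hmem
  obtain ⟨x, hx, w, hw, hxw⟩ := Submodule.mem_sup.mp hy
  obtain ⟨a0, rfl⟩ := Submodule.mem_span_singleton.mp hx
  have hz' : z ∈ (maximalIdeal 𝒪).map (algebraMap 𝒪 B) := smul_top_le_map hz
  have hw' : w ∈ maximalIdeal B ^ 2 := hw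
  have hsum : ∑ i, a i • s i ∈ Ideal.span (Set.range t) := by
    refine Ideal.sum_mem _ fun i _ => ?_
    rw [Algebra.smul_def]
    exact Ideal.mul_mem_left _ _ (hts i)
  have ha0 : a0 ∈ maximalIdeal 𝒪 := by
    by_contra hcon
    have hunit : IsUnit a0 := by simpa using hcon
    have h3 : a0 • (1 : B) ∈ maximalIdeal B := by
      have : a0 • (1 : B) = u - ∑ i, a i • s i - w - z := by
        rw [← hyz, ← hxw]; ring
      rw [this]
      refine Ideal.sub_mem _ (Ideal.sub_mem _ (Ideal.sub_mem _ hu ?_) ?_) ?_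
      · exact hNle (Ideal.mem_sup_left hsum)
      · exact Ideal.pow_le_self two_ne_zero hw'
      · exact hNle (Ideal.mem_sup_right hz')
    rw [Algebra.smul_def, mul_one] at h3
    exact h3 (hunit.map (algebraMap 𝒪 B))
  have hu' : u = (∑ i, a i • s i + a0 • (1 : B) + z) + w := by
    have : u - ∑ i, a i • s i = a0 • (1 : B) + w + z := by rw [← hyz, ← hxw]
    linear_combination this
  rw [hu']
  refine Submodule.add_mem_sup ?_ ?_
  · refine N.add_mem (N.add_mem (Ideal.mem_sup_left hsum) ?_) (Ideal.mem_sup_right hz')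
    rw [Algebra.smul_def, mul_one]
    exact Ideal.mem_sup_right (Ideal.mem_map_of_mem _ ha0)
  · rw [smul_eq_mul, ← pow_two]; exact hw'

end Gen

end Fermat.Agent.S53lib

end
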