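import Mathlib
import Fermat.Agent.S53lib.TangentA

set_option autoImplicit false
set_option linter.unusedSectionVars false
set_option linter.style.haveILetI false
set_option linter.unusedSimpArgs false

noncomputable section

namespace Fermat.Agent.S53lib

open IsLocalRing Matrix GaloisRep

section Poly

variable (𝒪 : Type) [CommRing 𝒪] [IsLocalRing 𝒪]

/-- the augmentation of the polynomial ring -/
def polyAug (c : ℕ) : MvPolynomial (Fin c) 𝒪 →ₐ[𝒪] ResidueField 𝒪 :=
  MvPolynomial.aeval (fun _ => 0)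

/-- the augmentation ideal of the polynomial ring -/
def polyMax (c : ℕ) : Ideal (MvPolynomial (Fin c) 𝒪) := RingHom.ker (polyAug 𝒪 c)

theorem finite_quotient_polyMax_pow [IsNoetherianRing 𝒪] [Finite (ResidueField 𝒪)] (c n : ℕ) :
    Finite (MvPolynomial (Fin c) 𝒪 ⧸ polyMax 𝒪 c ^ n) := by
  haveI : Finite (MvPolynomial (Fin c) 𝒪 ⧸ polyMax 𝒪 c) := by
    have := RingHom.kerLift_injective
      ((polyAug 𝒪 c : MvPolynomial (Fin c) 𝒪 →ₐ[𝒪] ResidueField 𝒪) :
        MvPolynomial (Fin c) 𝒪 →+* ResidueField 𝒪)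
    exact Finite.of_injective _ this
  exact Ideal.finite_quotient_pow (IsNoetherian.noetherian _) n

variable {𝒪}
variable {B : Type} [CommRing B] [IsLocalRing B] [Algebra 𝒪 B]

theorem card_le_of_generators [IsNoetherianRing 𝒪] [Finite (ResidueField 𝒪)]
    (hB : IsTestAlg 𝒪 B) (c n : ℕ) (hn : maximalIdeal B ^ (n + 1) = ⊥)
    (t : Fin c → B) (htm : ∀ i, t i ∈ maximalIdeal B)
    (ht : maximalIdeal B = Ideal.span (Set.range t) ⊔ (maximalIdeal 𝒪).map (algebraMap 𝒪 B)) :
    Nat.card B ≤ Nat.card (MvPolynomial (Fin c) 𝒪 ⧸ polyMax 𝒪 c ^ (n + 1)) := by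
  classical
  let F : MvPolynomial (Fin c) 𝒪 →ₐ[𝒪] B := MvPolynomial.aeval t
  have hcomp : (resk hB).comp F = polyAug 𝒪 c := by
    apply MvPolynomial.algHom_ext
    intro i
    simp [F, polyAug, (resk_eq_zero_iff hB _).mpr (htm i)]
  have hFm : ∀ p ∈ polyMax 𝒪 c, F p ∈ maximalIdeal B := by
    intro p hp
    rw [← resk_eq_zero_iff hB]
    have : (resk hB).comp F p = 0 := by rw [hcomp]; exact hp
    exact this
  have hmap : (polyMax 𝒪 c).map (F : MvPolynomial (Fin c) 𝒪 →+* B) ≤ maximalIdeal B :=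
    Ideal.map_le_iff_le_comap.mpr hFm
  have hker : ∀ p ∈ polyMax 𝒪 c ^ (n + 1), F p = 0 := by
    intro p hp
    have h1 : F p ∈ ((polyMax 𝒪 c) ^ (n + 1)).map (F : MvPolynomial (Fin c) 𝒪 →+* B) :=
      Ideal.mem_map_of_mem _ hp
    rw [Ideal.map_pow] at h1
    have h2 := Ideal.pow_right_mono hmap (n + 1) h1
    rw [hn] at h2
    exact h2
  letI : Algebra (MvPolynomial (Fin c) 𝒪) B := (F : MvPolynomial (Fin c) 𝒪 →+* B).toAlgebra
  have hsmul : ∀ (p : MvPolynomial (Fin c) 𝒪) (b : B), p • b = F p * b := fun p b => rfl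
  set 𝔫 := polyMax 𝒪 c with h𝔫
  set N : Submodule (MvPolynomial (Fin c) 𝒪) B := Submodule.span _ {1} with hN
  have hX : ∀ i, (MvPolynomial.X i : MvPolynomial (Fin c) 𝒪) ∈ 𝔫 := by
    intro i
    show polyAug 𝒪 c (MvPolynomial.X i) = 0
    simp [polyAug]
  have hC : ∀ a ∈ maximalIdeal 𝒪, (MvPolynomial.C a : MvPolynomial (Fin c) 𝒪) ∈ 𝔫 := by
    intro a ha
    show polyAug 𝒪 c (MvPolynomial.C a) = 0
    simp only [polyAug, MvPolynomial.aeval_C]
    exact (residue_eq_zero_iff a).mpr ha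
  have hm : ∀ u ∈ maximalIdeal B, u ∈ 𝔫 • (⊤ : Submodule (MvPolynomial (Fin c) 𝒪) B) := by
    intro u hu
    rw [ht] at hu
    obtain ⟨y, hy, z, hz, rfl⟩ := Submodule.mem_sup.mp hu
    refine Submodule.add_mem _ ?_ ?_
    · refine Submodule.span_induction ?_ ?_ ?_ ?_ hy
      · rintro _ ⟨i, rfl⟩
        have : t i = (MvPolynomial.X i : MvPolynomial (Fin c) 𝒪) • (1 : B) := by
          rw [hsmul]; simp [F]
        rw [this]
        exact Submodule.smul_mem_smul (hX i) Submodule.mem_top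
      · exact Submodule.zero_mem _
      · intro x y _ _ hx hy; exact Submodule.add_mem _ hx hy
      · intro b x _ hx
        rw [smul_eq_mul]
        refine Submodule.smul_induction_on hx ?_ ?_
        · intro p hp w _
          have : b * p • w = p • (b * w) := by rw [hsmul, hsmul]; ring
          rw [this]
          exact Submodule.smul_mem_smul hp Submodule.mem_top
        · intro x y hx hy; rw [mul_add]; exact Submodule.add_mem _ hx hy
    · refine Submodule.span_induction ?_ ?_ ?_ ?_ hz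
      · rintro _ ⟨a, ha, rfl⟩
        have : algebraMap 𝒪 B a = (MvPolynomial.C a : MvPolynomial (Fin c) 𝒪) • (1 : B) := by
          rw [hsmul]; simp [F]
        rw [this]
        exact Submodule.smul_mem_smul (hC a ha) Submodule.mem_top
      · exact Submodule.zero_mem _
      · intro x y _ _ hx hy; exact Submodule.add_mem _ hx hy
      · intro b x _ hx
        rw [smul_eq_mul]
        refine Submodule.smul_induction_on hx ?_ ?_
        · intro p hp w _
          have : b * p • w = p • (b * w) := by rw [hsmul, hsmul]; ring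
          rw [this]
          exact Submodule.smul_mem_smul hp Submodule.mem_top
        · intro x y hx hy; rw [mul_add]; exact Submodule.add_mem _ hx hy
  have h0 : (⊤ : Submodule (MvPolynomial (Fin c) 𝒪) B) ≤ N ⊔ 𝔫 • ⊤ := by
    intro b _
    obtain ⟨a, ha⟩ := exists_sub_mem hB b
    have : b = (MvPolynomial.C a : MvPolynomial (Fin c) 𝒪) • (1 : B) + (b - algebraMap 𝒪 B a) := by
      rw [hsmul]; simp [F]
    rw [this]
    exact Submodule.add_mem_sup (Submodule.smul_mem _ _ (Submodule.mem_span_singleton_self 1))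
      (hm _ ha)
  have hstep : ∀ j : ℕ, (⊤ : Submodule (MvPolynomial (Fin c) 𝒪) B) ≤ N ⊔ 𝔫 ^ j • ⊤ := by
    intro j
    induction j with
    | zero => rw [pow_zero, Ideal.one_eq_top, Submodule.top_smul]; exact le_sup_right
    | succ j ih =>
      calc (⊤ : Submodule (MvPolynomial (Fin c) 𝒪) B) ≤ N ⊔ 𝔫 ^ j • ⊤ := ih
        _ ≤ N ⊔ 𝔫 ^ j • (N ⊔ 𝔫 • ⊤) := sup_le_sup_left (Submodule.smul_mono le_rfl h0) _
        _ = N ⊔ (𝔫 ^ j • N ⊔ 𝔫 ^ (j + 1) • ⊤) := by
            rw [Submodule.smul_sup, ← Submodule.mul_smul, pow_succ]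
        _ ≤ N ⊔ 𝔫 ^ (j + 1) • ⊤ :=
            sup_le le_sup_left (sup_le (le_trans Submodule.smul_le_right le_sup_left) le_sup_right)
  have hnil : 𝔫 ^ (n + 1) • (⊤ : Submodule (MvPolynomial (Fin c) 𝒪) B) = ⊥ := by
    rw [eq_bot_iff, Submodule.smul_le]
    intro p hp b _
    rw [hsmul, hker p hp, zero_mul]
    exact Submodule.zero_mem _
  have hsurj : Function.Surjective F := by
    intro b
    have := hstep (n + 1) (Submodule.mem_top (x := b))
    rw [hnil, sup_bot_eq] at this
    obtain ⟨p, rfl⟩ := Submodule.mem_span_singleton.mp this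
    exact ⟨p, by rw [hsmul, mul_one]⟩
  haveI := finite_quotient_polyMax_pow 𝒪 c (n + 1)
  refine Nat.card_le_card_of_surjective
    (Ideal.Quotient.lift (𝔫 ^ (n + 1)) (F : MvPolynomial (Fin c) 𝒪 →+* B) hker) ?_
  exact Ideal.Quotient.lift_surjective_of_surjective _ _ hsurj

end Poly

end Fermat.Agent.S53lib

end
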